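import Fermat.Agent.LT.CArch.Radial

/-!
# All smooth radial kernels come from test functions; approximate identities
-/

open Set Filter Topology MeasureTheory
open scoped ContDiff

noncomputable section

namespace Fermat.Agent.LT.CArch

/-- The test function attached to a smooth compactly supported kernel `K`:
`g u = 2π ∫_{cosh u}^∞ K`. -/
def testOf (K : ℝ → ℂ) (u : ℝ) : ℂ := (2 * Real.pi : ℂ) * ∫ w in Ioi (Real.cosh u), K w

theorem hasDerivAt_integral_Ioi {K : ℝ → ℂ} (hK : Continuous K) (hc : HasCompactSupport K)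
    (v : ℝ) : HasDerivAt (fun v => ∫ w in Ioi v, K w) (-(K v)) v := by
  have hi : Integrable K := hK.integrable_of_hasCompactSupport hc
  have h1 : ∀ x, ∫ w in Ioi x, K w = (∫ w in Ioi (v - 1), K w) - ∫ w in (v - 1)..x, K w := by
    intro x
    have := intervalIntegral.integral_interval_add_Ioi (f := K) (a := v - 1) (b := x)
      hi.integrableOn hi.integrableOn
    rw [← this]; ring
  have h2 : HasDerivAt (fun x => ∫ w in (v - 1)..x, K w) (K v) v :=
    intervalIntegral.integral_hasDerivAt_right (hK.intervalIntegrable _ _)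
      (hK.stronglyMeasurableAtFilter _ _) hK.continuousAt
  have h3 := h2.const_sub (∫ w in Ioi (v - 1), K w)
  exact h3.congr_of_eventuallyEq (Eventually.of_forall h1)

theorem le_cosh_of_arcosh_le {V u : ℝ} (hV : 1 ≤ V) (hu : Real.arcosh V ≤ |u|) :
    V ≤ Real.cosh u := by
  have h1 : Real.cosh (Real.arcosh V) ≤ Real.cosh u := by
    rw [Real.cosh_le_cosh, abs_of_nonneg (Real.arcosh_nonneg hV)]
    exact hu
  rwa [Real.cosh_arcosh hV] at h1

theorem testOf_eq_zero {K : ℝ → ℂ} {V : ℝ} (hV : 1 ≤ V) (h : ∀ v, V ≤ v → K v = 0) {u : ℝ}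
    (hu : Real.arcosh V ≤ |u|) : testOf K u = 0 := by
  unfold testOf
  rw [setIntegral_eq_zero_of_forall_eq_zero, mul_zero]
  intro w hw
  exact h w ((le_cosh_of_arcosh_le hV hu).trans (le_of_lt hw))

theorem isTest_testOf {K : ℝ → ℂ} (hK : ContDiff ℝ ∞ K) (hc : HasCompactSupport K) :
    IsTest (testOf K) ∧ ∀ v, 1 ≤ v → kfun (testOf K) v = K v := by
  obtain ⟨R, hR0, hR⟩ := HasCompactSupport.exists_radius hc
  have hd := hasDerivAt_integral_Ioi hK.continuous hc
  have hsm : ContDiff ℝ ∞ (fun v => ∫ w in Ioi v, K w) := by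
    rw [contDiff_infty_iff_deriv]
    refine ⟨fun u => (hd u).differentiableAt, ?_⟩
    have : deriv (fun v => ∫ w in Ioi v, K w) = fun v => -(K v) := funext fun u => (hd u).deriv
    rw [this]
    exact hK.neg
  have hE : EvenSmooth (testOf K) := by
    refine ⟨contDiff_const.mul (hsm.comp Real.contDiff_cosh), fun u => ?_⟩
    unfold testOf
    rw [Real.cosh_neg]
  have hT : IsTest (testOf K) := by
    refine ⟨hE, hasCompactSupport_of_radius (R := Real.arcosh (max R 1)) fun u hu => ?_⟩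
    refine testOf_eq_zero (le_max_right _ _) (fun v hv => hR v ?_) hu
    exact (le_max_left R 1).trans (hv.trans (le_abs_self v))
  refine ⟨hT, fun v hv => ?_⟩
  have hdsh : dsh (testOf K) = fun u => -(2 * Real.pi : ℂ) * K (Real.cosh u) := by
    refine hE.dsh_unique (continuous_const.mul (hK.continuous.comp Real.continuous_cosh))
      fun u => ?_
    have h1 := ((hd (Real.cosh u)).scomp u (Real.hasDerivAt_cosh u)).const_mul (2 * Real.pi : ℂ)
    have h2 : deriv (testOf K) u = _ := h1.deriv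
    rw [h2]
    simp only [Complex.real_smul]
    ring
  unfold kfun
  rw [hdsh]
  simp only
  rw [Real.cosh_arcosh hv]
  have : (Real.pi : ℂ) ≠ 0 := by exact_mod_cast Real.pi_ne_zero
  field_simp

/-- An approximate identity. -/
structure ApproxId (g : ℕ → ℝ → ℂ) (γ κ : ℕ → ℝ → ℝ) (R : ℕ → ℝ) : Prop where
  test : ∀ n, IsTest (g n)
  eqγ : ∀ n u, g n u = (γ n u : ℂ)
  nonneg : ∀ n u, 0 ≤ γ n u
  one : ∀ n, ∫ u, γ n u = 1
  R_nonneg : ∀ n, 0 ≤ R n
  zero : ∀ n u, R n ≤ |u| → g n u = 0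
  tend : Tendsto R atTop (𝓝 0)
  eqκ : ∀ n v, 1 ≤ v → kfun (g n) v = (κ n v : ℂ)
  κ_nonneg : ∀ n v, 1 ≤ v → 0 ≤ κ n v

theorem exists_approxId : ∃ g γ κ R, ApproxId g γ κ R := by
  -- bump functions at `1`
  let b : ∀ n : ℕ, ContDiffBump (1:ℝ) := fun n =>
    ⟨1 / (2 * (n + 1)), 1 / (n + 1), by positivity, by
      rw [div_lt_div_iff_of_pos_left one_pos (by positivity) (by positivity)]
      have : (0:ℝ) < n + 1 := by positivity
      linarith⟩
  let K : ℕ → ℝ → ℂ := fun n v => ((b n v : ℝ) : ℂ)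
  have hKs : ∀ n, ContDiff ℝ ∞ (K n) := fun n =>
    Complex.ofRealCLM.contDiff.comp (b n).contDiff
  have hKc : ∀ n, HasCompactSupport (K n) := fun n =>
    (b n).hasCompactSupport.comp_left (g := fun x : ℝ => (x : ℂ)) Complex.ofReal_zero
  have hT := fun n => isTest_testOf (hKs n) (hKc n)
  let γ' : ℕ → ℝ → ℝ := fun n u => 2 * Real.pi * ∫ w in Ioi (Real.cosh u), b n w
  have hγ' : ∀ n u, testOf (K n) u = (γ' n u : ℂ) := by
    intro n u
    simp only [testOf, K, γ']
    rw [integral_complex_ofReal]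
    push_cast
    rfl
  have hbi : ∀ n, Integrable (b n) := fun n =>
    (b n).continuous.integrable_of_hasCompactSupport (b n).hasCompactSupport
  have hγ0 : ∀ n u, 0 ≤ γ' n u := fun n u =>
    mul_nonneg (by positivity) (integral_nonneg fun w => (b n).nonneg)
  have hγc : ∀ n, Continuous (γ' n) := by
    intro n
    have h1 := (hT n).1.evenSmooth.continuous
    have h2 : γ' n = fun u => (testOf (K n) u).re := by
      funext u; rw [hγ' n u, Complex.ofReal_re]
    rw [h2]
    exact Complex.continuous_re.comp h1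
  have hγcs : ∀ n, HasCompactSupport (γ' n) := by
    intro n
    have h2 : γ' n = fun u => (testOf (K n) u).re := by
      funext u; rw [hγ' n u, Complex.ofReal_re]
    rw [h2]
    exact (hT n).1.compact.comp_left (g := Complex.re) Complex.zero_re
  have hγ00 : ∀ n, 0 < γ' n 0 := by
    intro n
    refine mul_pos (by positivity) ?_
    rw [Real.cosh_zero, setIntegral_pos_iff_support_of_nonneg_ae
      (Eventually.of_forall fun w => (b n).nonneg) (hbi n).integrableOn, (b n).support_eq]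
    have h1 : Ioo (1:ℝ) (1 + (b n).rOut) ⊆ Metric.ball 1 (b n).rOut ∩ Ioi 1 := by
      intro x hx
      refine ⟨?_, hx.1⟩
      rw [Metric.mem_ball, Real.dist_eq, abs_of_pos (by linarith [hx.1])]
      linarith [hx.2]
    refine lt_of_lt_of_le ?_ (measure_mono h1)
    rw [Real.volume_Ioo]
    simp [(b n).rOut_pos]
  let m : ℕ → ℝ := fun n => ∫ u, γ' n u
  have hm : ∀ n, 0 < m n := by
    intro n
    exact (hγc n).integral_pos_of_hasCompactSupport_nonneg_nonzero (hγcs n) (hγ0 n) (hγ00 n).ne'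
  refine ⟨fun n u => ((1 / m n : ℝ) : ℂ) * testOf (K n) u, fun n u => 1 / m n * γ' n u,
    fun n v => 1 / m n * b n v, fun n => Real.arcosh (1 + 1 / (n + 1)), ?_⟩
  have hV : ∀ n : ℕ, (1:ℝ) ≤ 1 + 1 / (n + 1) := fun n => by
    have : (0:ℝ) < 1 / (n + 1) := by positivity
    linarith
  refine ⟨fun n => (hT n).1.const_mul _, fun n u => ?_, fun n u => ?_, fun n => ?_, fun n => ?_,
    fun n u hu => ?_, ?_, fun n v hv => ?_, fun n v _ => ?_⟩
  · rw [hγ' n u]; push_cast; rfl
  · exact mul_nonneg (by have := hm n; positivity) (hγ0 n u)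
  · rw [integral_const_mul]
    have := (hm n).ne'
    simp only [m] at this ⊢
    field_simp
  · exact Real.arcosh_nonneg (hV n)
  · rw [testOf_eq_zero (hV n) _ hu, mul_zero]
    intro v hv
    simp only [K]
    rw [(b n).zero_of_le_dist, Complex.ofReal_zero]
    rw [Real.dist_eq, abs_of_nonneg (by linarith [hV n])]
    change 1 / ((n:ℝ) + 1) ≤ v - 1
    linarith
  · have h1 : Tendsto (fun n : ℕ => (1:ℝ) + 1 / (n + 1)) atTop (𝓝[Ici 1] 1) := by
      rw [tendsto_nhdsWithin_iff]
      refine ⟨?_, Eventually.of_forall hV⟩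
      have := (tendsto_one_div_add_atTop_nhds_zero_nat (𝕜 := ℝ)).const_add 1
      rwa [add_zero] at this
    have h2 : Tendsto Real.arcosh (𝓝[Ici 1] 1) (𝓝 (Real.arcosh 1)) :=
      Real.continuousOn_arcosh 1 self_mem_Ici
    rw [Real.arcosh_zero] at h2
    exact h2.comp h1
  · rw [kfun_const_mul (hT n).1.evenSmooth, (hT n).2 v hv]
    push_cast
    rfl
  · exact mul_nonneg (by have := hm n; positivity) (b n).nonneg

namespace ApproxId

variable {g : ℕ → ℝ → ℂ} {γ κ : ℕ → ℝ → ℝ} {R : ℕ → ℝ}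

theorem integrable_γ (h : ApproxId g γ κ R) (n : ℕ) : Integrable (γ n) := by
  by_contra hn
  have := h.one n
  rw [integral_undef hn] at this
  exact zero_ne_one this

/-- The transforms tend to one. -/
theorem tendsto_hat (h : ApproxId g γ κ R) (s : ℂ) :
    Tendsto (fun n => hat (g n) s) atTop (𝓝 1) := by
  rw [Metric.tendsto_atTop]
  intro ε hε
  have hc : ContinuousAt (fun u : ℝ => Complex.exp (s * u)) 0 :=
    (continuous_cexp_mul s).continuousAt
  rw [Metric.continuousAt_iff] at hc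
  obtain ⟨r, hr, hr'⟩ := hc (ε / 2) (half_pos hε)
  obtain ⟨N, hN⟩ := (Metric.tendsto_atTop.mp h.tend) r hr
  refine ⟨N, fun n hn => ?_⟩
  have hRn : R n < r := by
    have := hN n hn
    rw [Real.dist_eq, sub_zero] at this
    exact (le_abs_self _).trans_lt this
  have h1 : hat (g n) s - 1 = ∫ u : ℝ, ((γ n u : ℝ) : ℂ) * (Complex.exp (s * u) - 1) := by
    have e1 : (1:ℂ) = ∫ u : ℝ, ((γ n u : ℝ) : ℂ) := by
      rw [integral_complex_ofReal, h.one n, Complex.ofReal_one]
    have i1 : Integrable fun u : ℝ => ((γ n u : ℝ) : ℂ) := (h.integrable_γ n).ofReal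
    have i2 : Integrable fun u : ℝ => g n u * Complex.exp (s * u) :=
      (h.test n).integrable_mul (continuous_cexp_mul s)
    rw [e1]
    unfold hat
    rw [← integral_sub i2 i1]
    refine integral_congr_ae (Eventually.of_forall fun u => ?_)
    simp only [h.eqγ]
    rw [← e1]
    ring
  rw [dist_eq_norm, h1]
  have h2 : ‖∫ u : ℝ, ((γ n u : ℝ) : ℂ) * (Complex.exp (s * u) - 1)‖ ≤ ∫ u, ε / 2 * γ n u := by
    refine norm_integral_le_of_norm_le ((h.integrable_γ n).const_mul _)
      (Eventually.of_forall fun u => ?_)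
    rw [norm_mul, Complex.norm_real, Real.norm_eq_abs, abs_of_nonneg (h.nonneg n u), mul_comm]
    rcases le_or_gt (R n) |u| with hu | hu
    · have : γ n u = 0 := by
        have := h.zero n u hu
        rw [h.eqγ] at this
        exact_mod_cast this
      rw [this, mul_zero, mul_zero]
    · refine mul_le_mul_of_nonneg_right ?_ (h.nonneg n u)
      have := hr' (x := u) (by rw [Real.dist_eq, sub_zero]; exact hu.trans hRn)
      rw [dist_eq_norm] at this
      simp only [Complex.ofReal_zero, mul_zero, Complex.exp_zero] at this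
      exact this.le
  rw [integral_const_mul, h.one n, mul_one] at h2
  linarith

end ApproxId

/-- Small hyperbolic balls are small. -/
theorem exists_hball_small {p : ℂ × ℝ} (hp : p ∈ hs) {η : ℝ} (hη : 0 < η) :
    ∃ V : ℝ, 1 < V ∧ ∀ q ∈ hball p V, dist q p < η := by
  have hp' : 0 < p.2 := hp
  set δ : ℝ := min 1 (η ^ 2 / (16 * p.2 ^ 2)) with hδ
  have hδ0 : 0 < δ := lt_min one_pos (by positivity)
  have hδ1 : δ ≤ 1 := min_le_left _ _
  have hδ2 : δ * (16 * p.2 ^ 2) ≤ η ^ 2 := by
    have := min_le_right (1:ℝ) (η ^ 2 / (16 * p.2 ^ 2))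
    rwa [← hδ, le_div_iff₀ (by positivity)] at this
  refine ⟨1 + δ, by linarith, fun q hq => ?_⟩
  obtain ⟨_, _, h3⟩ := hball_bounds hp (by linarith) hq
  have hq' : 0 < q.2 := hq.1
  have h4 := hq.2
  rw [chc_eq hp hq.1, add_le_add_iff_left, div_le_iff₀ (by positivity)] at h4
  have h5 : Complex.normSq (p.1 - q.1) = ‖q.1 - p.1‖ ^ 2 := by
    rw [Complex.normSq_eq_norm_sq, norm_sub_rev]
  rw [h5] at h4
  have h6 : δ * (2 * p.2 * q.2) ≤ η ^ 2 / 2 := by
    have a1 : q.2 ≤ 4 * p.2 := by nlinarith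
    have a2 : δ * (2 * p.2 * q.2) ≤ δ * (8 * p.2 ^ 2) := by
      refine mul_le_mul_of_nonneg_left ?_ hδ0.le
      nlinarith
    nlinarith
  have h7 : η ^ 2 / 2 < η ^ 2 := by nlinarith [sq_pos_of_pos hη]
  rw [Prod.dist_eq, max_lt_iff, dist_eq_norm, Real.dist_eq]
  constructor
  · refine abs_lt_of_sq_lt_sq' ?_ hη.le |>.2
    nlinarith [sq_nonneg (p.2 - q.2)]
  · refine abs_lt_of_sq_lt_sq ?_ hη.le
    nlinarith [sq_nonneg ‖q.1 - p.1‖]

namespace ApproxId

variable {g : ℕ → ℝ → ℂ} {γ κ : ℕ → ℝ → ℝ} {R : ℕ → ℝ}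

/-- The kernels form an approximate identity. -/
theorem tendsto_kop (h : ApproxId g γ κ R) {φ : ℂ × ℝ → ℂ} (hφ : ContinuousOn φ hs)
    {p : ℂ × ℝ} (hp : p ∈ hs) : Tendsto (fun n => kop (g n) φ p) atTop (𝓝 (φ p)) := by
  have hconst : ContinuousOn (fun _ : ℂ × ℝ => φ p) hs := continuousOn_const
  have hk1 : ∀ n, kop (g n) (fun _ => φ p) p = hat (g n) 1 * φ p := by
    intro n
    have := kop_one (h.test n) hp
    unfold kop
    rw [← this, ← integral_mul_const]
    refine setIntegral_congr_fun measurableSet_hs fun q _ => ?_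
    simp only [smul_mul_assoc]
  have hE : Tendsto (fun n => kop (g n) φ p - kop (g n) (fun _ => φ p) p) atTop (𝓝 0) := by
    rw [Metric.tendsto_atTop]
    intro ε hε
    have hcp : ContinuousAt φ p := hφ.continuousAt (hs_mem_nhds hp)
    rw [Metric.continuousAt_iff] at hcp
    obtain ⟨η, hη, hη'⟩ := hcp (ε / 4) (by positivity)
    obtain ⟨V, hV1, hV⟩ := exists_hball_small hp hη
    have h1 : ∀ᶠ n in atTop, Real.cosh (R n) < V := by
      have : Tendsto (fun n => Real.cosh (R n)) atTop (𝓝 (Real.cosh 0)) :=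
        (Real.continuous_cosh.tendsto 0).comp h.tend
      rw [Real.cosh_zero] at this
      exact this.eventually_lt_const hV1
    have h2 : ∀ᶠ n in atTop, ‖hat (g n) 1‖ < 2 := by
      have := (h.tendsto_hat 1).norm
      rw [norm_one] at this
      exact this.eventually_lt_const one_lt_two
    obtain ⟨N, hN⟩ := eventually_atTop.mp (h1.and h2)
    refine ⟨N, fun n hn => ?_⟩
    obtain ⟨hn1, hn2⟩ := hN n hn
    rw [dist_zero_right]
    have i1 := integrableOn_kop (h.test n) hφ hp
    have i2 := integrableOn_kop (h.test n) hconst hp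
    have i3 := integrableOn_kop (h.test n) (continuousOn_const (c := (1:ℂ)) (s := hs)) hp
    have e1 : kop (g n) φ p - kop (g n) (fun _ => φ p) p =
        ∫ q in hs, ((q.2 ^ 3)⁻¹ : ℝ) • (kfun (g n) (chc p q) * (φ q - φ p)) := by
      unfold kop
      rw [← integral_sub i1 i2]
      refine setIntegral_congr_fun measurableSet_hs fun q _ => ?_
      rw [mul_sub, smul_sub]
    have hreal : ∀ q ∈ hs, ((q.2 ^ 3)⁻¹ : ℝ) • (kfun (g n) (chc p q) * 1) =
        (((q.2 ^ 3)⁻¹ * κ n (chc p q) : ℝ) : ℂ) := by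
      intro q hq
      rw [mul_one, h.eqκ n _ (one_le_chc hp hq), Complex.real_smul]
      push_cast
      rfl
    have i4 : IntegrableOn (fun q : ℂ × ℝ => (q.2 ^ 3)⁻¹ * κ n (chc p q)) hs := by
      have := i3.re
      refine this.congr ?_
      filter_upwards [ae_restrict_mem measurableSet_hs] with q hq
      rw [hreal q hq]
      simp only [RCLike.re_to_complex, Complex.ofReal_re]
    have e2 : ((∫ q in hs, (q.2 ^ 3)⁻¹ * κ n (chc p q) : ℝ) : ℂ) = hat (g n) 1 := by
      rw [← kop_one (h.test n) hp, ← integral_complex_ofReal]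
      refine setIntegral_congr_fun measurableSet_hs fun q hq => ?_
      rw [← hreal q hq, mul_one]
    have hnn : 0 ≤ ∫ q in hs, (q.2 ^ 3)⁻¹ * κ n (chc p q) := by
      refine setIntegral_nonneg measurableSet_hs fun q hq => ?_
      have : 0 < q.2 := hq
      have := h.κ_nonneg n _ (one_le_chc hp hq)
      positivity
    have e3 : ∫ q in hs, (q.2 ^ 3)⁻¹ * κ n (chc p q) < 2 := by
      rw [← e2, Complex.norm_real, Real.norm_eq_abs, abs_of_nonneg hnn] at hn2
      exact hn2
    have hb : ‖∫ q in hs, ((q.2 ^ 3)⁻¹ : ℝ) • (kfun (g n) (chc p q) * (φ q - φ p))‖ ≤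
        ∫ q in hs, ε / 4 * ((q.2 ^ 3)⁻¹ * κ n (chc p q)) := by
      refine norm_integral_le_of_norm_le (i4.const_mul _) ?_
      filter_upwards [ae_restrict_mem measurableSet_hs] with q hq
      have hq' : 0 < q.2 := hq
      have hκ := h.κ_nonneg n _ (one_le_chc hp hq)
      rw [norm_smul, norm_mul, h.eqκ n _ (one_le_chc hp hq), Complex.norm_real, Real.norm_eq_abs,
        Real.norm_eq_abs, abs_of_nonneg hκ, abs_of_nonneg (by positivity)]
      rcases le_or_gt (chc p q) (Real.cosh (R n)) with hc | hc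
      · have h3 := hη' (hV q ⟨hq, hc.trans hn1.le⟩)
        rw [dist_eq_norm] at h3
        have : (q.2 ^ 3)⁻¹ * (κ n (chc p q) * ‖φ q - φ p‖) ≤
            (q.2 ^ 3)⁻¹ * (κ n (chc p q) * (ε / 4)) := by
          gcongr
        linarith
      · have h0 := kfun_eq_zero (h.test n).evenSmooth (h.R_nonneg n) (h.zero n) hc
        rw [h.eqκ n _ (one_le_chc hp hq)] at h0
        have h0' : κ n (chc p q) = 0 := by exact_mod_cast h0
        rw [h0']
        simp
    rw [integral_const_mul] at hb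
    rw [e1]
    nlinarith
  have hS := hE.add ((h.tendsto_hat 1).mul_const (φ p))
  rw [zero_add, one_mul] at hS
  refine hS.congr fun n => ?_
  rw [← hk1 n]
  ring

end ApproxId

/-- A kernel with nonzero eigenvalue exists for every continuous nonzero function. -/
theorem exists_kop_ne_zero {φ : ℂ × ℝ → ℂ} (hφ : ContinuousOn φ hs) {p : ℂ × ℝ} (hp : p ∈ hs)
    (h0 : φ p ≠ 0) : ∃ g, IsTest g ∧ kop g φ p ≠ 0 := by
  obtain ⟨g, γ, κ, R, h⟩ := exists_approxId
  have h1 := (h.tendsto_kop hφ hp).eventually_ne h0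
  obtain ⟨n, hn⟩ := h1.exists
  exact ⟨g n, h.test n, hn⟩

theorem exists_hat_ne_zero (s : ℂ) : ∃ g, IsTest g ∧ hat g s ≠ 0 := by
  obtain ⟨g, γ, κ, R, h⟩ := exists_approxId
  have h1 := (h.tendsto_hat s).eventually_ne one_ne_zero
  obtain ⟨n, hn⟩ := h1.exists
  exact ⟨g n, h.test n, hn⟩

end Fermat.Agent.LT.CArch
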