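import Fermat.Agent.LT.CArch.Compose
import Fermat.Agent.LT.B.Deriv

/-!
# The archimedean calculus on `H3` and on products `ι → H3`
-/

open Set Filter Topology MeasureTheory
open scoped ContDiff ComplexConjugate

noncomputable section

namespace Fermat.Agent.LT.CArch

open Fermat.LT

/-- Extend a function on `H3` by zero to `ℂ × ℝ`. -/
def ext0 (φ : H3 → ℂ) (q : ℂ × ℝ) : ℂ := by
  classical exact if h : 0 < q.2 then φ (H3.mk q.1 q.2 h) else 0

theorem ext0_of_mem (φ : H3 → ℂ) {q : ℂ × ℝ} (hq : q ∈ hs) :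
    ext0 φ q = φ (H3.mk q.1 q.2 hq) := by
  have hq' : 0 < q.2 := hq
  unfold ext0
  rw [dif_pos hq']

theorem ext0_apply (φ : H3 → ℂ) (P : H3) : ext0 φ (P.z, P.t) = φ P :=
  ext0_of_mem φ (q := (P.z, P.t)) P.t_pos

theorem continuousOn_ext0 {φ : H3 → ℂ} (hφ : Continuous φ) : ContinuousOn (ext0 φ) hs := by
  rw [continuousOn_iff_continuous_domRestrict]
  have : hs.domRestrict (ext0 φ) = fun q : hs => φ (H3.mk q.1.1 q.1.2 q.2) := by
    funext q
    exact ext0_of_mem φ q.2
  rw [this]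
  refine hφ.comp (H3.continuous_iff.mpr ⟨?_, ?_⟩)
  · exact continuous_fst.comp continuous_subtype_val
  · exact continuous_snd.comp continuous_subtype_val

/-- The operator on functions on `H3` with kernel `kfun g`. -/
def kopH (g : ℝ → ℂ) (φ : H3 → ℂ) (P : H3) : ℂ := ∫ R : H3, kfun g (H3.ch P R) * φ R

theorem kopH_eq (g : ℝ → ℂ) (φ : H3 → ℂ) (P : H3) :
    kopH g φ P = kop g (ext0 φ) (P.z, P.t) := by
  unfold kopH kop
  have : ∀ R : H3, kfun g (H3.ch P R) * φ R =
      (fun q : ℂ × ℝ => kfun g (chc (P.z, P.t) q) * ext0 φ q) (R.z, R.t) := by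
    intro R
    simp only [ext0_apply]
    rfl
  simp only [this]
  exact integral_H3_eq (fun q : ℂ × ℝ => kfun g (chc (P.z, P.t) q) * ext0 φ q)

theorem integrable_kopH {g : ℝ → ℂ} (hg : IsTest g) {φ : H3 → ℂ} (hφ : Continuous φ) (P : H3) :
    Integrable fun R : H3 => kfun g (H3.ch P R) * φ R := by
  have : ∀ R : H3, kfun g (H3.ch P R) * φ R =
      (fun q : ℂ × ℝ => kfun g (chc (P.z, P.t) q) * ext0 φ q) (R.z, R.t) := by
    intro R
    simp only [ext0_apply]
    rfl
  rw [show (fun R : H3 => kfun g (H3.ch P R) * φ R) = fun R : H3 =>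
      (fun q : ℂ × ℝ => kfun g (chc (P.z, P.t) q) * ext0 φ q) (R.z, R.t) from funext this]
  refine (H3.integrable_iff_set
    (fun q : ℂ × ℝ => kfun g (chc (P.z, P.t) q) * ext0 φ q)).mpr ?_
  rw [set_eq_hs]
  simp only [inv_pow]
  exact integrableOn_kop hg (continuousOn_ext0 hφ) P.t_pos

/-- Smoothness of a function on `H3`. -/
def SmoothH (φ : H3 → ℂ) : Prop := ContDiffOn ℝ ∞ (ext0 φ) hs

/-- The hyperbolic Laplacian on `H3`. -/
def lapH (φ : H3 → ℂ) (P : H3) : ℂ := lap (ext0 φ) (P.z, P.t)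

theorem continuous_of_continuousOn_ext0 {φ : H3 → ℂ} (h : ContinuousOn (ext0 φ) hs) :
    Continuous φ := by
  have h1 : Continuous fun P : H3 => ext0 φ P.1 :=
    h.comp_continuous continuous_subtype_val fun P => P.2
  have : (fun P : H3 => ext0 φ P.1) = φ := funext fun P => ext0_apply φ P
  rwa [this] at h1

theorem SmoothH.continuous {φ : H3 → ℂ} (h : SmoothH φ) : Continuous φ :=
  continuous_of_continuousOn_ext0 h.continuousOn

/-- A Laplace eigenfunction is an eigenfunction of the radial kernels. -/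
theorem kopH_of_lapH {φ : H3 → ℂ} (hφ : ContDiffOn ℝ 2 (ext0 φ) hs) {s : ℂ}
    (h : ∀ P, lapH φ P = (s ^ 2 - 1) * φ P) {g : ℝ → ℂ} (hg : IsTest g) (P : H3) :
    kopH g φ P = hat g s * φ P := by
  have hl : ∀ q ∈ hs, lap (ext0 φ) q = (s ^ 2 - 1) * ext0 φ q := by
    intro q hq
    have := h (H3.mk q.1 q.2 hq)
    rw [ext0_of_mem φ hq, ← this]
    rfl
  have h1 := kop_of_lap hφ hl hg (p := (P.z, P.t)) P.t_pos
  rw [kopH_eq, h1, ext0_apply]

/-- Classification of continuous joint eigenfunctions. -/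
theorem exists_eigenH {φ : H3 → ℂ} (hφ : Continuous φ) {χ : (ℝ → ℂ) → ℂ}
    (h : ∀ g, IsTest g → ∀ P, kopH g φ P = χ g * φ P) (h0 : φ ≠ 0) :
    SmoothH φ ∧ ∃ s : ℂ, (∀ P, lapH φ P = (s ^ 2 - 1) * φ P) ∧ ∀ g, IsTest g → χ g = hat g s := by
  obtain ⟨P0, hP0⟩ := Function.ne_iff.mp h0
  obtain ⟨h1, s, h2, h3⟩ := exists_eigen (continuousOn_ext0 hφ) (χ := χ)
    (fun g hg p hp => by
      have := h g hg (H3.mk p.1 p.2 hp)
      rw [kopH_eq] at this
      rw [ext0_of_mem φ hp, ← this]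
      rfl) (p0 := (P0.z, P0.t)) P0.t_pos (by rw [ext0_apply]; exact hP0)
  refine ⟨h1, s, fun P => ?_, h3⟩
  have := h2 (P.z, P.t) P.t_pos
  rw [ext0_apply] at this
  exact this

/-! ### Products -/

open Fermat.Agent.LT.B in
/-- Products of kernels `kfun (g i)` are archimedean test functions. -/
theorem isArchTest_prod {ι : Type*} [Fintype ι] {g : ι → ℝ → ℂ} (hg : ∀ i, IsTest (g i)) :
    IsArchTest (fun c : ι → ℝ => ∏ i, kfun (g i) (c i)) := by
  refine ⟨?_, ?_⟩
  · refine contDiffOn_prod fun i _ => ?_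
    have h1 : ContDiffOn ℝ ∞ (fun c : ι → ℝ => c i) (Ici 1) := (contDiff_apply ℝ ℝ i).contDiffOn
    exact (kfun_contDiffOn (hg i).evenSmooth).comp h1 fun c hc => hc i
  · choose V hV1 hV using fun i => (hg i).exists_kfun_eq_zero
    refine ⟨∑ i, V i, fun c _ hi => ?_⟩
    obtain ⟨i, hi⟩ := hi
    refine Finset.prod_eq_zero (Finset.mem_univ i) (hV i _ (le_trans ?_ hi))
    exact Finset.single_le_sum (f := V) (fun j _ => by have := hV1 j; linarith)
      (Finset.mem_univ i)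

/-- Composition of product kernels. -/
theorem integral_prod_kfun {ι : Type*} [Fintype ι] {g₁ g₂ : ι → ℝ → ℂ}
    (h₁ : ∀ i, IsTest (g₁ i)) (h₂ : ∀ i, IsTest (g₂ i)) (P P' : ι → H3) :
    ∫ R, (∏ i, kfun (g₁ i) (H3.ch (P i) (R i))) * ∏ i, kfun (g₂ i) (H3.ch (R i) (P' i))
      ∂(Measure.pi fun _ : ι => (volume : Measure H3)) =
      ∏ i, kfun (cv (g₁ i) (g₂ i)) (H3.ch (P i) (P' i)) := by
  simp only [← Finset.prod_mul_distrib]
  rw [integral_fintype_prod_eq_prod (fun i (R : H3) =>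
    kfun (g₁ i) (H3.ch (P i) R) * kfun (g₂ i) (H3.ch R (P' i)))]
  exact Finset.prod_congr rfl fun i _ => comp2_eq (h₁ i) (h₂ i) (P i) (P' i)

/-- `kfun` is conjugation equivariant. -/
theorem kfun_conj {g : ℝ → ℂ} (hg : EvenSmooth g) (v : ℝ) :
    kfun (fun u => conj (g u)) v = conj (kfun g v) := by
  have hE : EvenSmooth (fun u => conj (g u)) :=
    ⟨Complex.conjCLE.contDiff.comp hg.smooth, fun u => by rw [hg.even]⟩
  have : dsh (fun u => conj (g u)) = fun u => conj (dsh g u) := by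
    refine hE.dsh_unique (Complex.continuous_conj.comp hg.dsh.continuous) fun u => ?_
    have h1 : HasDerivAt (fun u => conj (g u)) (conj (deriv g u)) u :=
      (hg.differentiable u).hasDerivAt.star
    rw [h1.deriv, hg.deriv_eq_sinh_smul, Complex.real_smul, map_mul, Complex.conj_ofReal,
      Complex.real_smul]
  unfold kfun
  rw [this]
  simp only [map_mul, map_neg, map_div₀, map_one, map_ofNat, Complex.conj_ofReal]

theorem IsTest.conj {g : ℝ → ℂ} (hg : IsTest g) : IsTest (fun u => conj (g u)) :=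
  ⟨⟨Complex.conjCLE.contDiff.comp hg.smooth, fun u => by rw [hg.even]⟩,
    hg.compact.comp_left (g := conj) (map_zero _)⟩

theorem hat_conj (g : ℝ → ℂ) (s : ℂ) :
    hat (fun u => conj (g u)) (conj s) = conj (hat g s) := by
  unfold hat
  rw [← integral_conj]
  refine integral_congr_ae (Eventually.of_forall fun u => ?_)
  simp only
  rw [map_mul, ← Complex.exp_conj, map_mul, Complex.conj_ofReal]

end Fermat.Agent.LT.CArch
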