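import Fermat.Agent.LT.CArch.Isolate

/-!
# Restrictions on the spectral parameter: `s²` is real and `≤ 1`
-/

open Set Filter Topology MeasureTheory
open scoped ContDiff ComplexConjugate

noncomputable section

namespace Fermat.Agent.LT.CArch

open Fermat.LT

/-- Real test functions. -/
def IsRealTest (g : ℝ → ℂ) : Prop := IsTest g ∧ ∀ u, conj (g u) = g u

theorem IsRealTest.deriv2 {g : ℝ → ℂ} (hg : IsRealTest g) : IsRealTest (deriv (deriv g)) := by
  refine ⟨hg.1.deriv2, fun u => ?_⟩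
  have h1 : ∀ {f : ℝ → ℂ}, Differentiable ℝ f → (∀ u, conj (f u) = f u) →
      ∀ u, conj (deriv f u) = deriv f u := by
    intro f hf hc u
    have h2 : HasDerivAt (fun u => conj (f u)) (conj (deriv f u)) u := (hf u).hasDerivAt.star
    have h3 : (fun u => conj (f u)) = f := funext hc
    rw [h3] at h2
    exact h2.deriv.symm
  exact h1 ((hg.1.evenSmooth.smooth_deriv).differentiable (by simp))
    (h1 hg.1.evenSmooth.differentiable hg.2) u

theorem ApproxId.isRealTest {g : ℕ → ℝ → ℂ} {γ κ : ℕ → ℝ → ℝ} {R : ℕ → ℝ}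
    (h : ApproxId g γ κ R) (n : ℕ) : IsRealTest (g n) :=
  ⟨h.test n, fun u => by rw [h.eqγ, Complex.conj_ofReal]⟩

/-- If all real test functions have real eigenvalue then `s²` is real. -/
theorem exists_sq_eq_ofReal {s : ℂ} (h : ∀ g, IsRealTest g → conj (hat g s) = hat g s) :
    ∃ σ : ℝ, s ^ 2 = (σ : ℂ) := by
  obtain ⟨g, γ, κ, R, ha⟩ := exists_approxId
  obtain ⟨n, hn⟩ := ((ha.tendsto_hat s).eventually_ne one_ne_zero).exists
  have h1 := h _ (ha.isRealTest n)
  have h2 := h _ (ha.isRealTest n).deriv2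
  rw [hat_deriv2 (ha.test n), map_mul, h1] at h2
  have h3 := mul_right_cancel₀ hn h2
  rw [Complex.conj_eq_iff_real] at h3
  exact h3

/-- For real `s² = σ > 1` the transforms of the approximate identity exceed the mass. -/
theorem ApproxId.hat_lt {g : ℕ → ℝ → ℂ} {γ κ : ℕ → ℝ → ℝ} {R : ℕ → ℝ}
    (h : ApproxId g γ κ R) (n : ℕ) {σ : ℝ} (hσ : 1 < σ) {s : ℂ} (hs : s ^ 2 = (σ : ℂ)) :
    ‖hat (g n) 1‖ < ‖hat (g n) s‖ := by
  set r : ℝ := Real.sqrt σ with hr
  have hr1 : 1 < r := by rw [hr]; exact Real.lt_sqrt_of_sq_lt (by simpa using hσ)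
  have hsr : hat (g n) s = hat (g n) (r : ℂ) := by
    refine hat_eq_of_sq_eq (h.test n).even ?_
    rw [hs, hr]
    exact_mod_cast (Real.sq_sqrt (by linarith)).symm
  have hγc : Continuous (γ n) := by
    have h2 : γ n = fun u => (g n u).re := by
      funext u; rw [h.eqγ n u, Complex.ofReal_re]
    rw [h2]
    exact Complex.continuous_re.comp (h.test n).evenSmooth.continuous
  have hγs : HasCompactSupport (γ n) := by
    have h2 : γ n = fun u => (g n u).re := by
      funext u; rw [h.eqγ n u, Complex.ofReal_re]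
    rw [h2]
    exact (h.test n).compact.comp_left (g := Complex.re) Complex.zero_re
  -- real formula
  have hreal : ∀ t : ℝ, hat (g n) (t : ℂ) = ((∫ u, γ n u * Real.cosh (t * u) : ℝ) : ℂ) := by
    intro t
    have e1 : hat (g n) (t : ℂ) = (1 / 2 : ℂ) * (hat (g n) t + hat (g n) (-t)) := by
      rw [hat_neg (h.test n).even]; ring
    rw [e1]
    unfold hat
    rw [← integral_add ((h.test n).integrable_mul (continuous_cexp_mul _))
      ((h.test n).integrable_mul (continuous_cexp_mul _)), ← integral_const_mul,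
      ← integral_complex_ofReal]
    refine integral_congr_ae (Eventually.of_forall fun u => ?_)
    simp only [h.eqγ n u]
    push_cast
    rw [Complex.cosh, neg_mul]
    ring
  have h1 : hat (g n) 1 = ((∫ u, γ n u * Real.cosh (1 * u) : ℝ) : ℂ) := by
    have := hreal 1
    rwa [Complex.ofReal_one] at this
  rw [hsr, h1, hreal r, Complex.norm_real, Complex.norm_real, Real.norm_eq_abs, Real.norm_eq_abs,
    abs_of_nonneg (integral_nonneg fun u => mul_nonneg (h.nonneg n u) (Real.cosh_pos _).le),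
    abs_of_nonneg (integral_nonneg fun u => mul_nonneg (h.nonneg n u) (Real.cosh_pos _).le),
    ← sub_pos]
  have hi : ∀ t : ℝ, Integrable fun u => γ n u * Real.cosh (t * u) := fun t =>
    (hγc.mul (Real.continuous_cosh.comp (continuous_const.mul continuous_id))).integrable_of_hasCompactSupport
      hγs.mul_right
  rw [← integral_sub (hi r) (hi 1)]
  -- a point where `γ ≠ 0`
  obtain ⟨u0, hu0, hu0'⟩ : ∃ u, u ≠ 0 ∧ γ n u ≠ 0 := by
    by_contra hcon
    push Not at hcon
    have : γ n = fun _ => 0 :=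
      Continuous.ext_on (dense_compl_singleton (0:ℝ)) hγc continuous_const fun u hu => hcon u hu
    have h1' := h.one n
    rw [this] at h1'
    simp at h1'
  have hle : ∀ u, Real.cosh (1 * u) ≤ Real.cosh (r * u) := by
    intro u
    rw [Real.cosh_le_cosh, one_mul, abs_mul, abs_of_pos (by linarith : 0 < r)]
    nlinarith [abs_nonneg u]
  refine Continuous.integral_pos_of_hasCompactSupport_nonneg_nonzero (x := u0) ?_ ?_ ?_ ?_
  · exact (hγc.mul (Real.continuous_cosh.comp (continuous_const.mul continuous_id))).sub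
      (hγc.mul (Real.continuous_cosh.comp (continuous_const.mul continuous_id)))
  · exact hγs.mul_right.sub hγs.mul_right
  · intro u
    have := mul_le_mul_of_nonneg_left (hle u) (h.nonneg n u)
    simp only [Pi.zero_apply]
    linarith
  · have hlt : Real.cosh (1 * u0) < Real.cosh (r * u0) := by
      rw [Real.cosh_lt_cosh, one_mul, abs_mul, abs_of_pos (by linarith : 0 < r)]
      nlinarith [abs_pos.mpr hu0]
    have hg0 : 0 < γ n u0 := lt_of_le_of_ne (h.nonneg n u0) (Ne.symm hu0')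
    have := mul_lt_mul_of_pos_left hlt hg0
    exact (sub_pos.mpr this).ne'

/-- The norm bound of `kopH g φ` for bounded `φ` and the approximate identity. -/
theorem ApproxId.norm_kopH_le {g : ℕ → ℝ → ℂ} {γ κ : ℕ → ℝ → ℝ} {R : ℕ → ℝ}
    (h : ApproxId g γ κ R) (n : ℕ) {φ : H3 → ℂ} {B : ℝ} (hB : ∀ P, ‖φ P‖ ≤ B) (P : H3) :
    ‖kopH (g n) φ P‖ ≤ ‖hat (g n) 1‖ * B := by
  have h1 : hat (g n) 1 = ∫ R : H3, kfun (g n) (H3.ch P R) := by
    have e1 := integral_H3_eq (fun q : ℂ × ℝ => kfun (g n) (chc (P.z, P.t) q))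
    have e2 := kop_one (h.test n) (p := (P.z, P.t)) P.t_pos
    rw [← e2, ← e1]
    rfl
  have h2 : ∀ R : H3, kfun (g n) (H3.ch P R) = ((κ n (H3.ch P R) : ℝ) : ℂ) := fun R =>
    h.eqκ n _ (H3.one_le_ch P R)
  have hi : Integrable fun R : H3 => kfun (g n) (H3.ch P R) := by
    have := integrable_kopH (h.test n) (φ := fun _ => 1) continuous_const P
    simpa using this
  have hi' : Integrable fun R : H3 => κ n (H3.ch P R) := by
    have := hi.re
    refine this.congr (Eventually.of_forall fun R => ?_)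
    simp only [h2]
    exact Complex.ofReal_re _
  have h3 : ‖hat (g n) 1‖ = ∫ R : H3, κ n (H3.ch P R) := by
    rw [h1]
    simp only [h2]
    rw [integral_complex_ofReal, Complex.norm_real, Real.norm_eq_abs, abs_of_nonneg]
    exact integral_nonneg fun R => h.κ_nonneg n _ (H3.one_le_ch P R)
  rw [h3, ← integral_mul_const]
  unfold kopH
  refine norm_integral_le_of_norm_le (hi'.mul_const B) (Eventually.of_forall fun R => ?_)
  rw [norm_mul, h2, Complex.norm_real, Real.norm_eq_abs,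
    abs_of_nonneg (h.κ_nonneg n _ (H3.one_le_ch P R))]
  exact mul_le_mul_of_nonneg_left (hB R) (h.κ_nonneg n _ (H3.one_le_ch P R))

/-- A bounded nonzero eigenfunction with real `s² = σ` has `σ ≤ 1`. -/
theorem sq_le_one_of_bounded {φ : H3 → ℂ} (hb : ∃ B, ∀ P, ‖φ P‖ ≤ B) (h0 : φ ≠ 0) {s : ℂ}
    (h : ∀ g, IsTest g → ∀ P, kopH g φ P = hat g s * φ P) {σ : ℝ} (hs : s ^ 2 = (σ : ℂ)) :
    σ ≤ 1 := by
  by_contra hσ
  push Not at hσ
  obtain ⟨g, γ, κ, R, ha⟩ := exists_approxId
  have hlt := ha.hat_lt 0 hσ hs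
  obtain ⟨P0, hP0⟩ := Function.ne_iff.mp h0
  obtain ⟨B, hB⟩ := hb
  have hbdd : BddAbove (range fun P => ‖φ P‖) := ⟨B, by rintro _ ⟨P, rfl⟩; exact hB P⟩
  set S : ℝ := ⨆ P, ‖φ P‖ with hS
  have hle : ∀ P, ‖φ P‖ ≤ S := fun P => le_ciSup hbdd P
  have hS0 : 0 < S := lt_of_lt_of_le (norm_pos_iff.mpr hP0) (hle P0)
  have h1 : ∀ P, ‖hat (g 0) s‖ * ‖φ P‖ ≤ ‖hat (g 0) 1‖ * S := by
    intro P
    rw [← norm_mul, ← h (g 0) (ha.test 0) P]
    exact ha.norm_kopH_le 0 hle P
  have h2 : ‖hat (g 0) s‖ * S ≤ ‖hat (g 0) 1‖ * S := by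
    have hpos : 0 < ‖hat (g 0) s‖ := lt_of_le_of_lt (norm_nonneg _) hlt
    have h3 : S ≤ ‖hat (g 0) 1‖ * S / ‖hat (g 0) s‖ := by
      rw [hS]
      have : Nonempty H3 := ⟨P0⟩
      refine ciSup_le fun P => ?_
      rw [le_div_iff₀ hpos, mul_comm]
      exact h1 P
    rw [le_div_iff₀ hpos] at h3
    linarith
  have := le_of_mul_le_mul_right h2 hS0
  exact absurd hlt (not_lt.mpr this)

end Fermat.Agent.LT.CArch
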