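import Fermat.Agent.LT.CArch.Conv
import Fermat.Agent.LT.A.H3Meas

/-!
# Composition of radial kernels on hyperbolic 3-space

`∫_{H³} K_{g₁}(ch P R) K_{g₂}(ch R P') dR = K_{g₁ * g₂}(ch P P')`.
-/

open Set Filter Topology MeasureTheory
open scoped ContDiff ComplexConjugate

noncomputable section

namespace Fermat.Agent.LT.CArch

open Fermat.LT

theorem ch_eq_chc (P P' : H3) : H3.ch P P' = chc (P.z, P.t) (P'.z, P'.t) := rfl

theorem set_eq_hs : H3.set = hs := rfl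

/-- Integral over `H3` in terms of my normalisation. -/
theorem integral_H3_eq (f : ℂ × ℝ → ℂ) :
    ∫ P : H3, f (P.z, P.t) = ∫ q in hs, ((q.2 ^ 3)⁻¹ : ℝ) • f q := by
  rw [H3.integral_eq_set f, set_eq_hs]
  simp only [inv_pow]

/-- The base points `(0, t)`. -/
def pt (t : ℝ) (ht : 0 < t) : H3 := H3.mk 0 t ht

theorem ch_pt_one {t : ℝ} (ht : 0 < t) :
    H3.ch (pt 1 one_pos) (pt t ht) = (t + t⁻¹) / 2 := by
  unfold H3.ch pt
  simp only [H3.z_mk, H3.t_mk, sub_self, Complex.normSq_zero]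
  field_simp
  ring

/-- Step 1: transitivity. -/
theorem exists_smul_eq_pt_one (P : H3) : ∃ g : GL (Fin 2) ℂ, g • P = pt 1 one_pos := by
  have ht : (P.t : ℂ) ≠ 0 := by exact_mod_cast P.t_ne_zero
  let g : GL (Fin 2) ℂ := Matrix.GeneralLinearGroup.mkOfDetNeZero !![1, -P.z; 0, (P.t : ℂ)] (by
    rw [Matrix.det_fin_two_of]
    simpa using ht)
  have h00 : g 0 0 = 1 := rfl
  have h01 : g 0 1 = -P.z := rfl
  have h10 : g 1 0 = 0 := rfl
  have h11 : g 1 1 = (P.t : ℂ) := rfl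
  refine ⟨g, H3.ext ?_ ?_⟩
  · rw [H3.smul_z_of_upper g h10, h00, h01, h11]
    simp [pt]
  · rw [H3.smul_t_of_upper g h10, h00, h11]
    simp only [pt, H3.t_mk, norm_one, Complex.norm_real, Real.norm_eq_abs, abs_of_pos P.t_pos]
    have := P.t_ne_zero
    field_simp

/-- Step 2: rotation to the vertical axis. -/
theorem exists_rotation (P : H3) : ∃ g : GL (Fin 2) ℂ, g • (pt 1 one_pos) = pt 1 one_pos ∧
    (g • P).z = 0 := by
  by_cases hz : P.z = 0
  · exact ⟨1, one_smul _ _, by rw [one_smul]; exact hz⟩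
  set N : ℝ := Complex.normSq P.z + P.t ^ 2 with hN
  set c : ℝ := (1 + N) / (2 * P.t) with hc
  have ht := P.t_pos
  have hc1 : 1 ≤ c := by
    have h1 : c = H3.ch (pt 1 one_pos) P := by
      rw [hc, hN]
      unfold H3.ch pt
      simp only [H3.z_mk, H3.t_mk, zero_sub, Complex.normSq_neg]
      ring
    rw [h1]
    exact H3.one_le_ch _ _
  set μ : ℝ := c - Real.sqrt (c ^ 2 - 1) with hμ
  have hμ2 : μ ^ 2 - 2 * c * μ + 1 = 0 := by
    have := Real.sq_sqrt (show 0 ≤ c ^ 2 - 1 by nlinarith)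
    rw [hμ]
    nlinarith
  set s : ℝ := 1 - P.t * μ with hs'
  have hM : 0 < Complex.normSq P.z + s ^ 2 :=
    add_pos_of_pos_of_nonneg (Complex.normSq_pos.mpr hz) (sq_nonneg s)
  have hMC : (starRingEnd ℂ P.z) * P.z + (s : ℂ) * s ≠ 0 := by
    have : (starRingEnd ℂ P.z) * P.z + (s : ℂ) * s =
        ((Complex.normSq P.z + s ^ 2 : ℝ) : ℂ) := by
      rw [mul_comm (starRingEnd ℂ P.z), Complex.mul_conj]
      push_cast
      ring
    rw [this]
    exact_mod_cast hM.ne'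
  let g : GL (Fin 2) ℂ := Matrix.GeneralLinearGroup.mkOfDetNeZero
    !![starRingEnd ℂ P.z, (s : ℂ); -(s : ℂ), P.z] (by
      rw [Matrix.det_fin_two_of]
      intro h
      apply hMC
      linear_combination h)
  have h00 : g 0 0 = starRingEnd ℂ P.z := rfl
  have h01 : g 0 1 = (s : ℂ) := rfl
  have h10 : g 1 0 = -(s : ℂ) := rfl
  have h11 : g 1 1 = P.z := rfl
  have hdet : (g : Matrix (Fin 2) (Fin 2) ℂ).det =
      ((Complex.normSq P.z + s ^ 2 : ℝ) : ℂ) := by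
    rw [Matrix.det_fin_two]
    change g 0 0 * g 1 1 - g 0 1 * g 1 0 = _
    rw [h00, h01, h10, h11, mul_comm (starRingEnd ℂ P.z), Complex.mul_conj]
    push_cast
    ring
  have hden : H3.den g (pt 1 one_pos) = Complex.normSq P.z + s ^ 2 := by
    unfold H3.den pt
    rw [h10, h11]
    simp only [H3.z_mk, H3.t_mk, mul_zero, zero_add, Complex.normSq_neg, Complex.normSq_ofReal]
    ring
  refine ⟨g, H3.ext ?_ ?_, ?_⟩
  · rw [H3.smul_z, h00, h01, h10, h11]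
    simp only [pt, H3.z_mk, H3.t_mk, mul_zero, zero_add, map_neg, Complex.conj_ofReal,
      Complex.ofReal_one, one_pow, mul_one]
    rw [show (s : ℂ) * (starRingEnd ℂ) P.z + (starRingEnd ℂ) P.z * -(s : ℂ) = 0 by ring, zero_div]
  · rw [H3.smul_t, hdet, hden, Complex.norm_real, Real.norm_eq_abs, abs_of_pos hM]
    simp only [pt, H3.t_mk, mul_one]
    exact div_self hM.ne'
  · rw [H3.smul_z, h00, h01, h10, h11]
    rw [div_eq_zero_iff]
    left
    have hzz : (starRingEnd ℂ) P.z * P.z = ((Complex.normSq P.z : ℝ) : ℂ) := by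
      rw [mul_comm, Complex.mul_conj]
    have hkey : (Complex.normSq P.z + s) * (1 - s) - s * P.t ^ 2 = 0 := by
      have h1 : 1 + N = 2 * P.t * c := by rw [hc]; field_simp
      have h2 : Complex.normSq P.z = N - P.t ^ 2 := by rw [hN]; ring
      rw [h2, hs']
      have h3 : N = 2 * P.t * c - 1 := by linarith
      rw [h3]
      linear_combination (-(P.t ^ 2)) * hμ2
    have hkeyC : (((Complex.normSq P.z : ℝ) : ℂ) + s) * (1 - s) - s * (P.t : ℂ) ^ 2 = 0 := by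
      exact_mod_cast hkey
    simp only [map_add, map_mul, map_neg, Complex.conj_ofReal]
    rw [hzz]
    linear_combination (starRingEnd ℂ P.z) * hkeyC

/-- **Two-point homogeneity**: every pair of points can be moved to `(0,1), (0,t)`, `t ≥ 1`. -/
theorem exists_normal_form (P P' : H3) : ∃ (g : GL (Fin 2) ℂ) (t : ℝ) (ht : 0 < t), 1 ≤ t ∧
    g • P = pt 1 one_pos ∧ g • P' = pt t ht := by
  obtain ⟨g₁, h₁⟩ := exists_smul_eq_pt_one P
  obtain ⟨g₂, h₂, h₂'⟩ := exists_rotation (g₁ • P')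
  have hz : g₂ • g₁ • P' = pt (g₂ • g₁ • P').t (g₂ • g₁ • P').t_pos := H3.ext h₂' rfl
  rcases le_total 1 (g₂ • g₁ • P').t with h | h
  · refine ⟨g₂ * g₁, _, (g₂ • g₁ • P').t_pos, h, ?_, ?_⟩
    · rw [mul_smul, h₁, h₂]
    · rw [mul_smul]; exact hz
  · refine ⟨H3.w * (g₂ * g₁), ((g₂ • g₁ • P').t)⁻¹, inv_pos.mpr (g₂ • g₁ • P').t_pos,
      (one_le_inv₀ (g₂ • g₁ • P').t_pos).mpr h, ?_, ?_⟩
    · rw [mul_smul, mul_smul, h₁, h₂]
      refine H3.ext ?_ ?_
      · rw [H3.smul_z_w]; simp [pt]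
      · rw [H3.smul_t_w]; simp [pt, H3.nn]
    · rw [mul_smul, mul_smul, hz]
      have := (g₂ • g₁ • P').t_ne_zero
      refine H3.ext ?_ ?_
      · rw [H3.smul_z_w]; simp [pt]
      · rw [H3.smul_t_w]
        simp only [pt, H3.nn, H3.z_mk, H3.t_mk, Complex.normSq_zero, zero_add]
        field_simp

/-- The height of the normal form in terms of `ch`. -/
theorem eq_exp_arcosh {t : ℝ} (ht : 1 ≤ t) : t = Real.exp (Real.arcosh ((t + t⁻¹) / 2)) := by
  have ht0 : 0 < t := by linarith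
  have h1 : (t + t⁻¹) / 2 = Real.cosh (Real.log t) := by
    rw [Real.cosh_log ht0]
  rw [h1, Real.arcosh_cosh (Real.log_nonneg ht), Real.exp_log ht0]

/-- The composition of two radial kernels. -/
def comp2 (g₁ g₂ : ℝ → ℂ) (P P' : H3) : ℂ :=
  ∫ R : H3, kfun g₁ (H3.ch P R) * kfun g₂ (H3.ch R P')

theorem comp2_smul (g₁ g₂ : ℝ → ℂ) (γ : GL (Fin 2) ℂ) (P P' : H3) :
    comp2 g₁ g₂ (γ • P) (γ • P') = comp2 g₁ g₂ P P' := by
  unfold comp2
  have h := (H3.measurePreserving_smul' γ).integral_comp (H3.smulHomeo γ).measurableEmbedding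
    (fun R : H3 => kfun g₁ (H3.ch (γ • P) R) * kfun g₂ (H3.ch R (γ • P')))
  rw [← h]
  refine integral_congr_ae (Eventually.of_forall fun R => ?_)
  simp only [H3.ch_smul]

theorem comp2_eq_kop {g₁ g₂ : ℝ → ℂ} (P P' : H3) :
    comp2 g₁ g₂ P P' = kop g₂ (fun q => kfun g₁ (chc (P.z, P.t) q)) (P'.z, P'.t) := by
  unfold comp2 kop
  have : ∀ R : H3, kfun g₁ (H3.ch P R) * kfun g₂ (H3.ch R P') =
      (fun q : ℂ × ℝ => kfun g₂ (chc (P'.z, P'.t) q) * kfun g₁ (chc (P.z, P.t) q)) (R.z, R.t) := by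
    intro R
    rw [H3.ch_comm R P', ch_eq_chc, ch_eq_chc]
    ring
  simp only [this]
  exact integral_H3_eq (fun q : ℂ × ℝ =>
    kfun g₂ (chc (P'.z, P'.t) q) * kfun g₁ (chc (P.z, P.t) q))

/-- The radial profile of the composition. -/
def prof (g₁ g₂ : ℝ → ℂ) (c : ℝ) : ℂ :=
  comp2 g₁ g₂ (pt 1 one_pos) (pt (Real.exp (Real.arcosh c)) (Real.exp_pos _))

theorem comp2_eq_prof (g₁ g₂ : ℝ → ℂ) (P P' : H3) :
    comp2 g₁ g₂ P P' = prof g₁ g₂ (H3.ch P P') := by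
  obtain ⟨γ, t, ht, ht1, h1, h2⟩ := exists_normal_form P P'
  have hch : H3.ch P P' = (t + t⁻¹) / 2 := by
    rw [← H3.ch_smul γ P P', h1, h2, ch_pt_one]
  rw [← comp2_smul g₁ g₂ γ, h1, h2, hch]
  unfold prof
  congr 2
  exact eq_exp_arcosh ht1

theorem mk_one_mem_hs (z : ℂ) : ((z, 1) : ℂ × ℝ) ∈ hs := (one_pos : (0:ℝ) < 1)

theorem prof_eq_kop (g₁ g₂ : ℝ → ℂ) (c : ℝ) : prof g₁ g₂ c =
    kop g₂ (fun q => kfun g₁ (chc (0, 1) q)) (0, Real.exp (Real.arcosh c)) :=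
  comp2_eq_kop _ _

theorem continuousOn_prof {g₁ g₂ : ℝ → ℂ} (h₁ : IsTest g₁) (h₂ : IsTest g₂) :
    ContinuousOn (prof g₁ g₂) (Ici 1) := by
  have h01 : ((0, 1) : ℂ × ℝ) ∈ hs := mk_one_mem_hs 0
  have hφ : ContinuousOn (fun q => kfun g₁ (chc (0, 1) q)) hs :=
    (contDiffOn_kfun_chc_right h₁.evenSmooth h01).continuousOn
  have hk : ContinuousOn (kop g₂ (fun q => kfun g₁ (chc (0, 1) q))) hs :=
    (contDiffOn_kop h₂ hφ).continuousOn
  have hm : ContinuousOn (fun c : ℝ => ((0, Real.exp (Real.arcosh c)) : ℂ × ℝ)) (Ici 1) := by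
    refine ContinuousOn.prodMk continuousOn_const ?_
    exact Real.continuous_exp.comp_continuousOn Real.continuousOn_arcosh
  have := hk.comp hm (fun c _ => Real.exp_pos _)
  exact this.congr fun c _ => prof_eq_kop g₁ g₂ c

theorem exists_prof_eq_zero {g₁ g₂ : ℝ → ℂ} (h₁ : IsTest g₁) (h₂ : IsTest g₂) :
    ∃ V : ℝ, 1 ≤ V ∧ ∀ c, V ≤ c → prof g₁ g₂ c = 0 := by
  obtain ⟨V₁, hV₁, hz₁⟩ := h₁.exists_kfun_eq_zero
  obtain ⟨V₂, hV₂, hz₂⟩ := h₂.exists_kfun_eq_zero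
  refine ⟨4 * V₁ * V₂ + 1, by nlinarith, fun c hc => ?_⟩
  have hc1 : 1 ≤ c := by nlinarith
  rw [prof_eq_kop]
  unfold kop
  refine setIntegral_eq_zero_of_forall_eq_zero fun q hq => ?_
  beta_reduce
  by_cases ha : V₁ ≤ chc (0, 1) q
  · rw [hz₁ _ ha, mul_zero, smul_zero]
  by_cases hb : V₂ ≤ chc (0, Real.exp (Real.arcosh c)) q
  · rw [hz₂ _ hb, zero_mul, smul_zero]
  exfalso
  push Not at ha hb
  have h01 : ((0, 1) : ℂ × ℝ) ∈ hs := mk_one_mem_hs 0
  have hP : ((0, Real.exp (Real.arcosh c)) : ℂ × ℝ) ∈ hs := Real.exp_pos _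
  obtain ⟨-, -, a3⟩ := hball_bounds h01 hV₁.le ⟨hq, ha.le⟩
  obtain ⟨-, b2, -⟩ := hball_bounds hP hV₂.le ⟨hq, hb.le⟩
  simp only at a3 b2
  rw [div_le_iff₀ (by positivity)] at b2
  have h3 : c ≤ Real.exp (Real.arcosh c) := by
    rw [Real.exp_arcosh hc1]
    have := Real.sqrt_nonneg (c ^ 2 - 1)
    linarith
  nlinarith

/-- The kernel seen as a function of the second point, integrated over a horosphere. -/
theorem integral_prof {g₁ g₂ : ℝ → ℂ} (h₁ : IsTest g₁) (h₂ : IsTest g₂) {u : ℝ} :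
    ∫ w : ℂ, prof g₁ g₂ (‖w‖ ^ 2 / (2 * Real.exp u) + Real.cosh u) =
      Real.exp u * cv g₂ g₁ u := by
  obtain ⟨V₁, hV₁, hz₁⟩ := h₁.exists_kfun_eq_zero
  obtain ⟨V₂, hV₂, hz₂⟩ := h₂.exists_kfun_eq_zero
  set p : ℂ × ℝ := (0, Real.exp u) with hp
  have hphs : p ∈ hs := Real.exp_pos u
  have hp2 : 0 < p.2 := hphs
  -- the integrand
  set F : ℂ → ℂ × ℝ → ℂ := fun w q =>
    ((q.2 ^ 3)⁻¹ : ℝ) • (kfun g₁ (chc p q) * kfun g₂ (chc q (w, 1))) with hF
  have e1 : ∀ w : ℂ, prof g₁ g₂ (‖w‖ ^ 2 / (2 * Real.exp u) + Real.cosh u) =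
      ∫ q in hs, F w q := by
    intro w
    have h1 := comp2_eq_prof g₁ g₂ (pt (Real.exp u) (Real.exp_pos u)) (H3.mk w 1 one_pos)
    have h2 : H3.ch (pt (Real.exp u) (Real.exp_pos u)) (H3.mk w 1 one_pos) =
        ‖w‖ ^ 2 / (2 * Real.exp u) + Real.cosh u := by
      rw [ch_eq_chc]
      have := chc_eq_cosh (p := (0, Real.exp u)) (q := (w, 1)) (Real.exp_pos u) (mk_one_mem_hs w)
      simp only [sub_zero, mul_one, Real.log_exp, Real.log_one] at this
      exact this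
    rw [← h2, ← h1]
    unfold comp2
    have h3 : ∀ R : H3, kfun g₁ (H3.ch (pt (Real.exp u) (Real.exp_pos u)) R) *
        kfun g₂ (H3.ch R (H3.mk w 1 one_pos)) =
        (fun q : ℂ × ℝ => kfun g₁ (chc p q) * kfun g₂ (chc q (w, 1))) (R.z, R.t) := fun R => rfl
    simp only [h3]
    exact integral_H3_eq (fun q : ℂ × ℝ => kfun g₁ (chc p q) * kfun g₂ (chc q (w, 1)))
  simp only [e1]
  -- integrability on the product
  have hcF : ContinuousOn (Function.uncurry F) (univ ×ˢ hs) := by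
    have c1 : ContinuousOn (fun x : ℂ × (ℂ × ℝ) => (x.2.2 ^ 3)⁻¹) (univ ×ˢ hs) := by
      refine ContinuousOn.inv₀ (by fun_prop) ?_
      rintro x ⟨_, hx⟩
      have : 0 < x.2.2 := hx
      positivity
    have c2 : ContinuousOn (fun x : ℂ × (ℂ × ℝ) => kfun g₁ (chc p x.2)) (univ ×ˢ hs) := by
      have := (contDiffOn_kfun_chc_right h₁.evenSmooth hphs).continuousOn
      exact this.comp continuousOn_snd fun x hx => hx.2
    have c3 : ContinuousOn (fun x : ℂ × (ℂ × ℝ) => kfun g₂ (chc x.2 (x.1, 1))) (univ ×ˢ hs) := by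
      have h4 := (contDiffOn_kfun_chc h₂.evenSmooth).continuousOn
      have h5 : ContinuousOn (fun x : ℂ × (ℂ × ℝ) => ((x.2, (x.1, 1)) : (ℂ × ℝ) × (ℂ × ℝ)))
          (univ ×ˢ hs) := by fun_prop
      have h6 := h4.comp h5 (fun x hx => ⟨hx.2, mk_one_mem_hs x.1⟩)
      exact h6
    exact c1.smul (c2.mul c3)
  set ρ : ℝ := 2 * V₂ * (2 * V₁ * p.2) + 2 * V₁ * p.2 with hρ
  have hcompact : IsCompact (Metric.closedBall (0:ℂ) ρ ×ˢ hball p V₁) :=
    (isCompact_closedBall _ _).prod (isCompact_hball hphs hV₁.le)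
  have hsub : Metric.closedBall (0:ℂ) ρ ×ˢ hball p V₁ ⊆ univ ×ˢ hs :=
    fun x hx => ⟨mem_univ _, hball_subset _ _ hx.2⟩
  have hint : Integrable (Function.uncurry F) ((volume : Measure ℂ).prod
      ((volume : Measure (ℂ × ℝ)).restrict hs)) := by
    have h7 : (volume : Measure ℂ).prod ((volume : Measure (ℂ × ℝ)).restrict hs) =
        ((volume : Measure ℂ).prod (volume : Measure (ℂ × ℝ))).restrict (univ ×ˢ hs) := by
      rw [← Measure.prod_restrict, Measure.restrict_univ]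
    rw [h7]
    change IntegrableOn _ _ _
    refine ((hcF.mono hsub).integrableOn_compact hcompact).of_forall_sdiff_eq_zero
      (MeasurableSet.univ.prod measurableSet_hs) ?_
    rintro ⟨w, q⟩ ⟨⟨_, hq⟩, hn⟩
    simp only [Function.uncurry, hF]
    by_cases ha : V₁ ≤ chc p q
    · rw [hz₁ _ ha, zero_mul, smul_zero]
    by_cases hb : V₂ ≤ chc q (w, 1)
    · rw [hz₂ _ hb, mul_zero, smul_zero]
    exfalso
    push Not at ha hb
    refine hn ⟨?_, hq, ha.le⟩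
    obtain ⟨a1, a2, a3⟩ := hball_bounds hphs hV₁.le ⟨hq, ha.le⟩
    have hw : ((w, 1) : ℂ × ℝ) ∈ hs := mk_one_mem_hs w
    obtain ⟨b1, b2, b3⟩ := hball_bounds hq hV₂.le ⟨hw, hb.le⟩
    simp only at b1 b2 b3
    rw [mem_closedBall_zero_iff]
    have h8 : ‖w‖ ≤ ‖w - q.1‖ + ‖q.1 - p.1‖ := by
      have := norm_add_le (w - q.1) (q.1 - p.1)
      rwa [sub_add_sub_cancel, show p.1 = 0 from rfl, sub_zero] at this
    have h9 : 2 * V₂ * q.2 ≤ 2 * V₂ * (2 * V₁ * p.2) :=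
      mul_le_mul_of_nonneg_left a3 (by linarith)
    linarith
  rw [integral_integral_swap hint]
  have e2 : ∀ q ∈ hs, ∫ w : ℂ, F w q =
      ((q.2 ^ 3)⁻¹ : ℝ) • (kfun g₁ (chc p q) * (q.2 * g₂ (Real.log q.2))) := by
    intro q hq
    simp only [hF]
    rw [integral_smul, integral_const_mul]
    have := abel_chc h₂ q.1 hq one_pos
    rw [mul_one, Real.log_one, sub_zero] at this
    rw [← this]
  rw [setIntegral_congr_fun measurableSet_hs e2, kop_height_log h₁ hphs h₂.evenSmooth.continuous]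
  have hlog : Real.log p.2 = u := Real.log_exp u
  rw [hlog]
  unfold cv
  congr 1
  refine integral_congr_ae (Eventually.of_forall fun v => ?_)
  simp only
  ring

/-- **Composition of radial kernels.** -/
theorem comp2_eq {g₁ g₂ : ℝ → ℂ} (h₁ : IsTest g₁) (h₂ : IsTest g₂) (P P' : H3) :
    comp2 g₁ g₂ P P' = kfun (cv g₁ g₂) (H3.ch P P') := by
  have hcv := h₁.cv h₂
  obtain ⟨V, hV1, hV⟩ := exists_prof_eq_zero h₁ h₂
  obtain ⟨V', hV1', hV'⟩ := hcv.exists_kfun_eq_zero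
  have key : EqOn (prof g₁ g₂) (kfun (cv g₁ g₂)) (Ici 1) := by
    refine eqOn_of_integral_Ioi (V := max V V') (continuousOn_prof h₁ h₂)
      (kfun_continuousOn hcv.evenSmooth) (fun v hv => hV v ((le_max_left _ _).trans hv))
      (fun v hv => hV' v ((le_max_right _ _).trans hv)) fun c hc => ?_
    have hu : Real.cosh (Real.arcosh c) = c := Real.cosh_arcosh hc
    have e1 := integral_prof h₁ h₂ (u := Real.arcosh c)
    have e2 := abel hcv (a := Real.exp (Real.arcosh c)) (c := c) (Real.exp_pos _) hc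
    rw [hu, abel_general (Real.exp_pos _)] at e1
    rw [abel_general (Real.exp_pos _)] at e2
    rw [cv_comm g₂ g₁, ← e2] at e1
    refine mul_left_cancel₀ ?_ e1
    have : (Real.pi : ℂ) ≠ 0 := by exact_mod_cast Real.pi_ne_zero
    have h3 : ((Real.exp (Real.arcosh c) : ℝ) : ℂ) ≠ 0 := by
      exact_mod_cast (Real.exp_pos _).ne'
    exact mul_ne_zero (mul_ne_zero two_ne_zero this) h3
  rw [comp2_eq_prof]
  exact key (H3.one_le_ch P P')

/-- Composition of radial kernels, unfolded. -/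
theorem integral_kfun_mul_kfun {g₁ g₂ : ℝ → ℂ} (h₁ : IsTest g₁) (h₂ : IsTest g₂) (P P' : H3) :
    ∫ R : H3, kfun g₁ (H3.ch P R) * kfun g₂ (H3.ch R P') = kfun (cv g₁ g₂) (H3.ch P P') :=
  comp2_eq h₁ h₂ P P'

end Fermat.Agent.LT.CArch
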