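import Fermat.Agent.LT.CArch.Eigen

/-!
# Convolution of test functions on the line
-/

open Set Filter Topology MeasureTheory
open scoped ContDiff

noncomputable section

namespace Fermat.Agent.LT.CArch

/-- The convolution on the line. -/
def cv (g₁ g₂ : ℝ → ℂ) (u : ℝ) : ℂ := ∫ v : ℝ, g₁ v * g₂ (u - v)

theorem cv_eq (g₁ g₂ : ℝ → ℂ) :
    cv g₁ g₂ = convolution g₁ g₂ (ContinuousLinearMap.mul ℝ ℂ) volume := by
  funext u
  rw [convolution_def]
  rfl

theorem IsTest.cv {g₁ g₂ : ℝ → ℂ} (h₁ : IsTest g₁) (h₂ : IsTest g₂) : IsTest (cv g₁ g₂) := by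
  refine ⟨⟨?_, fun u => ?_⟩, ?_⟩
  · rw [cv_eq]
    exact h₂.compact.contDiff_convolution_right (𝕜 := ℝ) (n := ⊤) _
      h₁.integrable.locallyIntegrable h₂.smooth
  · unfold CArch.cv
    rw [← integral_neg_eq_self (fun v : ℝ => g₁ v * g₂ (-u - v))]
    refine integral_congr_ae (Eventually.of_forall fun v => ?_)
    simp only [h₁.even]
    congr 1
    rw [← h₂.even]
    congr 1
    ring
  · rw [cv_eq]
    exact h₁.compact.convolution _ h₂.compact

theorem cv_comm (g₁ g₂ : ℝ → ℂ) : cv g₁ g₂ = cv g₂ g₁ := by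
  funext u
  unfold cv
  rw [← integral_sub_left_eq_self (fun v : ℝ => g₁ v * g₂ (u - v)) volume u]
  refine integral_congr_ae (Eventually.of_forall fun v => ?_)
  simp only [sub_sub_cancel]
  ring

/-- The transform is multiplicative. -/
theorem hat_cv {g₁ g₂ : ℝ → ℂ} (h₁ : IsTest g₁) (h₂ : IsTest g₂) (s : ℂ) :
    hat (cv g₁ g₂) s = hat g₁ s * hat g₂ s := by
  have h := integral_convolution (μ := (volume : Measure ℝ)) (ν := (volume : Measure ℝ))
    (ContinuousLinearMap.mul ℝ ℂ)
    (h₁.integrable_mul (continuous_cexp_mul s)) (h₂.integrable_mul (continuous_cexp_mul s))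
  rw [ContinuousLinearMap.mul_apply'] at h
  unfold hat
  rw [← h]
  refine integral_congr_ae (Eventually.of_forall fun u => ?_)
  simp only
  rw [convolution_def]
  unfold cv
  rw [← integral_mul_const]
  refine integral_congr_ae (Eventually.of_forall fun v => ?_)
  simp only [ContinuousLinearMap.mul_apply']
  have : Complex.exp (s * u) = Complex.exp (s * v) * Complex.exp (s * ((u - v : ℝ) : ℂ)) := by
    rw [← Complex.exp_add]
    congr 1
    push_cast
    ring
  rw [this]
  ring

/-! ### The Abel transform of a general continuous kernel and its injectivity -/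

/-- Abel transform of a continuous compactly supported function on `[1,∞)`. -/
theorem abel_general {K : ℝ → ℂ} {a c : ℝ} (ha : 0 < a) :
    ∫ w : ℂ, K (‖w‖ ^ 2 / (2 * a) + c) = (2 * Real.pi * a : ℂ) * ∫ v in Ioi c, K v := by
  have h1 := integral_fun_norm_addHaar (μ := (volume : Measure ℂ))
    (fun r : ℝ => K (r ^ 2 / (2 * a) + c))
  rw [h1, Complex.finrank_real_complex]
  have hvol : (volume : Measure ℂ).real (Metric.ball 0 1) = Real.pi := by
    rw [Measure.real, Complex.volume_ball]
    simp
  rw [hvol]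
  -- substitution `v = r²/(2a) + c`
  have himg : (fun r : ℝ => r ^ 2 / (2 * a) + c) '' Ioi 0 = Ioi c := by
    ext v
    constructor
    · rintro ⟨r, hr, rfl⟩
      have : 0 < r := hr
      change c < r ^ 2 / (2 * a) + c
      have : 0 < r ^ 2 / (2 * a) := by positivity
      linarith
    · intro hv
      have hv' : 0 < v - c := sub_pos.mpr hv
      refine ⟨Real.sqrt (2 * a * (v - c)), Real.sqrt_pos.mpr (by positivity), ?_⟩
      simp only
      rw [Real.sq_sqrt (by positivity)]
      field_simp
      ring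
  have hsub := integral_image_eq_integral_abs_deriv_smul (s := Ioi (0:ℝ)) measurableSet_Ioi
    (f := fun r : ℝ => r ^ 2 / (2 * a) + c) (f' := fun r => r / a)
    (fun r _ => by
      have := (((hasDerivAt_id r).pow 2).div_const (2 * a)).add_const c
      refine (this.congr_deriv ?_).hasDerivWithinAt
      simp only [id]
      field_simp
      ring)
    (by
      intro x hx y hy hxy
      have hx' : 0 < x := hx
      have hy' : 0 < y := hy
      simp only [add_left_inj] at hxy
      rw [div_left_inj' (by positivity)] at hxy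
      exact (pow_left_inj₀ hx'.le hy'.le two_ne_zero).mp hxy) K
  rw [himg] at hsub
  rw [hsub]
  simp only [nsmul_eq_mul, Complex.real_smul]
  rw [← integral_const_mul, ← integral_const_mul, ← integral_const_mul]
  refine setIntegral_congr_fun measurableSet_Ioi fun r hr => ?_
  have hr' : 0 < r := hr
  rw [abs_of_pos (by positivity)]
  have : (a : ℂ) ≠ 0 := by exact_mod_cast ha.ne'
  push_cast
  field_simp

/-- Injectivity of the Abel transform. -/
theorem eqOn_of_integral_Ioi {K L : ℝ → ℂ} {V : ℝ} (hK : ContinuousOn K (Ici 1))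
    (hL : ContinuousOn L (Ici 1)) (hK0 : ∀ v, V ≤ v → K v = 0) (hL0 : ∀ v, V ≤ v → L v = 0)
    (h : ∀ c, 1 ≤ c → ∫ v in Ioi c, K v = ∫ v in Ioi c, L v) : EqOn K L (Ici 1) := by
  -- extend the difference
  set D : ℝ → ℂ := fun v => K v - L v with hD
  have hDc : ContinuousOn D (Ici 1) := hK.sub hL
  have hi : ∀ {f : ℝ → ℂ}, ContinuousOn f (Ici 1) → (∀ v, V ≤ v → f v = 0) →
      IntegrableOn f (Ioi 1) := by
    intro f hf h0
    have h1 : IntegrableOn f (Icc 1 V) :=
      (hf.mono fun x hx => hx.1).integrableOn_compact isCompact_Icc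
    refine h1.of_forall_sdiff_eq_zero measurableSet_Ioi fun x hx => ?_
    refine h0 x ?_
    by_contra hlt
    exact hx.2 ⟨le_of_lt hx.1, (not_le.mp hlt).le⟩
  have hiK := hi hK hK0
  have hiL := hi hL hL0
  have hint : ∀ a b, 1 ≤ a → a ≤ b → ∫ v in a..b, D v = 0 := by
    intro a b ha hab
    have hKa : IntegrableOn K (Ioi a) := hiK.mono_set (Ioi_subset_Ioi ha)
    have hLa : IntegrableOn L (Ioi a) := hiL.mono_set (Ioi_subset_Ioi ha)
    have e1 := intervalIntegral.integral_Ioi_sub_Ioi hKa hab
    have e2 := intervalIntegral.integral_Ioi_sub_Ioi hLa hab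
    have hcK : IntervalIntegrable K volume a b :=
      (hK.mono (by rw [uIcc_of_le hab]; exact fun x hx => ha.trans hx.1)).intervalIntegrable
    have hcL : IntervalIntegrable L volume a b :=
      (hL.mono (by rw [uIcc_of_le hab]; exact fun x hx => ha.trans hx.1)).intervalIntegrable
    rw [hD]
    simp only
    rw [intervalIntegral.integral_sub hcK hcL, ← e1, ← e2, h a ha, h b (ha.trans hab)]
    ring
  -- interior points
  have hin : ∀ v, 1 < v → D v = 0 := by
    intro v hv
    have hcv : ContinuousAt D v := hDc.continuousAt (Ici_mem_nhds hv)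
    have hd : HasDerivAt (fun x => ∫ t in (1:ℝ)..x, D t) (D v) v := by
      refine intervalIntegral.integral_hasDerivAt_right ?_ ?_ hcv
      · exact (hDc.mono (by rw [uIcc_of_le hv.le]; exact fun x hx => hx.1)).intervalIntegrable
      · exact ContinuousOn.stronglyMeasurableAtFilter isOpen_Ioi
          (hDc.mono Ioi_subset_Ici_self) v hv
    have hz : HasDerivAt (fun x => ∫ t in (1:ℝ)..x, D t) 0 v := by
      refine (hasDerivAt_const v (0:ℂ)).congr_of_eventuallyEq ?_
      filter_upwards [Ioi_mem_nhds hv] with x hx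
      exact hint 1 x le_rfl (le_of_lt hx)
    exact hd.unique hz
  intro v hv
  rcases (mem_Ici.mp hv).lt_or_eq with hlt | rfl
  · exact sub_eq_zero.mp (hin v hlt)
  · -- limit at `1`
    have h1 : Tendsto D (𝓝[>] 1) (𝓝 (D 1)) :=
      (hDc 1 self_mem_Ici).mono_left (nhdsWithin_mono _ Ioi_subset_Ici_self)
    have h2 : Tendsto D (𝓝[>] 1) (𝓝 0) := by
      refine tendsto_const_nhds.congr' ?_
      filter_upwards [self_mem_nhdsWithin] with x hx using (hin x hx).symm
    exact sub_eq_zero.mp (tendsto_nhds_unique h1 h2)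

end Fermat.Agent.LT.CArch
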