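import Fermat.Agent.LT.CArch.Approx

/-!
# Laplace eigenfunctions = eigenfunctions of the radial kernels
-/

open Set Filter Topology MeasureTheory
open scoped ContDiff

noncomputable section

namespace Fermat.Agent.LT.CArch

/-- A Laplace eigenfunction on hyperbolic space is an eigenfunction of all radial kernels. -/
theorem kop_of_lap {φ : ℂ × ℝ → ℂ} (hφ : ContDiffOn ℝ 2 φ hs) {s : ℂ}
    (h : ∀ q ∈ hs, lap φ q = (s ^ 2 - 1) * φ q) {g : ℝ → ℂ} (hg : IsTest g) {p : ℂ × ℝ}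
    (hp : p ∈ hs) : kop g φ p = hat g s * φ p := by
  -- the functional kills the kernel of `hat · s`
  have hker : ∀ g, IsTest g → hat g s = 0 → kop g φ p = 0 := by
    intro g hg h0
    obtain ⟨f, hf, hfe⟩ := exists_ode hg h0
    have e : g = fun u => deriv (deriv f) u - (s ^ 2) * f u := funext fun u => (hfe u).symm
    have h1 := kop_deriv2 hf hφ hp
    have h2 : kop f (lap φ) p = (s ^ 2 - 1) * kop f φ p := by
      rw [kop_congr_right f (ψ := fun q => (s ^ 2 - 1) * φ q) h, kop_mul_right]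
    rw [e, kop_sub hf.deriv2 (hf.const_mul _) hφ.continuousOn hp, kop_const_mul hf]
    rw [h2] at h1
    linear_combination h1
  obtain ⟨g0, hg0, hg0s⟩ := exists_hat_ne_zero s
  have hlin : ∀ g, IsTest g → kop g φ p = hat g s * (kop g0 φ p / hat g0 s) := by
    intro g hg
    have h1 := hker (fun u => g u - (hat g s / hat g0 s) * g0 u) (hg.sub (hg0.const_mul _)) (by
      rw [hat_sub hg (hg0.const_mul _), hat_const_mul]
      field_simp
      ring)
    rw [kop_sub hg (hg0.const_mul _) hφ.continuousOn hp, kop_const_mul hg0] at h1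
    rw [sub_eq_zero] at h1
    rw [h1]
    ring
  obtain ⟨gn, γ, κ, R, ha⟩ := exists_approxId
  have h1 := ha.tendsto_kop hφ.continuousOn hp
  have h2 := (ha.tendsto_hat s).mul_const (kop g0 φ p / hat g0 s)
  rw [one_mul] at h2
  have h3 : (fun n => kop (gn n) φ p) = fun n => hat (gn n) s * (kop g0 φ p / hat g0 s) :=
    funext fun n => hlin _ (ha.test n)
  rw [h3] at h1
  have h4 := tendsto_nhds_unique h1 h2
  rw [hlin g hg, h4]

/-- The kernel extended by zero. -/
def kext (g : ℝ → ℂ) (x q : ℂ × ℝ) : ℂ :=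
  hs.indicator (fun q => ((q.2 ^ 3)⁻¹ : ℝ) • kfun g (chc x q)) q

/-- `K_g ⋆ φ` is smooth. -/
theorem contDiffOn_kop {g : ℝ → ℂ} (hg : IsTest g) {φ : ℂ × ℝ → ℂ} (hφ : ContinuousOn φ hs) :
    ContDiffOn ℝ ∞ (kop g φ) hs := by
  obtain ⟨V, hV1, hV⟩ := hg.exists_kfun_eq_zero
  intro p0 hp0
  have hp0' : 0 < p0.2 := hp0
  -- the neighbourhood
  set N : Set (ℂ × ℝ) := {x | x ∈ hs ∧ chc p0 x < 2} with hN
  have hcont : ContinuousOn (chc p0) hs := continuousOn_chc_right hp0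
  have hNo : IsOpen N := hcont.isOpen_inter_preimage isOpen_hs isOpen_Iio
  have hN0 : p0 ∈ N := by
    refine ⟨hp0, ?_⟩
    rw [chc_eq hp0 hp0]
    simp
  have hNhs : N ⊆ hs := fun x hx => hx.1
  -- the compact set
  set C : Set (ℂ × ℝ) := Metric.closedBall p0.1 ((8 * V + 4) * p0.2) ×ˢ
    Icc (p0.2 / (8 * V)) (8 * V * p0.2) with hC
  have hCc : IsCompact C := (isCompact_closedBall _ _).prod isCompact_Icc
  have hChs : C ⊆ hs := by
    rintro q ⟨_, hq⟩
    have : 0 < p0.2 / (8 * V) := by positivity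
    exact this.trans_le hq.1
  have hsupp : ∀ x ∈ N, ∀ q ∈ hs, chc x q ≤ V → q ∈ C := by
    intro x hx q hq hxq
    obtain ⟨a1, a2, a3⟩ := hball_bounds hp0 one_le_two (q := x) ⟨hx.1, hx.2.le⟩
    obtain ⟨b1, b2, b3⟩ := hball_bounds hx.1 hV1.le (q := q) ⟨hq, hxq⟩
    have hx' : 0 < x.2 := hx.1
    have hq' : 0 < q.2 := hq
    refine ⟨?_, ?_, ?_⟩
    · rw [Metric.mem_closedBall, dist_eq_norm]
      have h1 : ‖q.1 - p0.1‖ ≤ ‖q.1 - x.1‖ + ‖x.1 - p0.1‖ := by
        have := norm_add_le (q.1 - x.1) (x.1 - p0.1)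
        rwa [sub_add_sub_cancel] at this
      nlinarith
    · rw [div_le_iff₀ (by positivity)]
      rw [div_le_iff₀ (by positivity)] at a2 b2
      nlinarith
    · nlinarith
  have hkext : ContDiffOn ℝ ∞ (fun x : (ℂ × ℝ) × (ℂ × ℝ) => kext g x.1 x.2) (N ×ˢ univ) := by
    rintro ⟨x, q⟩ ⟨hx, _⟩
    by_cases hq : q ∈ hs
    · have h1 : ContDiffOn ℝ ∞ (fun y : (ℂ × ℝ) × (ℂ × ℝ) =>
          ((y.2.2 ^ 3)⁻¹ : ℝ) • kfun g (chc y.1 y.2)) (hs ×ˢ hs) := by
        have a1 : ContDiffOn ℝ ∞ (fun y : (ℂ × ℝ) × (ℂ × ℝ) => (y.2.2 ^ 3)⁻¹) (hs ×ˢ hs) := by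
          refine ContDiffOn.inv ?_ ?_
          · exact ((contDiff_snd.comp contDiff_snd).pow 3).contDiffOn
          · rintro ⟨a, b⟩ ⟨_, hb⟩
            have : 0 < b.2 := hb
            positivity
        exact a1.smul (contDiffOn_kfun_chc hg.evenSmooth)
      have hopen : hs ×ˢ hs ∈ 𝓝 ((x, q) : (ℂ × ℝ) × (ℂ × ℝ)) :=
        (isOpen_hs.prod isOpen_hs).mem_nhds ⟨hNhs hx, hq⟩
      have h2 : ContDiffAt ℝ ∞ (fun y : (ℂ × ℝ) × (ℂ × ℝ) =>
          ((y.2.2 ^ 3)⁻¹ : ℝ) • kfun g (chc y.1 y.2)) (x, q) :=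
        (h1 (x, q) ⟨hNhs hx, hq⟩).contDiffAt hopen
      refine (h2.congr_of_eventuallyEq ?_).contDiffWithinAt
      filter_upwards [hopen] with y hy
      unfold kext
      rw [indicator_of_mem hy.2]
    · have hqC : q ∉ C := fun h => hq (hChs h)
      have hopen : N ×ˢ Cᶜ ∈ 𝓝 ((x, q) : (ℂ × ℝ) × (ℂ × ℝ)) :=
        (hNo.prod hCc.isClosed.isOpen_compl).mem_nhds ⟨hx, hqC⟩
      have h2 : ContDiffAt ℝ ∞ (fun _ : (ℂ × ℝ) × (ℂ × ℝ) => (0:ℂ)) (x, q) := contDiffAt_const
      refine (h2.congr_of_eventuallyEq ?_).contDiffWithinAt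
      filter_upwards [hopen] with y hy
      unfold kext
      by_cases hy2 : y.2 ∈ hs
      · rw [indicator_of_mem hy2, hV, smul_zero]
        by_contra hlt
        exact hy.2 (hsupp y.1 hy.1 y.2 hy2 (not_le.mp hlt).le)
      · rw [indicator_of_notMem hy2]
  -- the convolution
  have := isAddHaarMeasure_volume
  have hf : LocallyIntegrable (C.indicator φ) := by
    refine Integrable.locallyIntegrable ?_
    rw [integrable_indicator_iff hCc.isClosed.measurableSet]
    exact (hφ.mono hChs).integrableOn_compact hCc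
  have hconv := contDiffOn_convolution_right_with_param_comp (𝕜 := ℝ) (n := ⊤)
    (μ := (volume : Measure (ℂ × ℝ))) (ContinuousLinearMap.mul ℝ ℂ) (s := N)
    (v := fun _ : ℂ × ℝ => (0 : ℂ × ℝ)) contDiffOn_const
    (f := C.indicator φ) (g := fun x y => kext g x (-y)) (k := (fun y => -y) ⁻¹' C) hNo
    ((Homeomorph.neg (ℂ × ℝ)).isCompact_preimage.mpr hCc) (by
      intro x y hx hy
      unfold kext
      by_cases hy2 : -y ∈ hs
      · rw [indicator_of_mem hy2, hV, smul_zero]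
        by_contra hlt
        exact hy (hsupp x hx (-y) hy2 (not_le.mp hlt).le)
      · rw [indicator_of_notMem hy2]) hf (by
      have hm : ContDiffOn ℝ ∞ (fun y : (ℂ × ℝ) × (ℂ × ℝ) => (y.1, -y.2)) (N ×ˢ univ) := by
        apply ContDiff.contDiffOn
        exact contDiff_fst.prodMk contDiff_snd.neg
      exact ContDiffOn.comp (t := N ×ˢ univ) (g := fun x : (ℂ × ℝ) × (ℂ × ℝ) => kext g x.1 x.2)
        (f := fun y : (ℂ × ℝ) × (ℂ × ℝ) => (y.1, -y.2)) hkext hm fun y hy => ⟨hy.1, mem_univ _⟩)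
  have heq : EqOn (kop g φ)
      (fun x => (convolution (C.indicator φ) (fun y => kext g x (-y))
        (ContinuousLinearMap.mul ℝ ℂ) volume) 0) N := by
    intro x hx
    change _ = convolution (C.indicator φ) (fun y => kext g x (-y))
        (ContinuousLinearMap.mul ℝ ℂ) volume 0
    unfold kop
    rw [convolution_def, ← integral_indicator measurableSet_hs]
    refine integral_congr_ae (Eventually.of_forall fun q => ?_)
    simp only [zero_sub, neg_neg, ContinuousLinearMap.mul_apply']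
    by_cases hq : q ∈ hs
    · rw [indicator_of_mem hq]
      unfold kext
      rw [indicator_of_mem hq]
      by_cases hqC : q ∈ C
      · rw [indicator_of_mem hqC, mul_smul_comm, mul_comm]
      · rw [indicator_of_notMem hqC, hV, zero_mul, smul_zero, mul_comm, mul_zero]
        by_contra hlt
        exact hqC (hsupp x hx q hq (not_le.mp hlt).le)
    · rw [indicator_of_notMem hq]
      unfold kext
      rw [indicator_of_notMem hq, mul_zero]
  have hfin : ContDiffOn ℝ ∞ (kop g φ) N := hconv.congr heq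
  exact ((hfin p0 hN0).contDiffAt (hNo.mem_nhds hN0)).contDiffWithinAt

/-- **Classification**: a continuous joint eigenfunction of all radial kernels is smooth, is a
Laplace eigenfunction, and its eigenvalues are `hat g s`. -/
theorem exists_eigen {φ : ℂ × ℝ → ℂ} (hφ : ContinuousOn φ hs) {χ : (ℝ → ℂ) → ℂ}
    (h : ∀ g, IsTest g → ∀ p ∈ hs, kop g φ p = χ g * φ p) {p0 : ℂ × ℝ} (hp0 : p0 ∈ hs)
    (h0 : φ p0 ≠ 0) : ContDiffOn ℝ ∞ φ hs ∧ ∃ s : ℂ, (∀ q ∈ hs, lap φ q = (s ^ 2 - 1) * φ q) ∧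
      ∀ g, IsTest g → χ g = hat g s := by
  -- smoothness
  have hsm : ContDiffOn ℝ ∞ φ hs := by
    obtain ⟨g, hg, hg0⟩ := exists_kop_ne_zero hφ hp0 h0
    rw [h g hg p0 hp0] at hg0
    have hχ : χ g ≠ 0 := left_ne_zero_of_mul hg0
    have h1 : ContDiffOn ℝ ∞ (fun p => (χ g)⁻¹ * kop g φ p) hs :=
      contDiffOn_const.mul (contDiffOn_kop hg hφ)
    refine h1.congr fun p hp => ?_
    rw [h g hg p hp, inv_mul_cancel_left₀ hχ]
  have hsm2 : ContDiffOn ℝ 2 φ hs := hsm.of_le two_le_infty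
  have hlc := continuousOn_lap hsm2
  refine ⟨hsm, ?_⟩
  obtain ⟨gn, γ, κ, R, ha⟩ := exists_approxId
  have hkey : ∀ p ∈ hs, Tendsto (fun n => (χ (deriv (deriv (gn n))) - χ (gn n)) * φ p) atTop
      (𝓝 (lap φ p)) := by
    intro p hp
    refine (ha.tendsto_kop hlc hp).congr fun n => ?_
    rw [← kop_deriv2 (ha.test n) hsm2 hp, h _ (ha.test n).deriv2 p hp, h _ (ha.test n) p hp]
    ring
  have hlim : Tendsto (fun n => χ (deriv (deriv (gn n))) - χ (gn n)) atTop
      (𝓝 (lap φ p0 / φ p0)) := by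
    refine ((hkey p0 hp0).div_const (φ p0)).congr fun n => ?_
    field_simp
  have hlap : ∀ p ∈ hs, lap φ p = (lap φ p0 / φ p0) * φ p := fun p hp =>
    tendsto_nhds_unique (hkey p hp) (hlim.mul_const (φ p))
  obtain ⟨s, hs2⟩ := IsAlgClosed.exists_pow_nat_eq (lap φ p0 / φ p0 + 1) two_pos
  have hlap' : ∀ q ∈ hs, lap φ q = (s ^ 2 - 1) * φ q := by
    intro q hq
    rw [hlap q hq, hs2]
    ring
  refine ⟨s, hlap', fun g hg => ?_⟩
  have h1 := kop_of_lap hsm2 hlap' hg hp0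
  rw [h g hg p0 hp0] at h1
  exact mul_right_cancel₀ h0 h1

end Fermat.Agent.LT.CArch
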