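import Mathlib

/-!
# Even smooth functions on the line and smooth radial kernels

For an even smooth function `g : ℝ → ℂ` the function `dsh g u = g'(u) / sinh u` (extended by
`g''(0)`) is again even and smooth.  Consequently `v ↦ g (arcosh v)` is smooth on `[1, ∞)`.
-/

open Set Filter Topology MeasureTheory
open scoped ContDiff

noncomputable section

namespace Fermat.Agent.LT.CArch

/-- Even smooth functions. -/
structure EvenSmooth (g : ℝ → ℂ) : Prop where
  smooth : ContDiff ℝ ∞ g
  even : ∀ u, g (-u) = g u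

section Param

variable {E : Type*} [NormedAddCommGroup E] [NormedSpace ℝ E] [CompleteSpace E]

/-- The averages `∫_0^1 w(θ) h(θ u) dθ`. -/
def avg (w : ℝ → ℝ) (h : ℝ → E) (u : ℝ) : E := ∫ θ in (0:ℝ)..1, w θ • h (θ * u)

omit [CompleteSpace E] in
theorem hasDerivAt_avg {w : ℝ → ℝ} (hw : Continuous w) {h : ℝ → E} (hh : ContDiff ℝ 1 h) (u : ℝ) :
    HasDerivAt (avg w h) (avg (fun θ => w θ * θ) (deriv h) u) u := by
  have hcont : Continuous h := hh.continuous
  have hdcont : Continuous (deriv h) := hh.continuous_deriv le_rfl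
  have hdiff : Differentiable ℝ h := hh.differentiable one_ne_zero
  obtain ⟨C, hC⟩ := (isCompact_Icc.prod (isCompact_closedBall u 1) :
    IsCompact (Icc (0:ℝ) 1 ×ˢ Metric.closedBall u 1)).exists_bound_of_continuousOn
    (f := fun p : ℝ × ℝ => (w p.1 * p.1) • deriv h (p.1 * p.2)) (by
      apply Continuous.continuousOn
      fun_prop)
  have := intervalIntegral.hasDerivAt_integral_of_dominated_loc_of_deriv_le (𝕜 := ℝ)
    (μ := volume) (a := 0) (b := 1) (F := fun u θ => w θ • h (θ * u))
    (F' := fun u θ => (w θ * θ) • deriv h (θ * u)) (x₀ := u) (s := Metric.ball u 1)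
    (bound := fun _ => C) (Metric.ball_mem_nhds u one_pos)
    (Eventually.of_forall fun x => by
      apply Continuous.aestronglyMeasurable
      fun_prop)
    (by
      apply Continuous.intervalIntegrable
      fun_prop)
    (by
      apply Continuous.aestronglyMeasurable
      fun_prop)
    (by
      refine Eventually.of_forall fun θ hθ x hx => ?_
      rw [uIoc_of_le zero_le_one] at hθ
      exact hC (θ, x) ⟨⟨hθ.1.le, hθ.2⟩, Metric.ball_subset_closedBall hx⟩)
    (by
      apply Continuous.intervalIntegrable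
      fun_prop)
    (by
      refine Eventually.of_forall fun θ _ x _ => ?_
      have h1 : HasDerivAt (fun x : ℝ => θ * x) θ x := by
        simpa using (hasDerivAt_id x).const_mul θ
      have h2 := (hdiff (θ * x)).hasDerivAt.scomp x h1
      have h3 := h2.const_smul (w θ)
      rw [mul_smul]
      exact h3)
  exact this.2

omit [CompleteSpace E] in
theorem contDiff_avg {w : ℝ → ℝ} (hw : Continuous w) {h : ℝ → E} (hh : ContDiff ℝ ∞ h) :
    ContDiff ℝ ∞ (avg w h) := by
  rw [contDiff_infty]
  intro n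
  induction n generalizing w h with
  | zero =>
    rw [Nat.cast_zero, contDiff_zero]
    exact continuous_iff_continuousAt.mpr fun u =>
      (hasDerivAt_avg hw (hh.of_le (by exact_mod_cast le_top)) u).continuousAt
  | succ n ih =>
    rw [Nat.cast_add, Nat.cast_one, contDiff_succ_iff_deriv]
    have hd : ∀ u, HasDerivAt (avg w h) (avg (fun θ => w θ * θ) (deriv h) u) u :=
      hasDerivAt_avg hw (hh.of_le (by exact_mod_cast le_top))
    refine ⟨fun u => (hd u).differentiableAt, by simp, ?_⟩
    have : deriv (avg w h) = avg (fun θ => w θ * θ) (deriv h) := funext fun u => (hd u).deriv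
    rw [this]
    exact ih (by fun_prop) ((contDiff_infty_iff_deriv.mp hh).2)

theorem avg_mul_self {h : ℝ → E} (hh : ContDiff ℝ 1 h) (u : ℝ) :
    h u - h 0 = u • avg (fun _ => 1) (deriv h) u := by
  have h1 : ∫ x in (0:ℝ)..u, deriv h x = h u - h 0 :=
    intervalIntegral.integral_deriv_eq_sub (fun x _ => (hh.differentiable one_ne_zero) x)
      ((hh.continuous_deriv le_rfl).intervalIntegrable _ _)
  rw [← h1, avg]
  simp only [one_smul]
  rw [intervalIntegral.smul_integral_comp_mul_right (fun x => deriv h x) u]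
  simp

end Param

/-- `g'(u) / sinh u`, extended by `g''(0)`. -/
def dsh (g : ℝ → ℂ) (u : ℝ) : ℂ :=
  if u = 0 then deriv (deriv g) 0 else (Real.sinh u)⁻¹ • deriv g u

/-- `sinh u / u` -/
def shc : ℝ → ℝ := avg (fun _ => 1) Real.cosh

theorem contDiff_shc : ContDiff ℝ ∞ shc := contDiff_avg continuous_const Real.contDiff_cosh

theorem sinh_eq_shc (u : ℝ) : Real.sinh u = u * shc u := by
  have := avg_mul_self (h := Real.sinh) (Real.contDiff_sinh.of_le le_top) u
  rw [Real.sinh_zero, sub_zero, Real.deriv_sinh] at this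
  exact this

theorem shc_zero : shc 0 = 1 := by simp [shc, avg]

theorem shc_pos (u : ℝ) : 0 < shc u := by
  rcases eq_or_ne u 0 with rfl | hu
  · rw [shc_zero]; exact one_pos
  · have h := sinh_eq_shc u
    rcases lt_or_gt_of_ne hu with hu | hu
    · have h1 : Real.sinh u < 0 := by rwa [Real.sinh_neg_iff]
      rw [h] at h1
      exact pos_of_mul_neg_right h1 hu.le
    · have h1 : 0 < Real.sinh u := by rwa [Real.sinh_pos_iff]
      rw [h] at h1
      exact (mul_pos_iff_of_pos_left hu).mp h1

namespace EvenSmooth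

variable {g : ℝ → ℂ}

theorem continuous (hg : EvenSmooth g) : Continuous g := hg.smooth.continuous

theorem differentiable (hg : EvenSmooth g) : Differentiable ℝ g :=
  hg.smooth.differentiable (by simp)

theorem smooth_deriv (hg : EvenSmooth g) : ContDiff ℝ ∞ (deriv g) :=
  (contDiff_infty_iff_deriv.mp hg.smooth).2

theorem smooth_deriv2 (hg : EvenSmooth g) : ContDiff ℝ ∞ (deriv (deriv g)) :=
  (contDiff_infty_iff_deriv.mp hg.smooth_deriv).2

theorem deriv_neg (hg : EvenSmooth g) (u : ℝ) : deriv g (-u) = - deriv g u := by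
  have h1 : (fun u => g (-u)) = g := funext hg.even
  have h2 := deriv_comp_neg g u
  rw [h1] at h2
  rw [h2, neg_neg]

theorem deriv_zero (hg : EvenSmooth g) : deriv g 0 = 0 := by
  have := hg.deriv_neg 0
  rw [neg_zero] at this
  exact CharZero.eq_neg_self_iff.mp this

theorem deriv2_even (hg : EvenSmooth g) (u : ℝ) : deriv (deriv g) (-u) = deriv (deriv g) u := by
  have h1 : (fun u => deriv g (-u)) = fun u => - deriv g u := funext hg.deriv_neg
  have h2 := deriv_comp_neg (deriv g) u
  rw [h1, deriv.fun_neg] at h2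
  exact (neg_injective h2).symm

/-- The second derivative is again even and smooth. -/
theorem deriv2 (hg : EvenSmooth g) : EvenSmooth (deriv (deriv g)) :=
  ⟨hg.smooth_deriv2, hg.deriv2_even⟩

theorem add {f g : ℝ → ℂ} (hf : EvenSmooth f) (hg : EvenSmooth g) :
    EvenSmooth (fun u => f u + g u) :=
  ⟨hf.smooth.add hg.smooth, fun u => by rw [hf.even, hg.even]⟩

theorem sub {f g : ℝ → ℂ} (hf : EvenSmooth f) (hg : EvenSmooth g) :
    EvenSmooth (fun u => f u - g u) :=
  ⟨hf.smooth.sub hg.smooth, fun u => by rw [hf.even, hg.even]⟩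

theorem const_mul (hg : EvenSmooth g) (c : ℂ) : EvenSmooth (fun u => c * g u) :=
  ⟨contDiff_const.mul hg.smooth, fun u => by rw [hg.even]⟩

theorem abs (hg : EvenSmooth g) (u : ℝ) : g |u| = g u := by
  rcases abs_choice u with h | h
  · rw [h]
  · rw [h, hg.even]

theorem deriv_eq_smul_avg (hg : EvenSmooth g) (u : ℝ) :
    deriv g u = u • avg (fun _ => 1) (deriv (deriv g)) u := by
  have := avg_mul_self (h := deriv g) (hg.smooth_deriv.of_le (by exact_mod_cast le_top)) u
  rwa [hg.deriv_zero, sub_zero] at this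

theorem dsh_eq (hg : EvenSmooth g) :
    dsh g = fun u => (shc u)⁻¹ • avg (fun _ => 1) (deriv (deriv g)) u := by
  funext u
  unfold dsh
  split_ifs with h
  · subst h
    rw [shc_zero]
    simp [avg]
  · rw [hg.deriv_eq_smul_avg u, sinh_eq_shc, smul_smul]
    congr 1
    have := (shc_pos u).ne'
    field_simp

/-- The function `g'/sinh` is even and smooth. -/
theorem dsh (hg : EvenSmooth g) : EvenSmooth (dsh g) := by
  refine ⟨?_, fun u => ?_⟩
  · rw [hg.dsh_eq]
    exact (contDiff_shc.inv fun u => (shc_pos u).ne').smul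
      (contDiff_avg continuous_const hg.smooth_deriv2)
  · unfold CArch.dsh
    rcases eq_or_ne u 0 with rfl | h
    · simp
    · rw [if_neg h, if_neg (neg_ne_zero.mpr h), hg.deriv_neg, Real.sinh_neg, inv_neg, neg_smul,
        smul_neg, neg_neg]

theorem deriv_eq_sinh_smul (hg : EvenSmooth g) (u : ℝ) :
    deriv g u = Real.sinh u • CArch.dsh g u := by
  unfold CArch.dsh
  split_ifs with h
  · subst h; simp [hg.deriv_zero]
  · rw [smul_smul, mul_inv_cancel₀ (fun h0 => h (Real.sinh_eq_zero.mp h0)), one_smul]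

/-- Uniqueness: a continuous `F` with `g' = sinh · F` is `dsh g`. -/
theorem dsh_unique (hg : EvenSmooth g) {F : ℝ → ℂ} (hF : Continuous F)
    (h : ∀ u, deriv g u = Real.sinh u • F u) : CArch.dsh g = F := by
  have hne : ∀ u ≠ 0, CArch.dsh g u = F u := fun u hu => by
    have h1 := hg.deriv_eq_sinh_smul u
    rw [h u] at h1
    have hs : Real.sinh u ≠ 0 := fun h0 => hu (Real.sinh_eq_zero.mp h0)
    exact (smul_right_injective ℂ hs h1.symm)
  have hd : Dense ({0}ᶜ : Set ℝ) := dense_compl_singleton 0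
  exact Continuous.ext_on hd hg.dsh.continuous hF fun u hu => hne u hu

theorem hasDerivAt (hg : EvenSmooth g) (u : ℝ) :
    HasDerivAt g (Real.sinh u • CArch.dsh g u) u := by
  rw [← hg.deriv_eq_sinh_smul]
  exact (hg.differentiable u).hasDerivAt

/-- The second derivative in terms of `dsh`. -/
theorem deriv2_eq (hg : EvenSmooth g) :
    deriv (deriv g) = fun u => Real.cosh u • CArch.dsh g u +
      (Real.sinh u ^ 2) • CArch.dsh (CArch.dsh g) u := by
  funext u
  have h1 : deriv g = fun u => Real.sinh u • CArch.dsh g u := funext hg.deriv_eq_sinh_smul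
  rw [h1]
  have h2 : HasDerivAt (fun u => Real.sinh u • CArch.dsh g u) _ u :=
    (Real.hasDerivAt_sinh u).smul (hg.dsh.hasDerivAt u)
  rw [h2.deriv, smul_smul, add_comm, sq]

/-- `dsh (g'')` in terms of the iterates of `dsh`. -/
theorem dsh_deriv2 (hg : EvenSmooth g) :
    CArch.dsh (deriv (deriv g)) = fun u => (Real.sinh u ^ 2) •
      CArch.dsh (CArch.dsh (CArch.dsh g)) u + (3 * Real.cosh u) • CArch.dsh (CArch.dsh g) u
      + CArch.dsh g u := by
  refine hg.deriv2.dsh_unique ?_ fun u => ?_
  · have h1 := hg.dsh.continuous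
    have h2 := hg.dsh.dsh.continuous
    have h3 := hg.dsh.dsh.dsh.continuous
    fun_prop
  · rw [hg.deriv2_eq]
    have h1 := ((Real.hasDerivAt_cosh u).smul (hg.dsh.hasDerivAt u)).add
      (((Real.hasDerivAt_sinh u).pow 2).smul (hg.dsh.dsh.hasDerivAt u))
    have h2 : deriv (fun u => Real.cosh u • CArch.dsh g u +
      (Real.sinh u ^ 2) • CArch.dsh (CArch.dsh g) u) u = _ := h1.deriv
    rw [h2]
    simp only [Pi.pow_apply, Complex.real_smul, Complex.ofReal_mul, Complex.ofReal_pow,
      Complex.ofReal_ofNat, Nat.cast_ofNat]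
    push_cast
    ring

end EvenSmooth

/-! ### The function on `[1, ∞)` -/

/-- For an even smooth `κ`, the function `v ↦ κ (arcosh v)` has derivative
`v ↦ (dsh κ) (arcosh v)` on `[1, ∞)`. -/
theorem hasDerivWithinAt_arcosh {κ : ℝ → ℂ} (hκ : EvenSmooth κ) {v : ℝ}
    (hv : 1 ≤ v) :
    HasDerivWithinAt (fun v => κ (Real.arcosh v)) (dsh κ (Real.arcosh v)) (Ici 1) v := by
  have hgt : ∀ v : ℝ, 1 < v →
      HasDerivAt (fun v => κ (Real.arcosh v)) (dsh κ (Real.arcosh v)) v := by
    intro v hv
    have h1 := (hκ.hasDerivAt (Real.arcosh v)).scomp v (Real.hasDerivAt_arcosh hv)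
    rw [Real.sinh_arcosh hv.le, smul_smul, inv_mul_cancel₀, one_smul] at h1
    · exact h1
    · have : 0 < v ^ 2 - 1 := by nlinarith
      exact (Real.sqrt_pos.mpr this).ne'
  rcases hv.lt_or_eq with hv | rfl
  · exact (hgt v hv).hasDerivWithinAt
  · have hc : ContinuousOn (fun v => κ (Real.arcosh v)) (Ici 1) :=
      hκ.continuous.comp_continuousOn Real.continuousOn_arcosh
    have hc' : ContinuousOn (fun v => dsh κ (Real.arcosh v)) (Ici 1) :=
      hκ.dsh.continuous.comp_continuousOn Real.continuousOn_arcosh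
    refine hasDerivWithinAt_Ici_of_tendsto_deriv (s := Ioi 1)
      (fun x hx => (hgt x hx).differentiableAt.differentiableWithinAt)
      ((hc 1 self_mem_Ici).mono Ioi_subset_Ici_self) self_mem_nhdsWithin ?_
    have h1 : Tendsto (fun v => dsh κ (Real.arcosh v)) (𝓝[>] 1) (𝓝 (dsh κ (Real.arcosh 1))) :=
      (hc' 1 self_mem_Ici).mono_left (nhdsWithin_mono _ Ioi_subset_Ici_self)
    refine h1.congr' ?_
    filter_upwards [self_mem_nhdsWithin] with x hx
    exact (hgt x hx).deriv.symm

/-- For an even smooth `κ`, the function `v ↦ κ (arcosh v)` is smooth on `[1, ∞)`. -/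
theorem contDiffOn_arcosh {κ : ℝ → ℂ} (hκ : EvenSmooth κ) :
    ContDiffOn ℝ ∞ (fun v => κ (Real.arcosh v)) (Ici 1) := by
  rw [contDiffOn_infty]
  intro n
  induction n generalizing κ with
  | zero =>
    rw [Nat.cast_zero, contDiffOn_zero]
    exact hκ.continuous.comp_continuousOn Real.continuousOn_arcosh
  | succ n ih =>
    rw [Nat.cast_add, Nat.cast_one, contDiffOn_succ_iff_derivWithin (uniqueDiffOn_Ici 1)]
    refine ⟨fun v hv => (CArch.hasDerivWithinAt_arcosh hκ hv).differentiableWithinAt, by simp, ?_⟩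
    refine (ih hκ.dsh).congr fun v hv => ?_
    exact (CArch.hasDerivWithinAt_arcosh hκ hv).derivWithin (uniqueDiffOn_Ici 1 v hv)

end Fermat.Agent.LT.CArch
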