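import Fermat.Agent.LT.CArch.Line

/-!
# The half space `{(z,t) | 0 < t} ⊂ ℂ × ℝ`: point pair invariant, Abel transform, integrals
-/

open Set Filter Topology MeasureTheory
open scoped ContDiff

noncomputable section

namespace Fermat.Agent.LT.CArch

/-- The upper half space in `ℂ × ℝ` (same as `Fermat.LT.H3.set`). -/
def hs : Set (ℂ × ℝ) := {p | 0 < p.2}

theorem isOpen_hs : IsOpen hs := isOpen_lt continuous_const continuous_snd

theorem measurableSet_hs : MeasurableSet hs := isOpen_hs.measurableSet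

theorem mem_hs {p : ℂ × ℝ} : p ∈ hs ↔ 0 < p.2 := Iff.rfl

theorem hs_eq : hs = (univ : Set ℂ) ×ˢ Ioi (0:ℝ) := by
  ext p; simp [hs]

/-- `cosh` of the hyperbolic distance, in coordinates. -/
def chc (p q : ℂ × ℝ) : ℝ := (Complex.normSq (p.1 - q.1) + p.2 ^ 2 + q.2 ^ 2) / (2 * p.2 * q.2)

theorem chc_comm (p q : ℂ × ℝ) : chc p q = chc q p := by
  unfold chc
  have : Complex.normSq (p.1 - q.1) = Complex.normSq (q.1 - p.1) := by
    rw [← Complex.normSq_neg, neg_sub]
  rw [this]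
  ring

theorem chc_eq {p q : ℂ × ℝ} (hp : p ∈ hs) (hq : q ∈ hs) :
    chc p q = 1 + (Complex.normSq (p.1 - q.1) + (p.2 - q.2) ^ 2) / (2 * p.2 * q.2) := by
  rw [mem_hs] at hp hq
  unfold chc
  field_simp
  ring

theorem one_le_chc {p q : ℂ × ℝ} (hp : p ∈ hs) (hq : q ∈ hs) : 1 ≤ chc p q := by
  rw [chc_eq hp hq]
  rw [mem_hs] at hp hq
  have := Complex.normSq_nonneg (p.1 - q.1)
  have : 0 ≤ (Complex.normSq (p.1 - q.1) + (p.2 - q.2) ^ 2) / (2 * p.2 * q.2) := by positivity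
  linarith

theorem chc_eq_cosh {p q : ℂ × ℝ} (hp : p ∈ hs) (hq : q ∈ hs) :
    chc p q = ‖q.1 - p.1‖ ^ 2 / (2 * (p.2 * q.2)) + Real.cosh (Real.log p.2 - Real.log q.2) := by
  rw [mem_hs] at hp hq
  have h1 : Complex.normSq (p.1 - q.1) = ‖q.1 - p.1‖ ^ 2 := by
    rw [Complex.normSq_eq_norm_sq, norm_sub_rev]
  rw [← Real.log_div hp.ne' hq.ne', Real.cosh_log (div_pos hp hq)]
  unfold chc
  rw [h1]
  field_simp
  ring

theorem contDiffOn_chc : ContDiffOn ℝ ∞ (fun x : (ℂ × ℝ) × (ℂ × ℝ) => chc x.1 x.2) (hs ×ˢ hs) := by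
  have hre : ContDiff ℝ ∞ (fun z : ℂ => Complex.normSq z) := by
    have : (fun z : ℂ => Complex.normSq z) = fun z => Complex.reCLM z * Complex.reCLM z +
      Complex.imCLM z * Complex.imCLM z := by
      funext z; simp [Complex.normSq_apply]
    rw [this]
    exact (Complex.reCLM.contDiff.mul Complex.reCLM.contDiff).add
      (Complex.imCLM.contDiff.mul Complex.imCLM.contDiff)
  unfold chc
  refine ContDiffOn.div ?_ ?_ ?_
  · refine ContDiff.contDiffOn ?_
    refine ContDiff.add (ContDiff.add ?_ ?_) ?_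
    · exact hre.comp ((contDiff_fst.comp contDiff_fst).sub (contDiff_fst.comp contDiff_snd))
    · exact (contDiff_snd.comp contDiff_fst).pow 2
    · exact (contDiff_snd.comp contDiff_snd).pow 2
  · refine ContDiff.contDiffOn ?_
    exact (contDiff_const.mul (contDiff_snd.comp contDiff_fst)).mul
      (contDiff_snd.comp contDiff_snd)
  · rintro ⟨p, q⟩ ⟨hp, hq⟩
    have h1 : 0 < p.2 := hp
    have h2 : 0 < q.2 := hq
    positivity

theorem contDiffOn_kfun_chc {g : ℝ → ℂ} (hg : EvenSmooth g) :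
    ContDiffOn ℝ ∞ (fun x : (ℂ × ℝ) × (ℂ × ℝ) => kfun g (chc x.1 x.2)) (hs ×ˢ hs) :=
  (kfun_contDiffOn hg).comp contDiffOn_chc fun _ hx => one_le_chc hx.1 hx.2

theorem contDiffOn_kfun_chc_right {g : ℝ → ℂ} (hg : EvenSmooth g) {p : ℂ × ℝ} (hp : p ∈ hs) :
    ContDiffOn ℝ ∞ (fun q => kfun g (chc p q)) hs := by
  have h : ContDiff ℝ ∞ (fun q : ℂ × ℝ => (p, q)) := contDiff_prodMk_right p
  exact ContDiffOn.comp (s := hs) (t := hs ×ˢ hs)
    (g := fun x : (ℂ × ℝ) × (ℂ × ℝ) => kfun g (chc x.1 x.2)) (f := fun q : ℂ × ℝ => (p, q))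
    (contDiffOn_kfun_chc hg) h.contDiffOn fun q hq => ⟨hp, hq⟩

theorem continuousOn_chc_right {p : ℂ × ℝ} (hp : p ∈ hs) : ContinuousOn (chc p) hs := by
  have h1 : ContinuousOn (fun q => (p, q) : ℂ × ℝ → (ℂ × ℝ) × (ℂ × ℝ)) hs := by fun_prop
  have h2 := contDiffOn_chc.continuousOn.comp h1 (fun q hq => ⟨hp, hq⟩)
  exact h2

/-- The closed hyperbolic ball `{q | chc p q ≤ V}`. -/
def hball (p : ℂ × ℝ) (V : ℝ) : Set (ℂ × ℝ) := {q | q ∈ hs ∧ chc p q ≤ V}

theorem hball_bounds {p q : ℂ × ℝ} {V : ℝ} (hp : p ∈ hs) (hV : 1 ≤ V) (hq : q ∈ hball p V) :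
    ‖q.1 - p.1‖ ≤ 2 * V * p.2 ∧ p.2 / (2 * V) ≤ q.2 ∧ q.2 ≤ 2 * V * p.2 := by
  obtain ⟨hq0, hq1⟩ := hq
  rw [mem_hs] at hp hq0
  unfold chc at hq1
  rw [div_le_iff₀ (by positivity)] at hq1
  have h1 : Complex.normSq (p.1 - q.1) = ‖q.1 - p.1‖ ^ 2 := by
    rw [Complex.normSq_eq_norm_sq, norm_sub_rev]
  rw [h1] at hq1
  have hn := sq_nonneg ‖q.1 - p.1‖
  have h3 : q.2 ≤ 2 * V * p.2 := by
    by_contra h
    push Not at h
    nlinarith [sq_nonneg p.2, mul_pos hp hq0]
  have h4 : p.2 ≤ q.2 * (2 * V) := by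
    by_contra h
    push Not at h
    nlinarith [sq_nonneg q.2, mul_pos hp hq0]
  refine ⟨?_, ?_, h3⟩
  · refine abs_le_of_sq_le_sq' ?_ (by positivity) |>.2
    have : V * (2 * p.2 * q.2) ≤ (2 * V * p.2) ^ 2 := by nlinarith [mul_pos hp hq0]
    nlinarith [sq_nonneg p.2, sq_nonneg q.2]
  · rw [div_le_iff₀ (by positivity)]
    exact h4

theorem isCompact_hball {p : ℂ × ℝ} {V : ℝ} (hp : p ∈ hs) (hV : 1 ≤ V) : IsCompact (hball p V) := by
  have hp' : 0 < p.2 := hp
  have hK : IsCompact (Metric.closedBall p.1 (2 * V * p.2) ×ˢ Icc (p.2 / (2 * V)) (2 * V * p.2)) :=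
    (isCompact_closedBall _ _).prod isCompact_Icc
  have hsub : Metric.closedBall p.1 (2 * V * p.2) ×ˢ Icc (p.2 / (2 * V)) (2 * V * p.2) ⊆ hs := by
    rintro q ⟨_, hq⟩
    have : 0 < p.2 / (2 * V) := by positivity
    exact this.trans_le hq.1
  have hcont : ContinuousOn (chc p)
      (Metric.closedBall p.1 (2 * V * p.2) ×ˢ Icc (p.2 / (2 * V)) (2 * V * p.2)) :=
    (continuousOn_chc_right hp).mono hsub
  have h := hcont.preimage_isClosed_of_isClosed hK.isClosed (isClosed_Iic (a := V))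
  have heq : hball p V = (Metric.closedBall p.1 (2 * V * p.2) ×ˢ Icc (p.2 / (2 * V)) (2 * V * p.2))
      ∩ chc p ⁻¹' Iic V := by
    ext q
    constructor
    · intro hq
      obtain ⟨a, b, c⟩ := hball_bounds hp hV hq
      refine ⟨⟨?_, b, c⟩, hq.2⟩
      rwa [Metric.mem_closedBall, dist_eq_norm]
    · rintro ⟨h1, h2⟩
      exact ⟨hsub h1, h2⟩
  rw [heq]
  exact hK.of_isClosed_subset h inter_subset_left

theorem hball_subset (p : ℂ × ℝ) (V : ℝ) : hball p V ⊆ hs := fun _ h => h.1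

/-- A function continuous on the half space and vanishing outside a hyperbolic ball is integrable. -/
theorem integrableOn_of_hball {F : ℂ × ℝ → ℂ} {p : ℂ × ℝ} {V : ℝ} (hp : p ∈ hs) (hV : 1 ≤ V)
    (hF : ContinuousOn F hs) (h0 : ∀ q ∈ hs, V < chc p q → F q = 0) : IntegrableOn F hs := by
  have hK := isCompact_hball hp hV
  have h1 : IntegrableOn F (hball p V) := (hF.mono (hball_subset p V)).integrableOn_compact hK
  refine h1.of_forall_sdiff_eq_zero measurableSet_hs fun q hq => ?_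
  refine h0 q hq.1 ?_
  by_contra h
  exact hq.2 ⟨hq.1, not_lt.mp h⟩

/-- The Abel transform in coordinates:
`∫_ℂ K_g(ch((z,t),(w,t'))) dw = t t' g(log t - log t')`. -/
theorem abel_chc {g : ℝ → ℂ} (hg : IsTest g) (z : ℂ) {t t' : ℝ} (ht : 0 < t) (ht' : 0 < t') :
    ∫ w : ℂ, kfun g (chc (z, t) (w, t')) = ((t * t' : ℝ) : ℂ) * g (Real.log t - Real.log t') := by
  have h1 : ∀ w : ℂ, kfun g (chc (z, t) (w, t')) =
      kfun g (‖w - z‖ ^ 2 / (2 * (t * t')) + Real.cosh (Real.log t - Real.log t')) := fun w => by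
    rw [chc_eq_cosh (p := (z, t)) (q := (w, t')) ht ht']
  simp only [h1]
  rw [integral_sub_right_eq_self (fun w : ℂ => kfun g (‖w‖ ^ 2 / (2 * (t * t')) +
    Real.cosh (Real.log t - Real.log t'))) z, abel hg (mul_pos ht ht') (Real.one_le_cosh _)]
  rcases le_total 0 (Real.log t - Real.log t') with h | h
  · rw [Real.arcosh_cosh h]
  · rw [← Real.cosh_neg, Real.arcosh_cosh (by linarith), hg.even]

/-- Fubini on the half space for functions vanishing outside a hyperbolic ball. -/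
theorem setIntegral_hs_eq {F : ℂ × ℝ → ℂ} (hF : IntegrableOn F hs) :
    ∫ q in hs, F q = ∫ t in Ioi (0:ℝ), ∫ z : ℂ, F (z, t) := by
  have hF' : Integrable F (((volume : Measure ℂ).restrict univ).prod
      ((volume : Measure ℝ).restrict (Ioi 0))) := by
    rw [Measure.prod_restrict, ← hs_eq]
    exact hF
  have h1 : ∫ q in hs, F q = ∫ q, F q ∂(((volume : Measure ℂ).restrict univ).prod
      ((volume : Measure ℝ).restrict (Ioi 0))) := by
    rw [Measure.prod_restrict, ← hs_eq]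
    rfl
  rw [h1, integral_prod_symm _ hF']
  simp only [Measure.restrict_univ]

/-- The operator with kernel `K_g` on functions of the height. -/
theorem kop_height {g : ℝ → ℂ} (hg : IsTest g) {p : ℂ × ℝ} (hp : p ∈ hs) {Φ : ℝ → ℂ}
    (hΦ : ContinuousOn Φ (Ioi 0)) :
    ∫ q in hs, ((q.2 ^ 3)⁻¹ : ℝ) • (kfun g (chc p q) * Φ q.2) =
      ∫ t in Ioi (0:ℝ), ((t ^ 2)⁻¹ * p.2 : ℝ) • (g (Real.log p.2 - Real.log t) * Φ t) := by
  obtain ⟨V, hV1, hV⟩ := hg.exists_kfun_eq_zero
  have hint : IntegrableOn (fun q : ℂ × ℝ => ((q.2 ^ 3)⁻¹ : ℝ) • (kfun g (chc p q) * Φ q.2)) hs := by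
    refine integrableOn_of_hball hp hV1.le ?_ fun q _ hqV => ?_
    · have h1 := (contDiffOn_kfun_chc_right hg.evenSmooth hp).continuousOn
      have h2 : ContinuousOn (fun q : ℂ × ℝ => Φ q.2) hs :=
        hΦ.comp continuousOn_snd fun q hq => hq
      have h3 : ContinuousOn (fun q : ℂ × ℝ => (q.2 ^ 3)⁻¹) hs := by
        refine ContinuousOn.inv₀ (by fun_prop) fun q hq => ?_
        have : 0 < q.2 := hq
        positivity
      exact h3.smul (h1.mul h2)
    · rw [hV _ hqV.le, zero_mul, smul_zero]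
  rw [setIntegral_hs_eq hint]
  refine setIntegral_congr_fun measurableSet_Ioi fun t ht => ?_
  have ht' : 0 < t := ht
  simp only
  rw [integral_smul]
  simp only [integral_mul_const]
  rw [show p = (p.1, p.2) from rfl, abel_chc hg p.1 hp ht']
  simp only [Complex.real_smul]
  push_cast
  have : (t : ℂ) ≠ 0 := by exact_mod_cast ht'.ne'
  field_simp

/-- Substitution `t = exp v`. -/
theorem integral_Ioi_zero_eq (F : ℝ → ℂ) :
    ∫ t in Ioi (0:ℝ), F t = ∫ v : ℝ, Real.exp v • F (Real.exp v) := by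
  have h := integral_image_eq_integral_abs_deriv_smul (s := univ) MeasurableSet.univ
    (fun x _ => (Real.hasDerivAt_exp x).hasDerivWithinAt)
    (fun x _ y _ hxy => Real.exp_injective hxy) F
  rw [image_univ, Real.range_exp] at h
  rw [h, Measure.restrict_univ]
  simp only [abs_of_pos (Real.exp_pos _)]

/-- The operator with kernel `K_g` acts on `t Ψ(log t)` through the convolution of `g` and `Ψ`. -/
theorem kop_height_log {g : ℝ → ℂ} (hg : IsTest g) {p : ℂ × ℝ} (hp : p ∈ hs) {Ψ : ℝ → ℂ}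
    (hΨ : Continuous Ψ) :
    ∫ q in hs, ((q.2 ^ 3)⁻¹ : ℝ) • (kfun g (chc p q) * (q.2 * Ψ (Real.log q.2))) =
      p.2 * ∫ v : ℝ, g (Real.log p.2 - v) * Ψ v := by
  have h := kop_height hg hp (Φ := fun t => t * Ψ (Real.log t)) (by
    refine (Complex.continuous_ofReal.continuousOn).mul (hΨ.comp_continuousOn ?_)
    exact Real.continuousOn_log.mono fun x hx => (ne_of_gt hx))
  rw [h, integral_Ioi_zero_eq, ← integral_const_mul]
  refine integral_congr_ae (Eventually.of_forall fun v => ?_)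
  simp only [Real.log_exp, Complex.real_smul]
  push_cast
  have : Complex.exp v ≠ 0 := Complex.exp_ne_zero _
  field_simp

/-- Powers of the height are eigenfunctions. -/
theorem kop_cpow {g : ℝ → ℂ} (hg : IsTest g) {p : ℂ × ℝ} (hp : p ∈ hs) (s : ℂ) :
    ∫ q in hs, ((q.2 ^ 3)⁻¹ : ℝ) • (kfun g (chc p q) * (q.2 * Complex.exp (s * Real.log q.2))) =
      hat g s * (p.2 * Complex.exp (s * Real.log p.2)) := by
  rw [kop_height_log hg hp (Ψ := fun v => Complex.exp (s * v)) (continuous_cexp_mul s)]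
  have h1 : ∫ v : ℝ, g (Real.log p.2 - v) * Complex.exp (s * v) =
      Complex.exp (s * Real.log p.2) * hat g (-s) := by
    unfold hat
    rw [← integral_const_mul, ← integral_sub_left_eq_self (fun v : ℝ =>
      Complex.exp (s * Real.log p.2) * (g v * Complex.exp (-s * v))) volume (Real.log p.2)]
    refine integral_congr_ae (Eventually.of_forall fun v => ?_)
    simp only
    rw [mul_left_comm, ← Complex.exp_add]
    congr 2
    push_cast
    ring
  rw [h1, hat_neg hg.even]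
  ring

/-- The total mass of the kernel is `hat g 1`. -/
theorem kop_one {g : ℝ → ℂ} (hg : IsTest g) {p : ℂ × ℝ} (hp : p ∈ hs) :
    ∫ q in hs, ((q.2 ^ 3)⁻¹ : ℝ) • kfun g (chc p q) = hat g 1 := by
  have h := kop_cpow hg hp (-1)
  have hp' : 0 < p.2 := hp
  have e : ∀ t : ℝ, 0 < t → (t : ℂ) * Complex.exp (-1 * Real.log t) = 1 := by
    intro t ht
    rw [neg_one_mul, Complex.exp_neg, ← Complex.ofReal_exp, Real.exp_log ht,
      mul_inv_cancel₀ (by exact_mod_cast ht.ne')]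
  rw [e _ hp', mul_one, hat_neg hg.even] at h
  rw [← h]
  refine setIntegral_congr_fun measurableSet_hs fun q hq => ?_
  rw [e _ hq, mul_one]

end Fermat.Agent.LT.CArch
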