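import Fermat.Agent.LT.CArch.OnH3

/-!
# Isolation of a spectral parameter at infinity
-/

open Set Filter Topology MeasureTheory
open scoped ContDiff ComplexConjugate

noncomputable section

namespace Fermat.Agent.LT.CArch

/-- The transform is continuous in the spectral parameter. -/
theorem continuous_hat {g : ℝ → ℂ} (hg : IsTest g) : Continuous (hat g) := by
  obtain ⟨R, hR0, hR⟩ := hg.exists_radius
  have h1 : hat g = fun s : ℂ => ∫ u in (-R)..R, g u * Complex.exp (s * u) := by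
    funext s
    unfold hat
    rw [intervalIntegral.integral_of_le (by linarith)]
    symm
    refine setIntegral_eq_integral_of_forall_compl_eq_zero fun u hu => ?_
    have : R ≤ |u| := by
      by_contra h
      push Not at h
      rw [abs_lt] at h
      exact hu ⟨h.1, h.2.le⟩
    rw [hR u this, zero_mul]
  rw [h1]
  refine intervalIntegral.continuous_parametric_intervalIntegral_of_continuous'
    (f := fun (s : ℂ) (u : ℝ) => g u * Complex.exp (s * u)) ?_ _ _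
  have := hg.evenSmooth.continuous
  fun_prop

/-- A square root of a real number, continuous in it. -/
def sqr (σ : ℝ) : ℂ := (Real.sqrt σ : ℂ) + (Real.sqrt (-σ) : ℂ) * Complex.I

theorem continuous_sqr : Continuous sqr := by
  unfold sqr
  fun_prop

theorem sqr_sq (σ : ℝ) : sqr σ ^ 2 = (σ : ℂ) := by
  unfold sqr
  rcases le_total 0 σ with h | h
  · rw [Real.sqrt_eq_zero_of_nonpos (by linarith : -σ ≤ 0)]
    simp only [Complex.ofReal_zero, zero_mul, add_zero]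
    exact_mod_cast Real.sq_sqrt h
  · rw [Real.sqrt_eq_zero_of_nonpos h]
    simp only [Complex.ofReal_zero, zero_add]
    rw [mul_pow, Complex.I_sq]
    have : (Real.sqrt (-σ) : ℂ) ^ 2 = ((-σ : ℝ) : ℂ) := by
      exact_mod_cast Real.sq_sqrt (by linarith : 0 ≤ -σ)
    rw [this]
    push_cast
    ring

theorem sqr_zero : sqr 0 = 0 := by simp [sqr]

/-- The transform only depends on `s²`. -/
theorem hat_eq_of_sq_eq {g : ℝ → ℂ} (hg : ∀ u, g (-u) = g u) {s t : ℂ} (h : s ^ 2 = t ^ 2) :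
    hat g s = hat g t := by
  rcases sq_eq_sq_iff_eq_or_eq_neg.mp h with h | h
  · rw [h]
  · rw [h, hat_neg hg]

theorem hat_sqr_conj {g : ℝ → ℂ} (hg : IsTest g) (σ : ℝ) :
    conj (hat g (sqr σ)) = hat (fun u => conj (g u)) (sqr σ) := by
  rw [← hat_conj]
  refine hat_eq_of_sq_eq hg.conj.even ?_
  rw [← map_pow, sqr_sq, Complex.conj_ofReal]

/-- Bound at negative parameters. -/
theorem exists_hat_bound {g : ℝ → ℂ} (hg : IsTest g) :
    ∃ C : ℝ, 0 ≤ C ∧ ∀ σ : ℝ, σ < 0 → ‖hat g (sqr σ)‖ ≤ C / |σ| := by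
  refine ⟨∫ u, ‖deriv (deriv g) u‖, integral_nonneg fun u => norm_nonneg _, fun σ hσ => ?_⟩
  rw [le_div_iff₀ (abs_pos.mpr hσ.ne)]
  have h1 : hat (deriv (deriv g)) (sqr σ) = σ * hat g (sqr σ) := by
    rw [hat_deriv2 hg, sqr_sq]
  have h2 : ‖hat g (sqr σ)‖ * |σ| = ‖hat (deriv (deriv g)) (sqr σ)‖ := by
    rw [h1, norm_mul, Complex.norm_real, Real.norm_eq_abs, mul_comm]
  rw [h2]
  unfold hat
  refine (norm_integral_le_integral_norm _).trans (le_of_eq ?_)
  refine integral_congr_ae (Eventually.of_forall fun u => ?_)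
  simp only
  rw [norm_mul, Complex.norm_exp]
  have : (sqr σ * u).re = 0 := by
    unfold sqr
    rw [Real.sqrt_eq_zero_of_nonpos hσ.le]
    simp
  rw [this, Real.exp_zero, mul_one]

/-- The transform in the compact variable `τ = 1/(2-σ)`. -/
def hatτ (g : ℝ → ℂ) (τ : ℝ) : ℂ := if τ = 0 then 0 else hat g (sqr (2 - τ⁻¹))

theorem continuousOn_hatτ {g : ℝ → ℂ} (hg : IsTest g) : ContinuousOn (hatτ g) (Icc 0 1) := by
  intro τ hτ
  rcases hτ.1.eq_or_lt with h0 | h0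
  · -- at zero
    subst h0
    obtain ⟨C, hC0, hC⟩ := exists_hat_bound hg
    unfold ContinuousWithinAt
    have h00 : hatτ g 0 = 0 := by simp [hatτ]
    rw [h00]
    have hb : ∀ᶠ τ : ℝ in 𝓝[Icc 0 1] 0, ‖hatτ g τ‖ ≤ 2 * C * τ := by
      have : Iio (1/4 : ℝ) ∈ 𝓝[Icc 0 1] (0:ℝ) := mem_nhdsWithin_of_mem_nhds (Iio_mem_nhds (by norm_num))
      filter_upwards [this, self_mem_nhdsWithin] with τ h1 h2
      rcases h2.1.eq_or_lt with h3 | h3
      · subst h3; simp [hatτ]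
      · unfold hatτ
        rw [if_neg h3.ne']
        have h4 : (4:ℝ) < τ⁻¹ := by
          rw [lt_inv_comm₀ (by norm_num) h3]
          have : τ < 1/4 := h1
          linarith
        have h5 := hC (2 - τ⁻¹) (by linarith)
        refine h5.trans ?_
        rw [abs_of_neg (by linarith), neg_sub]
        have h6 : τ⁻¹ / 2 ≤ τ⁻¹ - 2 := by linarith
        calc C / (τ⁻¹ - 2) ≤ C / (τ⁻¹ / 2) := by
              apply div_le_div_of_nonneg_left hC0 (by positivity) h6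
          _ = 2 * C * τ := by field_simp
    refine squeeze_zero_norm' hb ?_
    have : Tendsto (fun τ : ℝ => 2 * C * τ) (𝓝[Icc 0 1] 0) (𝓝 (2 * C * 0)) :=
      (Continuous.tendsto (by fun_prop) 0).mono_left nhdsWithin_le_nhds
    rwa [mul_zero] at this
  · have h1 : ContinuousAt (fun τ : ℝ => hat g (sqr (2 - τ⁻¹))) τ := by
      have h2 : ContinuousAt (fun τ : ℝ => 2 - τ⁻¹) τ :=
        continuousAt_const.sub (continuousAt_inv₀ h0.ne')
      exact ((continuous_hat hg).comp continuous_sqr).continuousAt.comp h2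
    refine (h1.congr ?_).continuousWithinAt
    filter_upwards [lt_mem_nhds h0] with x hx
    unfold hatτ
    rw [if_neg hx.ne']

/-- The star subalgebra of `C([0,1])` generated by the transforms. -/
def alg : StarSubalgebra ℂ C(Icc (0:ℝ) 1, ℂ) where
  carrier := {F | ∃ (c : ℂ) (g : ℝ → ℂ), IsTest g ∧ ∀ τ, F τ = c + hatτ g τ}
  mul_mem' := by
    rintro F G ⟨c, g, hg, hF⟩ ⟨d, f, hf, hG⟩
    refine ⟨c * d, fun u => (c * f u + d * g u) + cv g f u,
      ((hf.const_mul c).add (hg.const_mul d)).add (hg.cv hf), fun τ => ?_⟩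
    rw [ContinuousMap.mul_apply, hF, hG]
    unfold hatτ
    split_ifs
    · ring
    · rw [hat_add ((hf.const_mul c).add (hg.const_mul d)) (hg.cv hf),
        hat_add (hf.const_mul c) (hg.const_mul d), hat_const_mul, hat_const_mul, hat_cv hg hf]
      ring
  add_mem' := by
    rintro F G ⟨c, g, hg, hF⟩ ⟨d, f, hf, hG⟩
    refine ⟨c + d, fun u => g u + f u, hg.add hf, fun τ => ?_⟩
    rw [ContinuousMap.add_apply, hF, hG]
    unfold hatτ
    split_ifs
    · ring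
    · rw [hat_add hg hf]
      ring
  algebraMap_mem' := fun r => ⟨r, fun _ => 0, IsTest.zero, fun τ => by
    unfold hatτ
    have : hat (fun _ => 0) (sqr (2 - (τ:ℝ)⁻¹)) = 0 := by simp [hat]
    rw [this]
    simp⟩
  star_mem' := by
    rintro F ⟨c, g, hg, hF⟩
    refine ⟨conj c, fun u => conj (g u), hg.conj, fun τ => ?_⟩
    rw [ContinuousMap.star_apply, hF]
    unfold hatτ
    split_ifs
    · simp
    · rw [← hat_sqr_conj hg]
      simp

theorem separates_sq {s t : ℂ} (h : s ^ 2 ≠ t ^ 2) : ∃ g, IsTest g ∧ hat g s ≠ hat g t := by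
  obtain ⟨g, hg, hg0⟩ := exists_hat_ne_zero s
  by_contra hcon
  push Not at hcon
  have h1 := hcon g hg
  have h2 := hcon _ hg.deriv2
  rw [hat_deriv2 hg, hat_deriv2 hg, ← h1] at h2
  exact h (mul_right_cancel₀ hg0 h2)

/-- `hatτ g` as a continuous map. -/
def hatC {g : ℝ → ℂ} (hg : IsTest g) : C(Icc (0:ℝ) 1, ℂ) :=
  ⟨fun τ => hatτ g τ, by
    have := (continuousOn_hatτ hg)
    rw [continuousOn_iff_continuous_domRestrict] at this
    exact this⟩

theorem hatC_mem {g : ℝ → ℂ} (hg : IsTest g) : hatC hg ∈ alg :=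
  ⟨0, g, hg, fun τ => by rw [zero_add]; rfl⟩

theorem alg_separates : alg.SeparatesPoints := by
  intro x y hxy
  have hxy' : (x:ℝ) ≠ y := fun h => hxy (Subtype.ext h)
  suffices h : ∃ g, ∃ hg : IsTest g, hatτ g x ≠ hatτ g y by
    obtain ⟨g, hg, hne⟩ := h
    exact ⟨hatC hg, ⟨hatC hg, hatC_mem hg, rfl⟩, hne⟩
  by_cases hx : (x:ℝ) = 0
  · have hy : (y:ℝ) ≠ 0 := fun h => hxy' (hx.trans h.symm)
    obtain ⟨g, hg, hg0⟩ := exists_hat_ne_zero (sqr (2 - (y:ℝ)⁻¹))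
    refine ⟨g, hg, ?_⟩
    unfold hatτ
    rw [if_pos hx, if_neg hy]
    exact hg0.symm
  · by_cases hy : (y:ℝ) = 0
    · obtain ⟨g, hg, hg0⟩ := exists_hat_ne_zero (sqr (2 - (x:ℝ)⁻¹))
      refine ⟨g, hg, ?_⟩
      unfold hatτ
      rw [if_neg hx, if_pos hy]
      exact hg0
    · obtain ⟨g, hg, hg0⟩ := separates_sq (s := sqr (2 - (x:ℝ)⁻¹)) (t := sqr (2 - (y:ℝ)⁻¹)) (by
        rw [sqr_sq, sqr_sq]
        intro h
        have h' : (2:ℝ) - (x:ℝ)⁻¹ = 2 - (y:ℝ)⁻¹ := by exact_mod_cast h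
        exact hxy' (inv_injective (by linarith)))
      refine ⟨g, hg, ?_⟩
      unfold hatτ
      rw [if_neg hx, if_neg hy]
      exact hg0

/-- Every continuous function on `[0,1]` vanishing at `0` is a uniform limit of `hatτ g`. -/
theorem exists_hatτ_near (F : C(Icc (0:ℝ) 1, ℂ)) (hF : F ⟨0, by simp⟩ = 0) {ε : ℝ} (hε : 0 < ε) :
    ∃ g, IsTest g ∧ ∀ τ : Icc (0:ℝ) 1, ‖F τ - hatτ g τ‖ < ε := by
  have htop := ContinuousMap.starSubalgebra_topologicalClosure_eq_top_of_separatesPoints alg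
    alg_separates
  have hmem : F ∈ alg.topologicalClosure := by rw [htop]; trivial
  have hmem' : F ∈ closure (alg : Set C(Icc (0:ℝ) 1, ℂ)) := hmem
  rw [Metric.mem_closure_iff] at hmem'
  obtain ⟨G, ⟨c, g, hg, hG⟩, hd⟩ := hmem' (ε / 2) (half_pos hε)
  have hpt : ∀ τ, ‖F τ - G τ‖ < ε / 2 := by
    intro τ
    have := ContinuousMap.dist_apply_le_dist (f := F) (g := G) τ
    rw [dist_eq_norm] at this
    exact this.trans_lt hd
  have hc : ‖c‖ < ε / 2 := by
    have := hpt ⟨0, by simp⟩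
    rw [hF, hG] at this
    simpa [hatτ] using this
  refine ⟨g, hg, fun τ => ?_⟩
  have h1 := hpt τ
  rw [hG] at h1
  calc ‖F τ - hatτ g τ‖ = ‖(F τ - (c + hatτ g τ)) + c‖ := by congr 1; ring
    _ ≤ ‖F τ - (c + hatτ g τ)‖ + ‖c‖ := norm_add_le _ _
    _ < ε := by linarith

/-- **Isolation at infinity.** -/
theorem isolate {Ξ : Type*} {c : Ξ → ℂ} (hc : Summable fun ξ => ‖c ξ‖) {σ : Ξ → ℝ}
    (hσ : ∀ ξ, σ ξ ≤ 1) {C : ℂ} {σ₀ : ℝ} (hσ₀ : σ₀ ≤ 1)
    (h : ∀ g, IsTest g → ∑' ξ, c ξ * hat g (sqr (σ ξ)) = C * hat g (sqr σ₀)) :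
    ∑' ξ, (if σ ξ = σ₀ then c ξ else 0) = C := by
  classical
  -- the compact variable
  have hτ : ∀ x : ℝ, x ≤ 1 → (2 - x)⁻¹ ∈ Icc (0:ℝ) 1 := fun x hx => by
    have h2 : 1 ≤ 2 - x := by linarith
    exact ⟨inv_nonneg.mpr (by linarith), inv_le_one_of_one_le₀ h2⟩
  set τ : Ξ → Icc (0:ℝ) 1 := fun ξ => ⟨(2 - σ ξ)⁻¹, hτ _ (hσ ξ)⟩ with hτdef
  set τ₀ : Icc (0:ℝ) 1 := ⟨(2 - σ₀)⁻¹, hτ _ hσ₀⟩ with hτ₀
  have hhat : ∀ g, ∀ x : ℝ, x ≤ 1 → hatτ g (2 - x)⁻¹ = hat g (sqr x) := by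
    intro g x hx
    have h2 : 0 < 2 - x := by linarith
    unfold hatτ
    rw [if_neg (inv_ne_zero h2.ne'), inv_inv, sub_sub_cancel]
  have hpos₀ : 0 < (τ₀ : ℝ) := by
    have h2 : 0 < 2 - σ₀ := by linarith
    exact inv_pos.mpr h2
  -- extend to all continuous functions
  have hall : ∀ F : C(Icc (0:ℝ) 1, ℂ), F ⟨0, by simp⟩ = 0 →
      ∑' ξ, c ξ * F (τ ξ) = C * F τ₀ := by
    intro F hF
    have hFb : ∀ x, ‖F x‖ ≤ ‖F‖ := F.norm_coe_le_norm
    have hsF : Summable fun ξ => c ξ * F (τ ξ) := by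
      refine Summable.of_norm_bounded (hc.mul_right ‖F‖) fun ξ => ?_
      rw [norm_mul]
      exact mul_le_mul_of_nonneg_left (hFb _) (norm_nonneg _)
    rw [← sub_eq_zero, ← norm_eq_zero]
    refine le_antisymm (le_of_forall_pos_le_add fun ε hε => ?_) (norm_nonneg _)
    set S : ℝ := (∑' ξ, ‖c ξ‖) + ‖C‖ + 1 with hS
    have hS0 : 0 < S := by
      have : 0 ≤ ∑' ξ, ‖c ξ‖ := tsum_nonneg fun _ => norm_nonneg _
      have := norm_nonneg C
      positivity
    obtain ⟨g, hg, hgn⟩ := exists_hatτ_near F hF (div_pos hε hS0)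
    have hsg : Summable fun ξ => c ξ * hatτ g (τ ξ) := by
      have : ∀ ξ, c ξ * hatτ g (τ ξ) = c ξ * F (τ ξ) - c ξ * (F (τ ξ) - hatτ g (τ ξ)) :=
        fun ξ => by ring
      simp only [this]
      refine hsF.sub (Summable.of_norm_bounded (hc.mul_right (ε / S)) fun ξ => ?_)
      rw [norm_mul]
      exact mul_le_mul_of_nonneg_left (hgn _).le (norm_nonneg _)
    have hg' : ∑' ξ, c ξ * hatτ g (τ ξ) = C * hatτ g τ₀ := by
      have := h g hg
      rw [← hhat g σ₀ hσ₀] at this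
      rw [← this]
      exact tsum_congr fun ξ => by rw [hτdef]; simp only; rw [hhat g (σ ξ) (hσ ξ)]
    have hdiff : (∑' ξ, c ξ * F (τ ξ)) - C * F τ₀ =
        (∑' ξ, c ξ * (F (τ ξ) - hatτ g (τ ξ))) - C * (F τ₀ - hatτ g τ₀) := by
      have : ∑' ξ, c ξ * (F (τ ξ) - hatτ g (τ ξ)) =
          (∑' ξ, c ξ * F (τ ξ)) - ∑' ξ, c ξ * hatτ g (τ ξ) := by
        rw [← hsF.tsum_sub hsg]
        exact tsum_congr fun ξ => by ring
      rw [this, hg']
      ring
    rw [hdiff, zero_add]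
    have hsn : Summable fun ξ => ‖c ξ * (F (τ ξ) - hatτ g (τ ξ))‖ := by
      refine Summable.of_nonneg_of_le (fun _ => norm_nonneg _) (fun ξ => ?_) (hc.mul_right (ε / S))
      rw [norm_mul]
      exact mul_le_mul_of_nonneg_left (hgn _).le (norm_nonneg _)
    have h1 : ‖∑' ξ, c ξ * (F (τ ξ) - hatτ g (τ ξ))‖ ≤ (∑' ξ, ‖c ξ‖) * (ε / S) := by
      refine (norm_tsum_le_tsum_norm hsn).trans ?_
      rw [← tsum_mul_right]
      refine Summable.tsum_le_tsum (fun ξ => ?_) hsn (hc.mul_right (ε / S))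
      rw [norm_mul]
      exact mul_le_mul_of_nonneg_left (hgn _).le (norm_nonneg _)
    have h2 : ‖C * (F τ₀ - hatτ g τ₀)‖ ≤ ‖C‖ * (ε / S) := by
      rw [norm_mul]
      exact mul_le_mul_of_nonneg_left (hgn _).le (norm_nonneg _)
    calc ‖(∑' ξ, c ξ * (F (τ ξ) - hatτ g (τ ξ))) - C * (F τ₀ - hatτ g τ₀)‖
        ≤ (∑' ξ, ‖c ξ‖) * (ε / S) + ‖C‖ * (ε / S) := (norm_sub_le _ _).trans (add_le_add h1 h2)
      _ = ((∑' ξ, ‖c ξ‖) + ‖C‖) * (ε / S) := by ring
      _ ≤ S * (ε / S) := by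
          refine mul_le_mul_of_nonneg_right ?_ (by positivity)
          rw [hS]; linarith
      _ = ε := by field_simp
  -- tent functions
  let T : ℕ → C(Icc (0:ℝ) 1, ℂ) := fun n =>
    ⟨fun x => ((max 0 (1 - (n:ℝ) * |(x:ℝ) - τ₀|) : ℝ) : ℂ), by fun_prop⟩
  have hT0 : ∀ᶠ n : ℕ in atTop, T n ⟨0, by simp⟩ = 0 := by
    obtain ⟨N, hN⟩ := exists_nat_gt ((τ₀:ℝ)⁻¹)
    filter_upwards [eventually_ge_atTop N] with n hn
    have h3 : (τ₀:ℝ)⁻¹ < n := hN.trans_le (by exact_mod_cast hn)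
    have h4 : 1 < (n:ℝ) * τ₀ := by
      rw [inv_lt_iff_one_lt_mul₀ hpos₀] at h3
      linarith
    change ((max 0 (1 - (n:ℝ) * |(0:ℝ) - τ₀|) : ℝ) : ℂ) = 0
    rw [zero_sub, abs_neg, abs_of_pos hpos₀, max_eq_left (by linarith), Complex.ofReal_zero]
  have hT1 : ∀ n, T n τ₀ = 1 := by
    intro n
    change ((max 0 (1 - (n:ℝ) * |(τ₀:ℝ) - τ₀|) : ℝ) : ℂ) = 1
    simp
  have hlim : Tendsto (fun n => ∑' ξ, c ξ * T n (τ ξ)) atTop
      (𝓝 (∑' ξ, (if σ ξ = σ₀ then c ξ else 0))) := by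
    refine tendsto_tsum_of_dominated_convergence (bound := fun ξ => ‖c ξ‖) hc (fun ξ => ?_)
      (Eventually.of_forall fun n ξ => ?_)
    · by_cases hξ : σ ξ = σ₀
      · rw [if_pos hξ]
        have : τ ξ = τ₀ := by
          apply Subtype.ext
          simp only [hτdef, hτ₀, hξ]
        simp only [this, hT1, mul_one]
        exact tendsto_const_nhds
      · rw [if_neg hξ]
        have hne : 0 < |(τ ξ : ℝ) - τ₀| := by
          rw [abs_pos, sub_ne_zero]
          simp only [hτdef, hτ₀]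
          intro h5
          have := inv_injective h5
          exact hξ (by linarith)
        obtain ⟨N, hN⟩ := exists_nat_gt (|(τ ξ : ℝ) - τ₀|⁻¹)
        refine tendsto_const_nhds.congr' ?_
        filter_upwards [eventually_ge_atTop N] with n hn
        have h3 : |(τ ξ : ℝ) - τ₀|⁻¹ < n := hN.trans_le (by exact_mod_cast hn)
        have h4 : 1 < (n:ℝ) * |(τ ξ : ℝ) - τ₀| := by
          rw [inv_lt_iff_one_lt_mul₀ hne] at h3
          linarith
        change 0 = c ξ * ((max 0 (1 - (n:ℝ) * |(τ ξ:ℝ) - τ₀|) : ℝ) : ℂ)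
        rw [max_eq_left (by linarith), Complex.ofReal_zero, mul_zero]
    · rw [norm_mul]
      have : ‖T n (τ ξ)‖ ≤ 1 := by
        change ‖((max 0 (1 - (n:ℝ) * |(τ ξ:ℝ) - τ₀|) : ℝ) : ℂ)‖ ≤ 1
        rw [Complex.norm_real, Real.norm_eq_abs, abs_of_nonneg (le_max_left _ _)]
        refine max_le zero_le_one ?_
        have : 0 ≤ (n:ℝ) * |(τ ξ:ℝ) - τ₀| := by positivity
        linarith
      calc ‖c ξ‖ * ‖T n (τ ξ)‖ ≤ ‖c ξ‖ * 1 := mul_le_mul_of_nonneg_left this (norm_nonneg _)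
        _ = ‖c ξ‖ := mul_one _
  have hconst : Tendsto (fun n => ∑' ξ, c ξ * T n (τ ξ)) atTop (𝓝 C) := by
    refine tendsto_const_nhds.congr' ?_
    filter_upwards [hT0] with n hn
    rw [hall (T n) hn, hT1, mul_one]
  exact tendsto_nhds_unique hlim hconst

end Fermat.Agent.LT.CArch
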