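import Fermat.Agent.LT.CArch.Even

/-!
# Test functions and radial kernels on hyperbolic 3-space

A test function is an even smooth compactly supported `g : ℝ → ℂ`.  It defines the radial kernel
`kfun g v = - (1/2π) (g'/sinh) (arcosh v)`, `v = cosh (distance)`.
The Abel transform: `∫_ℂ kfun g (|w|²/(2a) + cosh u) dw = a g(u)`.
-/

open Set Filter Topology MeasureTheory
open scoped ContDiff

noncomputable section

namespace Fermat.Agent.LT.CArch

/-- Test functions: even smooth compactly supported functions on the line. -/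
structure IsTest (g : ℝ → ℂ) : Prop extends EvenSmooth g where
  compact : HasCompactSupport g

theorem IsTest.evenSmooth {g : ℝ → ℂ} (hg : IsTest g) : EvenSmooth g := hg.toEvenSmooth

theorem HasCompactSupport.exists_radius {g : ℝ → ℂ} (hg : HasCompactSupport g) :
    ∃ R : ℝ, 0 < R ∧ ∀ u, R ≤ |u| → g u = 0 := by
  obtain ⟨R, hR⟩ := hg.isBounded.subset_closedBall (0:ℝ)
  refine ⟨max R 0 + 1, by positivity, fun u hu => ?_⟩
  by_contra h
  have h1 := hR (subset_tsupport _ h)
  rw [mem_closedBall_zero_iff, Real.norm_eq_abs] at h1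
  have := le_max_left R 0
  linarith

theorem IsTest.exists_radius {g : ℝ → ℂ} (hg : IsTest g) :
    ∃ R : ℝ, 0 < R ∧ ∀ u, R ≤ |u| → g u = 0 :=
  HasCompactSupport.exists_radius hg.compact

theorem hasCompactSupport_of_radius {g : ℝ → ℂ} {R : ℝ} (h : ∀ u, R ≤ |u| → g u = 0) :
    HasCompactSupport g := by
  refine HasCompactSupport.intro (isCompact_closedBall (0:ℝ) R) fun u hu => h u ?_
  rw [mem_closedBall_zero_iff, Real.norm_eq_abs, not_le] at hu
  exact hu.le

theorem deriv_eq_zero_of_radius {g : ℝ → ℂ} {R : ℝ} (h : ∀ u, R ≤ |u| → g u = 0) {u : ℝ}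
    (hu : R < |u|) : deriv g u = 0 := by
  have : g =ᶠ[𝓝 u] fun _ => 0 := by
    have : {u : ℝ | R < |u|} ∈ 𝓝 u := (isOpen_lt continuous_const continuous_abs).mem_nhds hu
    filter_upwards [this] with x hx using h x (le_of_lt hx)
  rw [this.deriv_eq, deriv_const]

theorem EvenSmooth.dsh_eq_zero_of_radius {g : ℝ → ℂ} (hg : EvenSmooth g) {R : ℝ} (hR : 0 ≤ R)
    (h : ∀ u, R ≤ |u| → g u = 0) {u : ℝ} (hu : R < |u|) : CArch.dsh g u = 0 := by
  have hne : u ≠ 0 := by
    rintro rfl
    rw [abs_zero] at hu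
    exact absurd hR (not_le.mpr hu)
  have h1 := hg.deriv_eq_sinh_smul u
  rw [deriv_eq_zero_of_radius h hu] at h1
  rcases smul_eq_zero.mp h1.symm with h2 | h2
  · exact absurd (Real.sinh_eq_zero.mp h2) hne
  · exact h2

namespace IsTest

variable {g : ℝ → ℂ}

theorem dsh (hg : IsTest g) : IsTest (CArch.dsh g) := by
  obtain ⟨R, hR0, hR⟩ := hg.exists_radius
  refine ⟨hg.evenSmooth.dsh, hasCompactSupport_of_radius (R := R + 1) fun u hu => ?_⟩
  exact hg.evenSmooth.dsh_eq_zero_of_radius hR0.le hR (by linarith)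

theorem deriv2 (hg : IsTest g) : IsTest (deriv (deriv g)) :=
  ⟨hg.evenSmooth.deriv2, hg.compact.deriv.deriv⟩

theorem add {f g : ℝ → ℂ} (hf : IsTest f) (hg : IsTest g) : IsTest (fun u => f u + g u) :=
  ⟨hf.evenSmooth.add hg.evenSmooth, hf.compact.add hg.compact⟩

theorem const_mul (hg : IsTest g) (c : ℂ) : IsTest (fun u => c * g u) :=
  ⟨hg.evenSmooth.const_mul c, hg.compact.mul_left⟩

theorem sub {f g : ℝ → ℂ} (hf : IsTest f) (hg : IsTest g) : IsTest (fun u => f u - g u) := by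
  have := hf.add (hg.const_mul (-1))
  simpa [sub_eq_add_neg] using this

theorem zero : IsTest (fun _ => 0) :=
  ⟨⟨contDiff_const, fun _ => rfl⟩, HasCompactSupport.zero⟩

/-- The symmetrised translate `g(u+b) + g(u-b)`: the archimedean half of the Eisenstein killer. -/
theorem translate (hg : IsTest g) (b : ℝ) : IsTest (fun u => g (u + b) + g (u - b)) := by
  obtain ⟨R, hR0, hR⟩ := hg.exists_radius
  refine ⟨⟨(hg.smooth.comp (contDiff_id.add contDiff_const)).add
    (hg.smooth.comp (contDiff_id.sub contDiff_const)), fun u => ?_⟩,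
    hasCompactSupport_of_radius (R := R + |b|) fun u hu => ?_⟩
  · have h1 : g (-u + b) = g (u - b) := by rw [← hg.even]; congr 1; ring
    have h2 : g (-u - b) = g (u + b) := by rw [← hg.even]; congr 1; ring
    rw [h1, h2, add_comm]
  · have h1 : g (u + b) = 0 := hR _ (by
      have := abs_sub_abs_le_abs_sub u (-b)
      rw [abs_neg, sub_neg_eq_add] at this
      linarith)
    have h2 : g (u - b) = 0 := hR _ (by
      have := abs_sub_abs_le_abs_sub u b
      linarith)
    rw [h1, h2, add_zero]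

end IsTest

/-- The radial kernel attached to `g`, as a function of `v = cosh (distance)`. -/
def kfun (g : ℝ → ℂ) (v : ℝ) : ℂ := -(1 / (2 * (Real.pi : ℂ))) * dsh g (Real.arcosh v)

theorem kfun_hasDerivWithinAt {g : ℝ → ℂ} (hg : EvenSmooth g) {v : ℝ} (hv : 1 ≤ v) :
    HasDerivWithinAt (kfun g) (kfun (dsh g) v) (Ici 1) v :=
  (hasDerivWithinAt_arcosh hg.dsh hv).const_mul _

theorem kfun_contDiffOn {g : ℝ → ℂ} (hg : EvenSmooth g) : ContDiffOn ℝ ∞ (kfun g) (Ici 1) :=
  contDiffOn_const.mul (contDiffOn_arcosh hg.dsh)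

theorem kfun_continuousOn {g : ℝ → ℂ} (hg : EvenSmooth g) : ContinuousOn (kfun g) (Ici 1) :=
  (kfun_contDiffOn hg).continuousOn

theorem kfun_add {f g : ℝ → ℂ} (hf : EvenSmooth f) (hg : EvenSmooth g) (v : ℝ) :
    kfun (fun u => f u + g u) v = kfun f v + kfun g v := by
  have : dsh (fun u => f u + g u) = fun u => dsh f u + dsh g u := by
    refine (hf.add hg).dsh_unique (hf.dsh.continuous.add hg.dsh.continuous) fun u => ?_
    rw [smul_add, ← hf.deriv_eq_sinh_smul, ← hg.deriv_eq_sinh_smul]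
    exact deriv_add (hf.differentiable u) (hg.differentiable u)
  rw [kfun, this, kfun, kfun]
  ring

theorem kfun_const_mul {g : ℝ → ℂ} (hg : EvenSmooth g) (c : ℂ) (v : ℝ) :
    kfun (fun u => c * g u) v = c * kfun g v := by
  have : dsh (fun u => c * g u) = fun u => c * dsh g u := by
    refine (hg.const_mul c).dsh_unique (continuous_const.mul hg.dsh.continuous) fun u => ?_
    rw [← mul_smul_comm, ← hg.deriv_eq_sinh_smul]
    exact deriv_const_mul c (hg.differentiable u)
  rw [kfun, this, kfun]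
  ring

theorem kfun_sub {f g : ℝ → ℂ} (hf : EvenSmooth f) (hg : EvenSmooth g) (v : ℝ) :
    kfun (fun u => f u - g u) v = kfun f v - kfun g v := by
  have h := kfun_add hf (hg.const_mul (-1)) v
  rw [kfun_const_mul hg] at h
  simp only [neg_one_mul, ← sub_eq_add_neg] at h
  exact h

/-- Radial Laplacian: `(v²-1) K'' + 3 v K' + K = K_{g''}`. -/
theorem kfun_deriv2 {g : ℝ → ℂ} (hg : EvenSmooth g) {v : ℝ} (hv : 1 ≤ v) :
    kfun (deriv (deriv g)) v = ((v ^ 2 - 1 : ℝ) : ℂ) * kfun (dsh (dsh g)) v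
      + ((3 * v : ℝ) : ℂ) * kfun (dsh g) v + kfun g v := by
  unfold kfun
  rw [hg.dsh_deriv2]
  simp only [Real.sinh_arcosh hv, Real.cosh_arcosh hv, Complex.real_smul]
  rw [Real.sq_sqrt (by nlinarith)]
  ring

/-- The kernel has compact support: it vanishes for `v > cosh R`. -/
theorem kfun_eq_zero {g : ℝ → ℂ} (hg : EvenSmooth g) {R : ℝ} (hR : 0 ≤ R)
    (h : ∀ u, R ≤ |u| → g u = 0) {v : ℝ} (hv : Real.cosh R < v) : kfun g v = 0 := by
  have h1 : 1 ≤ v := (Real.one_le_cosh R).trans hv.le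
  have h2 : R < Real.arcosh v := by
    rw [← Real.arcosh_cosh hR]
    exact (Real.arcosh_lt_arcosh (Real.cosh_pos R) (by linarith)).mpr hv
  unfold kfun
  rw [hg.dsh_eq_zero_of_radius hR h (lt_of_lt_of_le h2 (le_abs_self _)), mul_zero]

/-- There is a bound `V` with `kfun g v = 0` for `v ≥ V`. -/
theorem IsTest.exists_kfun_eq_zero {g : ℝ → ℂ} (hg : IsTest g) :
    ∃ V : ℝ, 1 < V ∧ ∀ v, V ≤ v → kfun g v = 0 := by
  obtain ⟨R, hR0, hR⟩ := hg.exists_radius
  refine ⟨Real.cosh R + 1, by linarith [Real.one_le_cosh R], fun v hv => ?_⟩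
  exact kfun_eq_zero hg.evenSmooth hR0.le hR (by linarith)

/-- The kernel is bounded. -/
theorem IsTest.exists_bound {g : ℝ → ℂ} (hg : IsTest g) :
    ∃ C : ℝ, 0 < C ∧ ∀ v, 1 ≤ v → ‖kfun g v‖ ≤ C := by
  obtain ⟨V, hV1, hV⟩ := hg.exists_kfun_eq_zero
  obtain ⟨C, hC⟩ := (isCompact_Icc (a := (1:ℝ)) (b := V)).exists_bound_of_continuousOn
    ((kfun_continuousOn hg.evenSmooth).mono fun x hx => hx.1)
  refine ⟨max C 1, by positivity, fun v hv => ?_⟩
  rcases le_total v V with h | h
  · exact (hC v ⟨hv, h⟩).trans (le_max_left _ _)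
  · rw [hV v h, norm_zero]; positivity

/-- The kernel is Lipschitz in `v = cosh (distance)`. -/
theorem IsTest.exists_lipschitz {g : ℝ → ℂ} (hg : IsTest g) :
    ∃ C : ℝ, 0 < C ∧ ∀ v w, 1 ≤ v → 1 ≤ w → ‖kfun g v - kfun g w‖ ≤ C * |v - w| := by
  obtain ⟨C, hC0, hC⟩ := hg.dsh.exists_bound
  refine ⟨C, hC0, fun v w hv hw => ?_⟩
  have := (convex_Ici (1:ℝ)).norm_image_sub_le_of_norm_hasDerivWithin_le
    (fun x hx => kfun_hasDerivWithinAt hg.evenSmooth hx) (fun x hx => hC x hx) hw hv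
  rwa [Real.norm_eq_abs] at this

/-- The primitive: `v ↦ g (arcosh v)` has derivative `-2π kfun g`. -/
theorem hasDerivWithinAt_primitive {g : ℝ → ℂ} (hg : EvenSmooth g) {v : ℝ} (hv : 1 ≤ v) :
    HasDerivWithinAt (fun v => g (Real.arcosh v)) (-(2 * (Real.pi : ℂ)) * kfun g v) (Ici 1) v := by
  have h := hasDerivWithinAt_arcosh hg hv
  convert h using 1
  unfold kfun
  have : (Real.pi : ℂ) ≠ 0 := by exact_mod_cast Real.pi_ne_zero
  field_simp

/-- **Abel transform** of the radial kernel. -/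
theorem abel {g : ℝ → ℂ} (hg : IsTest g) {a c : ℝ} (ha : 0 < a) (hc : 1 ≤ c) :
    ∫ w : ℂ, kfun g (‖w‖ ^ 2 / (2 * a) + c) = a * g (Real.arcosh c) := by
  have h0 := integral_fun_norm_addHaar (μ := (volume : Measure ℂ))
    (fun r : ℝ => kfun g (r ^ 2 / (2 * a) + c))
  rw [h0, Complex.finrank_real_complex]
  have hvol : (volume : Measure ℂ).real (Metric.ball 0 1) = Real.pi := by
    rw [Measure.real, Complex.volume_ball]
    simp
  rw [hvol]
  obtain ⟨V, hV1, hV⟩ := hg.exists_kfun_eq_zero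
  obtain ⟨R, hR0, hR⟩ := hg.exists_radius
  -- the primitive
  set F : ℝ → ℂ := fun r => -((a / (2 * Real.pi) : ℝ) : ℂ) * g (Real.arcosh (r ^ 2 / (2 * a) + c))
    with hF
  have hmaps : ∀ r : ℝ, 1 ≤ r ^ 2 / (2 * a) + c := fun r => by
    have : 0 ≤ r ^ 2 / (2 * a) := by positivity
    linarith
  have hderiv : ∀ r : ℝ, HasDerivAt F ((r : ℂ) * kfun g (r ^ 2 / (2 * a) + c)) r := by
    intro r
    have h1 : HasDerivWithinAt (fun r : ℝ => r ^ 2 / (2 * a) + c) (r / a) univ r := by
      have := (((hasDerivAt_id r).pow 2).div_const (2 * a)).add_const c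
      refine (this.congr_deriv ?_).hasDerivWithinAt
      simp only [id]
      field_simp
      ring
    have h2 := (hasDerivWithinAt_primitive hg.evenSmooth (hmaps r)).scomp r h1
      (fun x _ => hmaps x)
    have h3 := (h2.const_mul (-((a / (2 * Real.pi) : ℝ) : ℂ))).hasDerivAt univ_mem
    refine h3.congr_deriv ?_
    simp only [Complex.real_smul]
    push_cast
    have : (Real.pi : ℂ) ≠ 0 := by exact_mod_cast Real.pi_ne_zero
    have ha' : (a : ℂ) ≠ 0 := by exact_mod_cast ha.ne'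
    field_simp
  have hbig : ∃ R' : ℝ, 0 < R' ∧ ∀ r, R' ≤ r → V ≤ r ^ 2 / (2 * a) + c ∧
      Real.cosh R ≤ r ^ 2 / (2 * a) + c := by
    refine ⟨2 * a * (V + Real.cosh R) + 1, ?_, fun r hr => ?_⟩
    · have := Real.cosh_pos R
      positivity
    · have hch := Real.cosh_pos R
      have h1 : 1 ≤ r := by
        have : 0 < 2 * a * (V + Real.cosh R) := by positivity
        linarith
      have h2 : 2 * a * (V + Real.cosh R) ≤ r ^ 2 := by nlinarith
      have h3 : V + Real.cosh R ≤ r ^ 2 / (2 * a) := by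
        rw [le_div_iff₀ (by positivity)]
        linarith
      constructor <;> linarith
  obtain ⟨R', hR'0, hR'⟩ := hbig
  have hcontf : Continuous (fun r : ℝ => (r : ℂ) * kfun g (r ^ 2 / (2 * a) + c)) := by
    refine Complex.continuous_ofReal.mul ?_
    exact (kfun_continuousOn hg.evenSmooth).comp_continuous (by fun_prop) hmaps
  have hint : IntegrableOn (fun r : ℝ => (r : ℂ) * kfun g (r ^ 2 / (2 * a) + c)) (Ioi 0) := by
    refine Integrable.integrableOn (Continuous.integrable_of_hasCompactSupport hcontf ?_)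
    refine HasCompactSupport.intro (isCompact_closedBall (0:ℝ) R') fun r hr => ?_
    rw [mem_closedBall_zero_iff, Real.norm_eq_abs, not_le] at hr
    have := (hR' |r| hr.le).1
    rw [sq_abs] at this
    rw [hV _ this, mul_zero]
  have htend : Tendsto F atTop (𝓝 0) := by
    refine tendsto_const_nhds.congr' ?_
    filter_upwards [eventually_ge_atTop R'] with r hr
    have h1 := (hR' r hr).2
    have h2 : R ≤ Real.arcosh (r ^ 2 / (2 * a) + c) := by
      rw [← Real.arcosh_cosh hR0.le]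
      exact (Real.arcosh_le_arcosh (Real.cosh_pos R) (by linarith [hmaps r])).mpr h1
    rw [hF]
    simp only
    rw [hR _ (h2.trans (le_abs_self _)), mul_zero]
  have hI := integral_Ioi_of_hasDerivAt_of_tendsto' (fun r _ => hderiv r) hint htend
  have hcongr : ∫ y in Ioi (0:ℝ), y ^ (2 - 1) • kfun g (y ^ 2 / (2 * a) + c) =
      ∫ y in Ioi (0:ℝ), (y : ℂ) * kfun g (y ^ 2 / (2 * a) + c) := by
    refine integral_congr_ae (Eventually.of_forall fun y => ?_)
    simp
  rw [hcongr, hI, hF]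
  simp only [nsmul_eq_mul, Complex.real_smul]
  have : (Real.pi : ℂ) ≠ 0 := by exact_mod_cast Real.pi_ne_zero
  push_cast
  rw [show (0:ℝ) ^ 2 / (2 * a) + c = c by simp]
  field_simp
  ring

end Fermat.Agent.LT.CArch
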