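import Fermat.Agent.LT.CArch.HalfSpace

/-!
# The hyperbolic Laplacian on the half space and Green's identity
-/

open Set Filter Topology MeasureTheory
open scoped ContDiff

noncomputable section

namespace Fermat.Agent.LT.CArch

/-- coordinate directions -/
def e1 : ℂ × ℝ := (1, 0)
/-- coordinate directions -/
def e2 : ℂ × ℝ := (Complex.I, 0)
/-- coordinate directions -/
def e3 : ℂ × ℝ := (0, 1)

/-- Directional derivative. -/
def pd (v : ℂ × ℝ) (φ : ℂ × ℝ → ℂ) (q : ℂ × ℝ) : ℂ := lineDeriv ℝ φ q v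

/-- The hyperbolic Laplacian `t² (∂x² + ∂y² + ∂t²) - t ∂t` (non-positive). -/
def lap (φ : ℂ × ℝ → ℂ) (q : ℂ × ℝ) : ℂ :=
  (q.2 ^ 2 : ℝ) • (pd e1 (pd e1 φ) q + pd e2 (pd e2 φ) q + pd e3 (pd e3 φ) q)
    - (q.2 : ℝ) • pd e3 φ q

theorem hs_mem_nhds {q : ℂ × ℝ} (hq : q ∈ hs) : hs ∈ 𝓝 q := isOpen_hs.mem_nhds hq

section

variable {φ : ℂ × ℝ → ℂ} {q v : ℂ × ℝ} {n : WithTop ℕ∞}

theorem differentiableAt_of_contDiffOn (hφ : ContDiffOn ℝ n φ hs) (hn : 1 ≤ n) (hq : q ∈ hs) :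
    DifferentiableAt ℝ φ q :=
  ((hφ.differentiableOn (by
    rintro rfl
    exact absurd hn (by simp))) q hq).differentiableAt (hs_mem_nhds hq)

theorem pd_eq_fderiv (hφ : ContDiffOn ℝ n φ hs) (hn : 1 ≤ n) (hq : q ∈ hs) (v : ℂ × ℝ) :
    pd v φ q = fderiv ℝ φ q v :=
  (differentiableAt_of_contDiffOn hφ hn hq).lineDeriv_eq_fderiv

theorem hasDerivAt_pd (hφ : ContDiffOn ℝ n φ hs) (hn : 1 ≤ n) (hq : q ∈ hs) (v : ℂ × ℝ) :
    HasDerivAt (fun t : ℝ => φ (q + t • v)) (pd v φ q) 0 :=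
  (differentiableAt_of_contDiffOn hφ hn hq).lineDifferentiableAt.hasLineDerivAt

theorem contDiffOn_pd {m : WithTop ℕ∞} (hφ : ContDiffOn ℝ n φ hs) (hmn : m + 1 ≤ n)
    (v : ℂ × ℝ) : ContDiffOn ℝ m (pd v φ) hs := by
  have h1 := (hφ.fderiv_of_isOpen isOpen_hs hmn).clm_apply (contDiffOn_const (c := v))
  refine h1.congr fun q hq => ?_
  exact pd_eq_fderiv hφ (le_trans (by simp) hmn) hq v

theorem pd_congr {φ ψ : ℂ × ℝ → ℂ} (h : EqOn φ ψ hs) (hq : q ∈ hs) (v : ℂ × ℝ) :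
    pd v φ q = pd v ψ q := by
  have : φ =ᶠ[𝓝 q] ψ := by
    filter_upwards [hs_mem_nhds hq] with x hx using h hx
  exact this.lineDeriv_eq

theorem lap_congr {φ ψ : ℂ × ℝ → ℂ} (h : EqOn φ ψ hs) (hq : q ∈ hs) : lap φ q = lap ψ q := by
  have h1 : ∀ v, EqOn (pd v φ) (pd v ψ) hs := fun v x hx => pd_congr h hx v
  unfold lap
  rw [pd_congr (h1 e1) hq, pd_congr (h1 e2) hq, pd_congr (h1 e3) hq, pd_congr h hq]

theorem continuousOn_lap (hφ : ContDiffOn ℝ 2 φ hs) : ContinuousOn (lap φ) hs := by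
  have h1 : ∀ v, ContDiffOn ℝ 1 (pd v φ) hs := fun v => contDiffOn_pd hφ (by norm_num) v
  have h2 : ∀ v, ContinuousOn (pd v (pd v φ)) hs := fun v =>
    (contDiffOn_pd (m := 0) (h1 v) (by norm_num) v).continuousOn
  have h3 := (h1 e3).continuousOn
  have a1 := h2 e1
  have a2 := h2 e2
  have a3 := h2 e3
  unfold lap
  fun_prop

end

theorem hasLineDerivAt_const' {q v : ℂ × ℝ} {E : Type*} [NormedAddCommGroup E] [NormedSpace ℝ E]
    (c : E) : HasLineDerivAt ℝ (fun _ : ℂ × ℝ => c) 0 q v :=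
  hasDerivAt_const _ _

theorem isAddHaarMeasure_volume : (volume : Measure (ℂ × ℝ)).IsAddHaarMeasure :=
  inferInstanceAs ((volume : Measure ℂ).prod (volume : Measure ℝ)).IsAddHaarMeasure

/-- The integral of a directional derivative of a compactly supported function vanishes. -/
theorem integral_pd_eq_zero {W : ℂ × ℝ → ℂ} {C : Set (ℂ × ℝ)} (hC : IsCompact C) (hCs : C ⊆ hs)
    (hW : ContDiffOn ℝ 1 W hs) (h0 : ∀ q ∈ hs, q ∉ C → W q = 0) (v : ℂ × ℝ) :
    ∫ q in hs, pd v W q = 0 := by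
  have hpc : ContinuousOn (pd v W) hs := (contDiffOn_pd (m := 0) hW (by norm_num) v).continuousOn
  have hp0 : ∀ q ∈ hs, q ∉ C → pd v W q = 0 := by
    intro q hq hqC
    have hopen : IsOpen (hs ∩ Cᶜ) := isOpen_hs.inter hC.isClosed.isOpen_compl
    have : W =ᶠ[𝓝 q] fun _ => 0 := by
      filter_upwards [hopen.mem_nhds ⟨hq, hqC⟩] with x hx using h0 x hx.1 hx.2
    unfold pd
    rw [this.lineDeriv_eq]
    exact (hasLineDerivAt_const' 0).lineDeriv
  have hint : IntegrableOn (pd v W) hs := by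
    refine ((hpc.mono hCs).integrableOn_compact hC).of_forall_sdiff_eq_zero measurableSet_hs ?_
    exact fun q hq => hp0 q hq.1 hq.2
  have hintW : IntegrableOn W hs := by
    refine ((hW.continuousOn.mono hCs).integrableOn_compact hC).of_forall_sdiff_eq_zero
      measurableSet_hs ?_
    exact fun q hq => h0 q hq.1 hq.2
  have hline : ∀ q, HasLineDerivAt ℝ (hs.indicator W) (hs.indicator (pd v W) q) q v := by
    intro q
    by_cases hq : q ∈ hs
    · rw [indicator_of_mem hq]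
      have h1 : HasLineDerivAt ℝ W (pd v W q) q v := hasDerivAt_pd hW le_rfl hq v
      refine h1.congr_of_eventuallyEq ?_
      filter_upwards [hs_mem_nhds hq] with x hx
      rw [indicator_of_mem hx]
    · rw [indicator_of_notMem hq]
      have h1 : HasLineDerivAt ℝ (fun _ : ℂ × ℝ => (0:ℂ)) 0 q v := hasLineDerivAt_const' 0
      refine h1.congr_of_eventuallyEq ?_
      have : Cᶜ ∈ 𝓝 q := hC.isClosed.isOpen_compl.mem_nhds fun h => hq (hCs h)
      filter_upwards [this] with x hx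
      by_cases hx' : x ∈ hs
      · rw [indicator_of_mem hx', h0 x hx' hx]
      · rw [indicator_of_notMem hx']
  have := isAddHaarMeasure_volume
  have h := integral_bilinear_hasLineDerivAt_right_eq_neg_left_of_integrable
    (μ := (volume : Measure (ℂ × ℝ)))
    (f := fun _ => (1:ℝ)) (f' := fun _ => 0) (g := hs.indicator W) (g' := hs.indicator (pd v W))
    (v := v) (B := ContinuousLinearMap.lsmul ℝ ℝ) (by simp)
    (by
      simp only [ContinuousLinearMap.lsmul_apply, one_smul]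
      exact (integrable_indicator_iff measurableSet_hs).mpr hint)
    (by
      simp only [ContinuousLinearMap.lsmul_apply, one_smul]
      exact (integrable_indicator_iff measurableSet_hs).mpr hintW)
    (fun x _ => hasLineDerivAt_const' 1) (fun x _ => hline x)
  simp only [ContinuousLinearMap.lsmul_apply, one_smul, zero_smul, integral_zero, neg_zero] at h
  rwa [integral_indicator measurableSet_hs] at h

/-- **Green's identity** on the half space. -/
theorem green {φ k : ℂ × ℝ → ℂ} {C : Set (ℂ × ℝ)} (hC : IsCompact C) (hCs : C ⊆ hs)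
    (hφ : ContDiffOn ℝ 2 φ hs) (hk : ContDiffOn ℝ 2 k hs) (h0 : ∀ q ∈ hs, q ∉ C → k q = 0) :
    ∫ q in hs, ((q.2 ^ 3)⁻¹ : ℝ) • (lap k q * φ q) =
      ∫ q in hs, ((q.2 ^ 3)⁻¹ : ℝ) • (k q * lap φ q) := by
  have hφ1 : ContDiffOn ℝ 1 φ hs := hφ.of_le (by norm_num)
  have hk1 : ContDiffOn ℝ 1 k hs := hk.of_le (by norm_num)
  have hpφ : ∀ v, ContDiffOn ℝ 1 (pd v φ) hs := fun v => contDiffOn_pd hφ (by norm_num) v
  have hpk : ∀ v, ContDiffOn ℝ 1 (pd v k) hs := fun v => contDiffOn_pd hk (by norm_num) v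
  have hopen : IsOpen (hs ∩ Cᶜ) := isOpen_hs.inter hC.isClosed.isOpen_compl
  have hp0 : ∀ (f : ℂ × ℝ → ℂ), (∀ q ∈ hs, q ∉ C → f q = 0) → ∀ v, ∀ q ∈ hs, q ∉ C →
      pd v f q = 0 := by
    intro f hf v q hq hqC
    have : f =ᶠ[𝓝 q] fun _ => 0 := by
      filter_upwards [hopen.mem_nhds ⟨hq, hqC⟩] with x hx using hf x hx.1 hx.2
    unfold pd
    rw [this.lineDeriv_eq]
    exact (hasLineDerivAt_const' 0).lineDeriv
  have hinv : ContDiffOn ℝ 1 (fun q : ℂ × ℝ => (q.2)⁻¹) hs := by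
    refine ContDiffOn.inv contDiff_snd.contDiffOn fun q hq => ?_
    have : 0 < q.2 := hq
    exact this.ne'
  set W : ℂ × ℝ → ℂ × ℝ → ℂ := fun v q => (q.2)⁻¹ • (φ q * pd v k q - k q * pd v φ q) with hWdef
  have hW : ∀ v, ContDiffOn ℝ 1 (W v) hs := fun v =>
    hinv.smul ((hφ1.mul (hpk v)).sub (hk1.mul (hpφ v)))
  have hW0 : ∀ v, ∀ q ∈ hs, q ∉ C → W v q = 0 := by
    intro v q hq hqC
    simp only [hWdef]
    rw [h0 q hq hqC, hp0 k h0 v q hq hqC]
    simp
  have hI : ∀ v, ∫ q in hs, pd v (W v) q = 0 := fun v => integral_pd_eq_zero hC hCs (hW v) (hW0 v) v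
  -- the derivative of `W v`
  have hdW : ∀ v q, q ∈ hs → pd v (W v) q = (-(v.2) / q.2 ^ 2) • (φ q * pd v k q - k q * pd v φ q)
      + (q.2)⁻¹ • (φ q * pd v (pd v k) q - k q * pd v (pd v φ) q) := by
    intro v q hq
    have hq' : (0:ℝ) < q.2 := hq
    have d0 : HasDerivAt (fun t : ℝ => ((q + t • v).2)⁻¹) (-(v.2) / q.2 ^ 2) 0 := by
      have : HasDerivAt (fun t : ℝ => (q + t • v).2) v.2 0 := by
        have h1 : (fun t : ℝ => (q + t • v).2) = fun t => q.2 + t * v.2 := by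
          funext t; simp
        rw [h1]
        simpa using ((hasDerivAt_id (0:ℝ)).mul_const v.2).const_add q.2
      have h2 := this.fun_inv (by simpa using hq'.ne')
      simpa using h2
    have d1 := hasDerivAt_pd hφ1 le_rfl hq v
    have d2 := hasDerivAt_pd hk1 le_rfl hq v
    have d3 := hasDerivAt_pd (hpφ v) le_rfl hq v
    have d4 := hasDerivAt_pd (hpk v) le_rfl hq v
    have d5 : HasDerivAt (fun t : ℝ => W v (q + t • v)) _ 0 :=
      d0.smul ((d1.mul d4).sub (d2.mul d3))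
    have d6 : pd v (W v) q = _ := d5.deriv
    rw [d6]
    simp only [zero_smul, add_zero, Complex.real_smul]
    ring
  have hsum : ∀ q ∈ hs, pd e1 (W e1) q + pd e2 (W e2) q + pd e3 (W e3) q =
      ((q.2 ^ 3)⁻¹ : ℝ) • (lap k q * φ q) - ((q.2 ^ 3)⁻¹ : ℝ) • (k q * lap φ q) := by
    intro q hq
    have hq' : (q.2 : ℂ) ≠ 0 := by
      have : (0:ℝ) < q.2 := hq
      exact_mod_cast this.ne'
    rw [hdW e1 q hq, hdW e2 q hq, hdW e3 q hq]
    unfold lap
    simp only [Complex.real_smul, e1, e2, e3]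
    push_cast
    field_simp
    ring
  -- integrability
  have hinv3 : ContinuousOn (fun q : ℂ × ℝ => (q.2 ^ 3)⁻¹) hs := by
    refine ContinuousOn.inv₀ (by fun_prop) fun q hq => ?_
    have : 0 < q.2 := hq
    positivity
  have hi1 : IntegrableOn (fun q => ((q.2 ^ 3)⁻¹ : ℝ) • (lap k q * φ q)) hs := by
    have hc : ContinuousOn (fun q => ((q.2 ^ 3)⁻¹ : ℝ) • (lap k q * φ q)) hs :=
      hinv3.smul ((continuousOn_lap hk).mul hφ.continuousOn)
    refine ((hc.mono hCs).integrableOn_compact hC).of_forall_sdiff_eq_zero measurableSet_hs ?_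
    intro q hq
    have : lap k q = 0 := by
      unfold lap
      rw [hp0 k h0 e3 q hq.1 hq.2, hp0 _ (hp0 k h0 e1) e1 q hq.1 hq.2,
        hp0 _ (hp0 k h0 e2) e2 q hq.1 hq.2, hp0 _ (hp0 k h0 e3) e3 q hq.1 hq.2]
      simp
    rw [this, zero_mul, smul_zero]
  have hi2 : IntegrableOn (fun q => ((q.2 ^ 3)⁻¹ : ℝ) • (k q * lap φ q)) hs := by
    have hc : ContinuousOn (fun q => ((q.2 ^ 3)⁻¹ : ℝ) • (k q * lap φ q)) hs :=
      hinv3.smul (hk.continuousOn.mul (continuousOn_lap hφ))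
    refine ((hc.mono hCs).integrableOn_compact hC).of_forall_sdiff_eq_zero measurableSet_hs ?_
    intro q hq
    rw [h0 q hq.1 hq.2, zero_mul, smul_zero]
  have hiW : ∀ v, IntegrableOn (pd v (W v)) hs := by
    intro v
    have hc : ContinuousOn (pd v (W v)) hs :=
      (contDiffOn_pd (m := 0) (hW v) (by norm_num) v).continuousOn
    refine ((hc.mono hCs).integrableOn_compact hC).of_forall_sdiff_eq_zero measurableSet_hs ?_
    exact fun q hq => hp0 _ (hW0 v) v q hq.1 hq.2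
  have hi12 : IntegrableOn (fun q => pd e1 (W e1) q + pd e2 (W e2) q) hs :=
    (hiW e1).add (hiW e2)
  rw [← sub_eq_zero, ← integral_sub hi1 hi2, ← setIntegral_congr_fun measurableSet_hs hsum,
    integral_add hi12 (hiW e3), integral_add (hiW e1) (hiW e2), hI, hI, hI]
  simp

end Fermat.Agent.LT.CArch
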