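import Fermat.Agent.LT.CArch.Kernel

/-!
# The transform of test functions and the one dimensional equation `h'' - s² h = g`
-/

open Set Filter Topology MeasureTheory
open scoped ContDiff

noncomputable section

namespace Fermat.Agent.LT.CArch

/-- `hat g s = ∫ g(u) e^{su} du`, the eigenvalue of the radial kernel `kfun g` with spectral
parameter `s`. -/
def hat (g : ℝ → ℂ) (s : ℂ) : ℂ := ∫ u : ℝ, g u * Complex.exp (s * u)

theorem continuous_cexp_mul (s : ℂ) : Continuous fun u : ℝ => Complex.exp (s * u) := by
  fun_prop

theorem IsTest.integrable_mul {g : ℝ → ℂ} (hg : IsTest g) {f : ℝ → ℂ} (hf : Continuous f) :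
    Integrable fun u => g u * f u :=
  (hg.evenSmooth.continuous.mul hf).integrable_of_hasCompactSupport hg.compact.mul_right

theorem IsTest.integrable {g : ℝ → ℂ} (hg : IsTest g) : Integrable g :=
  hg.evenSmooth.continuous.integrable_of_hasCompactSupport hg.compact

theorem hat_neg {g : ℝ → ℂ} (hg : ∀ u, g (-u) = g u) (s : ℂ) : hat g (-s) = hat g s := by
  unfold hat
  rw [← integral_neg_eq_self (fun u : ℝ => g u * Complex.exp (-s * u))]
  refine integral_congr_ae (Eventually.of_forall fun u => ?_)
  simp only [hg, Complex.ofReal_neg, neg_mul_neg]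

theorem hat_add {f g : ℝ → ℂ} (hf : IsTest f) (hg : IsTest g) (s : ℂ) :
    hat (fun u => f u + g u) s = hat f s + hat g s := by
  unfold hat
  rw [← integral_add (hf.integrable_mul (continuous_cexp_mul s))
    (hg.integrable_mul (continuous_cexp_mul s))]
  simp only [add_mul]

theorem hat_const_mul (g : ℝ → ℂ) (c s : ℂ) : hat (fun u => c * g u) s = c * hat g s := by
  unfold hat
  rw [← integral_const_mul]
  simp only [mul_assoc]

theorem hat_sub {f g : ℝ → ℂ} (hf : IsTest f) (hg : IsTest g) (s : ℂ) :
    hat (fun u => f u - g u) s = hat f s - hat g s := by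
  unfold hat
  rw [← integral_sub (hf.integrable_mul (continuous_cexp_mul s))
    (hg.integrable_mul (continuous_cexp_mul s))]
  simp only [sub_mul]

/-- The transform of the symmetrised translate: multiplication by `2 cosh (s b)`. -/
theorem hat_translate {g : ℝ → ℂ} (hg : IsTest g) (b : ℝ) (s : ℂ) :
    hat (fun u => g (u + b) + g (u - b)) s = 2 * Complex.cosh (s * b) * hat g s := by
  have h1 : ∫ u : ℝ, g (u + b) * Complex.exp (s * u) = Complex.exp (-(s * b)) * hat g s := by
    unfold hat
    rw [← integral_const_mul, ← integral_add_right_eq_self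
      (fun u : ℝ => Complex.exp (-(s * b)) * (g u * Complex.exp (s * u))) b]
    refine integral_congr_ae (Eventually.of_forall fun u => ?_)
    simp only
    rw [mul_left_comm, ← Complex.exp_add]
    congr 2
    push_cast
    ring
  have h2 : ∫ u : ℝ, g (u - b) * Complex.exp (s * u) = Complex.exp (s * b) * hat g s := by
    unfold hat
    rw [← integral_const_mul, ← integral_sub_right_eq_self
      (fun u : ℝ => Complex.exp (s * b) * (g u * Complex.exp (s * u))) b]
    refine integral_congr_ae (Eventually.of_forall fun u => ?_)
    simp only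
    rw [mul_left_comm, ← Complex.exp_add]
    congr 2
    push_cast
    ring
  have hi1 : Integrable fun u : ℝ => g (u + b) * Complex.exp (s * u) := by
    refine ((hg.evenSmooth.continuous.comp (continuous_add_const b)).mul
      (continuous_cexp_mul s)).integrable_of_hasCompactSupport ?_
    exact (hg.compact.comp_homeomorph (Homeomorph.addRight b)).mul_right
  have hi2 : Integrable fun u : ℝ => g (u - b) * Complex.exp (s * u) := by
    refine ((hg.evenSmooth.continuous.comp (continuous_sub_right b)).mul
      (continuous_cexp_mul s)).integrable_of_hasCompactSupport ?_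
    exact (hg.compact.comp_homeomorph (Homeomorph.subRight b)).mul_right
  have h3 : hat (fun u => g (u + b) + g (u - b)) s =
      (∫ u : ℝ, g (u + b) * Complex.exp (s * u)) + ∫ u : ℝ, g (u - b) * Complex.exp (s * u) := by
    unfold hat
    rw [← integral_add hi1 hi2]
    simp only [add_mul]
  rw [h3, h1, h2, Complex.cosh]
  ring

/-- Integration by parts against `e^{su}`. -/
theorem integral_deriv_mul_exp {f : ℝ → ℂ} (hf : ContDiff ℝ 1 f) (hc : HasCompactSupport f)
    (s : ℂ) : ∫ u : ℝ, deriv f u * Complex.exp (s * u) =
      -s * ∫ u : ℝ, f u * Complex.exp (s * u) := by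
  have hE : ∀ u : ℝ, HasDerivAt (fun u : ℝ => Complex.exp (s * u)) (s * Complex.exp (s * u)) u := by
    intro u
    have h1 : HasDerivAt (fun u : ℝ => s * (u : ℂ)) s u := by
      simpa using (Complex.ofRealCLM.hasDerivAt (x := u)).const_mul s
    have := h1.cexp
    rwa [mul_comm] at this
  have hcd : Continuous (deriv f) := hf.continuous_deriv le_rfl
  have h := integral_mul_deriv_eq_deriv_mul_of_integrable (u := f) (u' := deriv f)
    (v := fun u : ℝ => Complex.exp (s * u)) (v' := fun u : ℝ => s * Complex.exp (s * u))
    (fun x _ => (hf.differentiable one_ne_zero x).hasDerivAt) (fun x _ => hE x)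
    ((hf.continuous.mul (continuous_const.mul (continuous_cexp_mul s))).integrable_of_hasCompactSupport
      hc.mul_right)
    ((hcd.mul (continuous_cexp_mul s)).integrable_of_hasCompactSupport hc.deriv.mul_right)
    ((hf.continuous.mul (continuous_cexp_mul s)).integrable_of_hasCompactSupport hc.mul_right)
  have h2 : ∫ u : ℝ, f u * (s * Complex.exp (s * u)) =
      s * ∫ u : ℝ, f u * Complex.exp (s * u) := by
    rw [← integral_const_mul]
    refine integral_congr_ae (Eventually.of_forall fun u => ?_)
    simp only
    ring
  rw [h2] at h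
  rw [neg_mul, h, neg_neg]

theorem hat_deriv2 {g : ℝ → ℂ} (hg : IsTest g) (s : ℂ) :
    hat (deriv (deriv g)) s = s ^ 2 * hat g s := by
  unfold hat
  rw [integral_deriv_mul_exp (hg.evenSmooth.smooth_deriv.of_le (by exact_mod_cast le_top))
    hg.compact.deriv, integral_deriv_mul_exp (hg.smooth.of_le (by exact_mod_cast le_top))
    hg.compact]
  ring

/-! ### First order equations -/

/-- The solution `e^{-su} ∫_{-∞}^u e^{sw} g(w) dw` of `h' + s h = g`. -/
def prim (s : ℂ) (g : ℝ → ℂ) (u : ℝ) : ℂ :=
  Complex.exp (-(s * u)) * ∫ w in Iic u, Complex.exp (s * w) * g w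

theorem prim_spec {g : ℝ → ℂ} (hg : ContDiff ℝ ∞ g) (hc : HasCompactSupport g) (s : ℂ)
    (h0 : ∫ u : ℝ, g u * Complex.exp (s * u) = 0) :
    ContDiff ℝ ∞ (prim s g) ∧ HasCompactSupport (prim s g) ∧
      ∀ u, deriv (prim s g) u + s * prim s g u = g u := by
  obtain ⟨R, hR0, hR⟩ := HasCompactSupport.exists_radius hc
  set f : ℝ → ℂ := fun w => Complex.exp (s * w) * g w with hf
  have hfc : Continuous f := (continuous_cexp_mul s).mul hg.continuous
  have hfs : ContDiff ℝ ∞ f := by
    refine ContDiff.mul ?_ hg
    exact Complex.contDiff_exp.comp (contDiff_const.mul Complex.ofRealCLM.contDiff)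
  have hfcs : HasCompactSupport f := hc.mul_left
  have hfi : Integrable f := hfc.integrable_of_hasCompactSupport hfcs
  have hP : ∀ u, HasDerivAt (fun u => ∫ w in Iic u, f w) (f u) u := by
    intro u
    have h1 : ∀ x, ∫ w in Iic x, f w = (∫ w in Iic (u - 1), f w) + ∫ w in (u - 1)..x, f w := by
      intro x
      have := intervalIntegral.integral_Iic_sub_Iic (f := f) (a := u - 1) (b := x)
        hfi.integrableOn hfi.integrableOn
      rw [← this]; ring
    have h2 : HasDerivAt (fun x => ∫ w in (u - 1)..x, f w) (f u) u :=
      intervalIntegral.integral_hasDerivAt_right (hfc.intervalIntegrable _ _)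
        (hfc.stronglyMeasurableAtFilter _ _) hfc.continuousAt
    have h3 := h2.const_add (∫ w in Iic (u - 1), f w)
    exact h3.congr_of_eventuallyEq (Eventually.of_forall h1)
  have hPs : ContDiff ℝ ∞ (fun u => ∫ w in Iic u, f w) := by
    rw [contDiff_infty_iff_deriv]
    refine ⟨fun u => (hP u).differentiableAt, ?_⟩
    have : deriv (fun u => ∫ w in Iic u, f w) = f := funext fun u => (hP u).deriv
    rw [this]
    exact hfs
  have hE : ∀ u : ℝ, HasDerivAt (fun u : ℝ => Complex.exp (-(s * u)))
      (-s * Complex.exp (-(s * u))) u := by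
    intro u
    have h1 : HasDerivAt (fun u : ℝ => -(s * (u : ℂ))) (-s) u := by
      simpa using ((Complex.ofRealCLM.hasDerivAt (x := u)).const_mul s).fun_neg
    have := h1.cexp
    rwa [mul_comm] at this
  refine ⟨?_, ?_, fun u => ?_⟩
  · refine ContDiff.mul ?_ hPs
    exact Complex.contDiff_exp.comp (contDiff_const.mul Complex.ofRealCLM.contDiff).neg
  · refine hasCompactSupport_of_radius (R := R) fun u hu => ?_
    unfold prim
    have : ∫ w in Iic u, Complex.exp (s * w) * g w = 0 := by
      rcases le_abs.mp hu with h | h
      · have h1 : ∫ w in Iic u, Complex.exp (s * w) * g w = ∫ w : ℝ, Complex.exp (s * w) * g w := by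
          refine setIntegral_eq_integral_of_forall_compl_eq_zero fun w hw => ?_
          rw [mem_Iic, not_le] at hw
          rw [hR w (le_abs.mpr (Or.inl (h.trans hw.le))), mul_zero]
        rw [h1, ← h0]
        simp only [mul_comm]
      · refine setIntegral_eq_zero_of_forall_eq_zero fun w hw => ?_
        rw [mem_Iic] at hw
        rw [hR w (le_abs.mpr (Or.inr (by linarith))), mul_zero]
    rw [this, mul_zero]
  · have h1 := (hE u).mul (hP u)
    have h2 : deriv (prim s g) u = _ := h1.deriv
    rw [h2]
    unfold prim
    rw [hf]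
    simp only
    have h3 : Complex.exp (-(s * u)) * (Complex.exp (s * u) * g u) = g u := by
      rw [← mul_assoc, ← Complex.exp_add]
      simp
    linear_combination h3

/-- If `hat g s = 0` then `g = h'' - s² h` for a test function `h`. -/
theorem exists_ode {g : ℝ → ℂ} (hg : IsTest g) {s : ℂ} (h0 : hat g s = 0) :
    ∃ h : ℝ → ℂ, IsTest h ∧ ∀ u, deriv (deriv h) u - s ^ 2 * h u = g u := by
  obtain ⟨h1s, h1c, h1e⟩ := prim_spec hg.smooth hg.compact s h0
  set p := prim s g with hp
  -- the second condition
  have hp0 : ∫ u : ℝ, p u * Complex.exp (-s * u) = 0 := by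
    rcases eq_or_ne s 0 with rfl | hs
    · -- `p` is odd
      have hodd : ∀ u, p (-u) = - p u := by
        intro u
        have hsum : ∀ u : ℝ, p u + p (-u) = 0 := by
          have hd : ∀ u, HasDerivAt (fun u => p u + p (-u)) 0 u := by
            intro u
            have e1 := h1e u
            have e2 := h1e (-u)
            rw [zero_mul, add_zero] at e1 e2
            have d1 := ((h1s.differentiable (by simp)) u).hasDerivAt
            have d2 := ((h1s.differentiable (by simp)) (-u)).hasDerivAt
            have d3 := d2.scomp u (hasDerivAt_neg u)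
            have d4 := d1.add d3
            refine d4.congr_deriv ?_
            rw [e1, e2, hg.even, neg_smul, one_smul, add_neg_cancel]
          obtain ⟨R, hR0, hR⟩ := HasCompactSupport.exists_radius h1c
          intro u
          have hconst := is_const_of_deriv_eq_zero (f := fun u => p u + p (-u))
            (fun u => (hd u).differentiableAt) (fun u => (hd u).deriv)
          have hh : p u + p (-u) = p R + p (-R) := hconst u R
          rw [hh, hR R (le_abs_self R), hR (-R) (by rw [abs_neg]; exact le_abs_self R), add_zero]
        have := hsum u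
        linear_combination this
      have h2 := integral_neg_eq_self (fun u : ℝ => p u) volume
      have h3 : ∫ u : ℝ, p (-u) = - ∫ u : ℝ, p u := by
        rw [← integral_neg]
        exact integral_congr_ae (Eventually.of_forall hodd)
      rw [h3] at h2
      have h4 : ∫ u : ℝ, p u = 0 := by
        have : (2:ℂ) * ∫ u : ℝ, p u = 0 := by linear_combination -h2
        exact (mul_eq_zero.mp this).resolve_left two_ne_zero
      simpa using h4
    · have h2 := integral_deriv_mul_exp (h1s.of_le (by exact_mod_cast le_top)) h1c (-s)
      have h3 : hat g (-s) = 0 := by rw [hat_neg hg.even, h0]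
      have h4 : hat g (-s) = (∫ u : ℝ, deriv p u * Complex.exp (-s * u)) +
          s * ∫ u : ℝ, p u * Complex.exp (-s * u) := by
        unfold hat
        rw [← integral_const_mul, ← integral_add]
        · refine integral_congr_ae (Eventually.of_forall fun u => ?_)
          simp only
          rw [← h1e u]
          ring
        · exact ((h1s.continuous_deriv (by simp)).mul
            (continuous_cexp_mul (-s))).integrable_of_hasCompactSupport h1c.deriv.mul_right
        · exact (continuous_const.mul ((h1s.continuous.mul
            (continuous_cexp_mul (-s))))).integrable_of_hasCompactSupport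
            (h1c.mul_right).mul_left
      rw [h3, h2, neg_neg] at h4
      have h5 : (2 * s) * ∫ u : ℝ, p u * Complex.exp (-s * u) = 0 := by
        linear_combination -h4
      exact (mul_eq_zero.mp h5).resolve_left (mul_ne_zero two_ne_zero hs)
  obtain ⟨h2s, h2c, h2e⟩ := prim_spec h1s h1c (-s) hp0
  set q := prim (-s) p with hq
  -- `q'' - s² q = g`
  have hq2 : ∀ u, deriv (deriv q) u - s ^ 2 * q u = g u := by
    intro u
    have e : deriv q = fun u => p u + s * q u := by
      funext u
      linear_combination h2e u
    have d1 := ((h1s.differentiable (by simp)) u).hasDerivAt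
    have d2 := (((h2s.differentiable (by simp)) u).hasDerivAt).const_mul s
    have d3 : deriv (fun u => p u + s * q u) u = _ := (d1.add d2).deriv
    rw [e, d3]
    have := h1e u
    have h' := h2e u
    linear_combination this + s * h'
  -- make it even
  refine ⟨fun u => (1 / 2 : ℂ) * (q u + q (-u)), ⟨⟨?_, fun u => ?_⟩, ?_⟩, fun u => ?_⟩
  · exact contDiff_const.mul (h2s.add (h2s.comp contDiff_neg))
  · simp only [neg_neg]
    ring
  · refine HasCompactSupport.mul_left ?_
    exact h2c.add (h2c.comp_homeomorph (Homeomorph.neg ℝ))
  · have hdq : Differentiable ℝ q := h2s.differentiable (by simp)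
    have hdq' : Differentiable ℝ (deriv q) :=
      (contDiff_infty_iff_deriv.mp h2s).2.differentiable (by simp)
    have d1 : deriv (fun u => (1 / 2 : ℂ) * (q u + q (-u))) =
        fun u => (1 / 2 : ℂ) * (deriv q u - deriv q (-u)) := by
      funext u
      have a1 := (hdq u).hasDerivAt
      have a2 := ((hdq (-u)).hasDerivAt).scomp u (hasDerivAt_neg u)
      have a3 := (a1.add a2).const_mul (1 / 2 : ℂ)
      refine (a3.deriv).trans ?_
      rw [neg_smul, one_smul, sub_eq_add_neg]
    have d2 : deriv (fun u => (1 / 2 : ℂ) * (deriv q u - deriv q (-u))) u =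
        (1 / 2 : ℂ) * (deriv (deriv q) u + deriv (deriv q) (-u)) := by
      have a1 := (hdq' u).hasDerivAt
      have a2 := ((hdq' (-u)).hasDerivAt).scomp u (hasDerivAt_neg u)
      have a3 := (a1.sub a2).const_mul (1 / 2 : ℂ)
      refine (a3.deriv).trans ?_
      rw [neg_smul, one_smul, sub_neg_eq_add]
    rw [d1, d2]
    have e1 := hq2 u
    have e2 := hq2 (-u)
    rw [hg.even] at e2
    linear_combination (1 / 2 : ℂ) * e1 + (1 / 2 : ℂ) * e2

end Fermat.Agent.LT.CArch
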