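import Fermat.Agent.LT.CArch.Laplace

/-!
# The Laplacian of radial kernels; Laplace eigenfunctions are eigenfunctions of the kernels
-/

open Set Filter Topology MeasureTheory
open scoped ContDiff

noncomputable section

namespace Fermat.Agent.LT.CArch

section

variable {p q : ℂ × ℝ}

/-- `∂x` of `chc p` -/
def dc1 (p q : ℂ × ℝ) : ℝ := (q.1.re - p.1.re) / (p.2 * q.2)
/-- `∂y` of `chc p` -/
def dc2 (p q : ℂ × ℝ) : ℝ := (q.1.im - p.1.im) / (p.2 * q.2)
/-- `∂t` of `chc p` -/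
def dc3 (p q : ℂ × ℝ) : ℝ := 1 / p.2 - chc p q / q.2

theorem chc_expand (p q : ℂ × ℝ) : chc p q =
    ((q.1.re - p.1.re) ^ 2 + (q.1.im - p.1.im) ^ 2 + p.2 ^ 2 + q.2 ^ 2) / (2 * p.2 * q.2) := by
  unfold chc
  rw [Complex.normSq_apply]
  simp only [Complex.sub_re, Complex.sub_im]
  ring

theorem hasDerivAt_chc1 (p q : ℂ × ℝ) :
    HasDerivAt (fun t : ℝ => chc p (q + t • e1)) (dc1 p q) 0 := by
  have h : (fun t : ℝ => chc p (q + t • e1)) = fun t =>
      ((q.1.re + t - p.1.re) ^ 2 + (q.1.im - p.1.im) ^ 2 + p.2 ^ 2 + q.2 ^ 2) /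
        (2 * p.2 * q.2) := by
    funext t
    rw [chc_expand]
    simp [e1]
  rw [h]
  have h1 := ((((((hasDerivAt_id (0:ℝ)).const_add q.1.re).sub_const p.1.re).pow 2).add_const
    ((q.1.im - p.1.im) ^ 2)).add_const (p.2 ^ 2)).add_const (q.2 ^ 2)
  refine (h1.div_const (2 * p.2 * q.2)).congr_deriv ?_
  simp only [dc1, id, add_zero]
  rcases eq_or_ne (p.2 * q.2) 0 with h0 | h0
  · rw [h0, mul_assoc 2, h0]; simp
  · have : 2 * p.2 * q.2 ≠ 0 := by rw [mul_assoc]; exact mul_ne_zero two_ne_zero h0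
    field_simp
    ring

theorem hasDerivAt_chc2 (p q : ℂ × ℝ) :
    HasDerivAt (fun t : ℝ => chc p (q + t • e2)) (dc2 p q) 0 := by
  have h : (fun t : ℝ => chc p (q + t • e2)) = fun t =>
      ((q.1.im + t - p.1.im) ^ 2 + (q.1.re - p.1.re) ^ 2 + p.2 ^ 2 + q.2 ^ 2) /
        (2 * p.2 * q.2) := by
    funext t
    rw [chc_expand]
    simp only [e2, Prod.fst_add, Prod.smul_fst, Complex.add_re, Complex.real_smul,
      Complex.mul_re, Complex.ofReal_re, Complex.I_re, mul_zero, Complex.ofReal_im, Complex.I_im,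
      mul_one, sub_self, add_zero, Complex.add_im, Complex.mul_im, Prod.snd_add, Prod.smul_snd,
      smul_zero]
    ring
  rw [h]
  have h1 := ((((((hasDerivAt_id (0:ℝ)).const_add q.1.im).sub_const p.1.im).pow 2).add_const
    ((q.1.re - p.1.re) ^ 2)).add_const (p.2 ^ 2)).add_const (q.2 ^ 2)
  refine (h1.div_const (2 * p.2 * q.2)).congr_deriv ?_
  simp only [dc2, id, add_zero]
  rcases eq_or_ne (p.2 * q.2) 0 with h0 | h0
  · rw [h0, mul_assoc 2, h0]; simp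
  · have : 2 * p.2 * q.2 ≠ 0 := by rw [mul_assoc]; exact mul_ne_zero two_ne_zero h0
    field_simp
    ring

theorem hasDerivAt_chc3 (hp : p ∈ hs) (hq : q ∈ hs) :
    HasDerivAt (fun t : ℝ => chc p (q + t • e3)) (dc3 p q) 0 := by
  have hp' : 0 < p.2 := hp
  have hq' : 0 < q.2 := hq
  have h : (fun t : ℝ => chc p (q + t • e3)) = fun t =>
      ((q.2 + t) ^ 2 + ((q.1.re - p.1.re) ^ 2 + (q.1.im - p.1.im) ^ 2 + p.2 ^ 2)) /
        (2 * p.2 * (q.2 + t)) := by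
    funext t
    rw [chc_expand]
    simp only [e3, Prod.fst_add, Prod.smul_fst, smul_zero, add_zero, Prod.snd_add, Prod.smul_snd,
      smul_eq_mul, mul_one]
    ring
  rw [h]
  have h1 := (((hasDerivAt_id (0:ℝ)).const_add q.2).pow 2).add_const
    ((q.1.re - p.1.re) ^ 2 + (q.1.im - p.1.im) ^ 2 + p.2 ^ 2)
  have h2 := ((hasDerivAt_id (0:ℝ)).const_add q.2).const_mul (2 * p.2)
  refine (h1.div h2 (by simp only [id, add_zero]; positivity)).congr_deriv ?_
  simp only [dc3, id, add_zero, chc_expand, Pi.pow_apply]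
  field_simp
  ring

theorem hasDerivAt_dc1 (p q : ℂ × ℝ) :
    HasDerivAt (fun t : ℝ => dc1 p (q + t • e1)) (1 / (p.2 * q.2)) 0 := by
  have h : (fun t : ℝ => dc1 p (q + t • e1)) = fun t => (q.1.re + t - p.1.re) / (p.2 * q.2) := by
    funext t
    simp [dc1, e1]
  rw [h]
  exact (((hasDerivAt_id (0:ℝ)).const_add q.1.re).sub_const p.1.re).div_const _

theorem hasDerivAt_dc2 (p q : ℂ × ℝ) :
    HasDerivAt (fun t : ℝ => dc2 p (q + t • e2)) (1 / (p.2 * q.2)) 0 := by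
  have h : (fun t : ℝ => dc2 p (q + t • e2)) = fun t => (q.1.im + t - p.1.im) / (p.2 * q.2) := by
    funext t
    simp [dc2, e2]
  rw [h]
  exact (((hasDerivAt_id (0:ℝ)).const_add q.1.im).sub_const p.1.im).div_const _

theorem hasDerivAt_dc3 (hp : p ∈ hs) (hq : q ∈ hs) :
    HasDerivAt (fun t : ℝ => dc3 p (q + t • e3)) (-(dc3 p q) / q.2 + chc p q / q.2 ^ 2) 0 := by
  have hq' : 0 < q.2 := hq
  have h : (fun t : ℝ => dc3 p (q + t • e3)) =
      fun t => 1 / p.2 - chc p (q + t • e3) / (q.2 + t) := by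
    funext t
    simp [dc3, e3]
  rw [h]
  have h2 := (hasDerivAt_id (0:ℝ)).const_add q.2
  have h3 := ((hasDerivAt_chc3 hp hq).div h2 (by simp only [id, add_zero]; positivity)).const_sub
    (1 / p.2)
  refine h3.congr_deriv ?_
  simp only [id, add_zero, zero_smul]
  field_simp
  ring

/-- composition of a function on `[1,∞)` with `chc p` along a line -/
theorem hasDerivAt_comp_chc {K0 K1 : ℝ → ℂ} (hK : ∀ v, 1 ≤ v → HasDerivWithinAt K0 (K1 v) (Ici 1) v)
    (hp : p ∈ hs) (hq : q ∈ hs) {v : ℂ × ℝ} {c' : ℝ}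
    (hc : HasDerivAt (fun t : ℝ => chc p (q + t • v)) c' 0) :
    HasDerivAt (fun t : ℝ => K0 (chc p (q + t • v))) (c' • K1 (chc p q)) 0 := by
  have hnhd : {t : ℝ | q + t • v ∈ hs} ∈ 𝓝 (0:ℝ) := by
    have hcont : Continuous fun t : ℝ => q + t • v := by fun_prop
    have : (fun t : ℝ => q + t • v) 0 ∈ hs := by simpa using hq
    exact hcont.continuousAt.preimage_mem_nhds (hs_mem_nhds this)
  have h0 : chc p (q + (0:ℝ) • v) = chc p q := by simp
  have h1 := hK (chc p (q + (0:ℝ) • v)) (by rw [h0]; exact one_le_chc hp hq)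
  have h2 := h1.scomp (0:ℝ) (hc.hasDerivWithinAt (s := {t : ℝ | q + t • v ∈ hs}))
    (fun t ht => one_le_chc hp ht)
  rw [h0] at h2
  exact h2.hasDerivAt hnhd

/-- The Laplacian of a radial function. -/
theorem lap_radial {K0 K1 K2 : ℝ → ℂ}
    (hK0 : ∀ v, 1 ≤ v → HasDerivWithinAt K0 (K1 v) (Ici 1) v)
    (hK1 : ∀ v, 1 ≤ v → HasDerivWithinAt K1 (K2 v) (Ici 1) v) (hp : p ∈ hs) (hq : q ∈ hs) :
    lap (fun q => K0 (chc p q)) q = ((chc p q ^ 2 - 1 : ℝ) : ℂ) * K2 (chc p q) +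
      ((3 * chc p q : ℝ) : ℂ) * K1 (chc p q) := by
  have hp' : 0 < p.2 := hp
  have hq' : 0 < q.2 := hq
  have a1 : EqOn (pd e1 fun q => K0 (chc p q)) (fun q => dc1 p q • K1 (chc p q)) hs :=
    fun x hx => (hasDerivAt_comp_chc hK0 hp hx (hasDerivAt_chc1 p x)).deriv
  have a2 : EqOn (pd e2 fun q => K0 (chc p q)) (fun q => dc2 p q • K1 (chc p q)) hs :=
    fun x hx => (hasDerivAt_comp_chc hK0 hp hx (hasDerivAt_chc2 p x)).deriv
  have a3 : EqOn (pd e3 fun q => K0 (chc p q)) (fun q => dc3 p q • K1 (chc p q)) hs :=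
    fun x hx => (hasDerivAt_comp_chc hK0 hp hx (hasDerivAt_chc3 hp hx)).deriv
  have b1 : pd e1 (fun q => dc1 p q • K1 (chc p q)) q =
      dc1 p q • (dc1 p q • K2 (chc p q)) + (1 / (p.2 * q.2)) • K1 (chc p q) := by
    have := (hasDerivAt_dc1 p q).smul (hasDerivAt_comp_chc hK1 hp hq (hasDerivAt_chc1 p q))
    have h : pd e1 (fun q => dc1 p q • K1 (chc p q)) q = _ := this.deriv
    rw [h]; simp
  have b2 : pd e2 (fun q => dc2 p q • K1 (chc p q)) q =
      dc2 p q • (dc2 p q • K2 (chc p q)) + (1 / (p.2 * q.2)) • K1 (chc p q) := by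
    have := (hasDerivAt_dc2 p q).smul (hasDerivAt_comp_chc hK1 hp hq (hasDerivAt_chc2 p q))
    have h : pd e2 (fun q => dc2 p q • K1 (chc p q)) q = _ := this.deriv
    rw [h]; simp
  have b3 : pd e3 (fun q => dc3 p q • K1 (chc p q)) q =
      dc3 p q • (dc3 p q • K2 (chc p q)) +
        (-(dc3 p q) / q.2 + chc p q / q.2 ^ 2) • K1 (chc p q) := by
    have := (hasDerivAt_dc3 hp hq).smul (hasDerivAt_comp_chc hK1 hp hq (hasDerivAt_chc3 hp hq))
    have h : pd e3 (fun q => dc3 p q • K1 (chc p q)) q = _ := this.deriv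
    rw [h]; simp
  unfold lap
  rw [pd_congr a1 hq, pd_congr a2 hq, pd_congr a3 hq, b1, b2, b3, a3 hq]
  -- the algebra
  have hgrad : q.2 ^ 2 * (dc1 p q ^ 2 + dc2 p q ^ 2 + dc3 p q ^ 2) = chc p q ^ 2 - 1 := by
    unfold dc1 dc2 dc3
    rw [chc_expand]
    field_simp
    ring
  have hlap : q.2 ^ 2 * (1 / (p.2 * q.2) + 1 / (p.2 * q.2) +
      (-(dc3 p q) / q.2 + chc p q / q.2 ^ 2)) - q.2 * dc3 p q = 3 * chc p q := by
    unfold dc3
    field_simp
    ring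
  rw [← hgrad, ← hlap]
  simp only [Complex.real_smul]
  push_cast
  ring

/-- The Laplacian of the kernel `kfun g`. -/
theorem lap_kfun {g : ℝ → ℂ} (hg : EvenSmooth g) (hp : p ∈ hs) (hq : q ∈ hs) :
    lap (fun q => kfun g (chc p q)) q =
      kfun (deriv (deriv g)) (chc p q) - kfun g (chc p q) := by
  rw [lap_radial (fun v hv => kfun_hasDerivWithinAt hg hv)
    (fun v hv => kfun_hasDerivWithinAt hg.dsh hv) hp hq, kfun_deriv2 hg (one_le_chc hp hq)]
  ring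

end

/-- The integral operator with kernel `kfun g`. -/
def kop (g : ℝ → ℂ) (φ : ℂ × ℝ → ℂ) (p : ℂ × ℝ) : ℂ :=
  ∫ q in hs, ((q.2 ^ 3)⁻¹ : ℝ) • (kfun g (chc p q) * φ q)

theorem integrableOn_kop {g : ℝ → ℂ} (hg : IsTest g) {φ : ℂ × ℝ → ℂ} (hφ : ContinuousOn φ hs)
    {p : ℂ × ℝ} (hp : p ∈ hs) :
    IntegrableOn (fun q : ℂ × ℝ => ((q.2 ^ 3)⁻¹ : ℝ) • (kfun g (chc p q) * φ q)) hs := by
  obtain ⟨V, hV1, hV⟩ := hg.exists_kfun_eq_zero
  refine integrableOn_of_hball hp hV1.le ?_ fun q _ hqV => ?_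
  · have h1 := (contDiffOn_kfun_chc_right hg.evenSmooth hp).continuousOn
    have h3 : ContinuousOn (fun q : ℂ × ℝ => (q.2 ^ 3)⁻¹) hs := by
      refine ContinuousOn.inv₀ (by fun_prop) fun q hq => ?_
      have : 0 < q.2 := hq
      positivity
    exact h3.smul (h1.mul hφ)
  · rw [hV _ hqV.le, zero_mul, smul_zero]

theorem kop_add {f g : ℝ → ℂ} (hf : IsTest f) (hg : IsTest g) {φ : ℂ × ℝ → ℂ}
    (hφ : ContinuousOn φ hs) {p : ℂ × ℝ} (hp : p ∈ hs) :
    kop (fun u => f u + g u) φ p = kop f φ p + kop g φ p := by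
  unfold kop
  rw [← integral_add (integrableOn_kop hf hφ hp) (integrableOn_kop hg hφ hp)]
  refine setIntegral_congr_fun measurableSet_hs fun q hq => ?_
  rw [kfun_add hf.evenSmooth hg.evenSmooth, add_mul, smul_add]

theorem kop_const_mul {g : ℝ → ℂ} (hg : IsTest g) (c : ℂ) (φ : ℂ × ℝ → ℂ) (p : ℂ × ℝ) :
    kop (fun u => c * g u) φ p = c * kop g φ p := by
  unfold kop
  rw [← integral_const_mul]
  refine setIntegral_congr_fun measurableSet_hs fun q hq => ?_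
  rw [kfun_const_mul hg.evenSmooth, mul_assoc, mul_smul_comm]

theorem kop_sub {f g : ℝ → ℂ} (hf : IsTest f) (hg : IsTest g) {φ : ℂ × ℝ → ℂ}
    (hφ : ContinuousOn φ hs) {p : ℂ × ℝ} (hp : p ∈ hs) :
    kop (fun u => f u - g u) φ p = kop f φ p - kop g φ p := by
  unfold kop
  rw [← integral_sub (integrableOn_kop hf hφ hp) (integrableOn_kop hg hφ hp)]
  refine setIntegral_congr_fun measurableSet_hs fun q hq => ?_
  rw [kfun_sub hf.evenSmooth hg.evenSmooth, sub_mul, smul_sub]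

theorem kop_mul_right (g : ℝ → ℂ) (φ : ℂ × ℝ → ℂ) (c : ℂ) (p : ℂ × ℝ) :
    kop g (fun q => c * φ q) p = c * kop g φ p := by
  unfold kop
  rw [← integral_const_mul]
  refine setIntegral_congr_fun measurableSet_hs fun q hq => ?_
  rw [mul_left_comm, mul_smul_comm]

theorem kop_congr_right (g : ℝ → ℂ) {φ ψ : ℂ × ℝ → ℂ} (h : EqOn φ ψ hs) (p : ℂ × ℝ) :
    kop g φ p = kop g ψ p := by
  unfold kop
  refine setIntegral_congr_fun measurableSet_hs fun q hq => ?_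
  rw [h hq]

theorem two_le_infty : (2 : WithTop ℕ∞) ≤ ∞ := WithTop.coe_le_coe.mpr le_top

/-- Moving the Laplacian: `K_{g''} ⋆ φ - K_g ⋆ φ = K_g ⋆ (lap φ)`. -/
theorem kop_deriv2 {g : ℝ → ℂ} (hg : IsTest g) {φ : ℂ × ℝ → ℂ} (hφ : ContDiffOn ℝ 2 φ hs)
    {p : ℂ × ℝ} (hp : p ∈ hs) :
    kop (deriv (deriv g)) φ p - kop g φ p = kop g (lap φ) p := by
  obtain ⟨V, hV1, hV⟩ := hg.exists_kfun_eq_zero
  have hk : ContDiffOn ℝ 2 (fun q => kfun g (chc p q)) hs :=
    (contDiffOn_kfun_chc_right hg.evenSmooth hp).of_le two_le_infty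
  have h := green (isCompact_hball hp hV1.le) (hball_subset p V) hφ hk (fun q hq hqC => by
    refine hV _ (le_of_lt ?_)
    by_contra h
    exact hqC ⟨hq, not_lt.mp h⟩)
  rw [← kop_sub hg.deriv2 hg hφ.continuousOn hp]
  unfold kop
  rw [← h]
  refine setIntegral_congr_fun measurableSet_hs fun q hq => ?_
  rw [lap_kfun hg.evenSmooth hp hq, kfun_sub hg.evenSmooth.deriv2 hg.evenSmooth]

end Fermat.Agent.LT.CArch
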